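/-
S24 (genus of the function field of X₀(N) over ℚ̄): common definitions.
-/
import Mathlib
import Fermat.Prelude.Def_ModularCurve_ArithmeticGalois
import Fermat.Prelude.Def_ModularCurve_GenusNumerics
import Fermat.Prelude.Def_AlgebraicCurve_CanonicalDivisor

set_option autoImplicit false

open AlgebraicCurve IntermediateField

namespace Fermat.Agent.S24

/-! ### abstract algebra interface -/

section Abstract

variable (K F : Type*) [Field K] [Field F] [Algebra K F]

/-- A place `v` of `F/K` is *parametrised* if there is a ring hom `Θ : F → ℂ((s))`, constant on `K`,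
such that `order ∘ Θ = m • ord_v` for some `m > 0`. -/
def HasParam {K F : Type*} [Field K] [Field F] [Algebra K F] (v : Place K F) : Prop :=
  ∃ (Θ : F →+* LaurentSeries ℂ) (m : ℕ), 0 < m ∧
    (∀ a : K, ∃ c : ℂ, Θ (algebraMap K F a) = HahnSeries.C c) ∧
    ∀ f : F, f ≠ 0 → (Θ f).order = (m : ℤ) * v.ord f

/-- Local uniformisation data above the zero of `y ∈ F`: `#Q` distinct embeddings of `F` into
`ℂ((s))` which agree on `K(y)`, `y` has order `e`, and the permutation `π` of `Q` corresponds to the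
rotation `s ↦ ζ s`, `ζ` a primitive `e`-th root of unity. -/
structure LocalUnif (Q : Type*) (y : F) (e : ℕ) (π : Equiv.Perm Q) where
  Θ : Q → F →+* LaurentSeries ℂ
  ι : K →+* ℂ
  const : ∀ q a, Θ q (algebraMap K F a) = HahnSeries.C (ι a)
  agree : ∀ q q', Θ q y = Θ q' y
  inj : Function.Injective Θ
  order_y : ∀ q, (Θ q y).order = (e : ℤ)
  e_pos : 0 < e
  ζ : ℂ
  prim : IsPrimitiveRoot ζ e
  R : LaurentSeries ℂ →+* LaurentSeries ℂ
  R_coeff : ∀ u k, (R u).coeff k = ζ ^ k * u.coeff k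
  equiv : ∀ q, Θ (π q) = R.comp (Θ q)

end Abstract

/-! ### the modular function field -/

/-- `ℚ̄` -/
abbrev Kb := AlgebraicClosure ℚ

/-- a fixed embedding `ℚ̄ → ℂ` -/
noncomputable def iota : Kb →+* ℂ :=
  haveI : Algebra.IsAlgebraic ℚ (AlgebraicClosure ℚ) := AlgebraicClosure.isAlgebraic ℚ
  (IsAlgClosed.lift : AlgebraicClosure ℚ →ₐ[ℚ] ℂ).toRingHom

/-- the function field of `X₀(N)` over `ℚ̄` -/
abbrev FF (N : ℕ) := ↥(ModularCurve.modularFunctionFieldBar N)

/-- index set of the generators -/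
abbrev Dv (N : ℕ) := {d : ℕ // d ∣ N}

theorem Dv.pos {N : ℕ} [NeZero N] (d : Dv N) : 0 < d.1 :=
  Nat.pos_of_dvd_of_pos d.2 (Nat.pos_of_ne_zero (NeZero.ne N))

instance Dv.neZero {N : ℕ} [NeZero N] (d : Dv N) : NeZero d.1 := ⟨d.pos.ne'⟩

/-- the formal generators `j(q^d)`, `d ∣ N`, as Laurent series over `ℚ̄` -/
noncomputable def gen (N : ℕ) [NeZero N] (d : Dv N) : LaurentSeries Kb :=
  ModularCurve.coeffEmb Kb (ModularCurve.qExpand ℚ d.1 ModularCurve.jq)

theorem gen_mem (N : ℕ) [NeZero N] (d : Dv N) :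
    gen N d ∈ ModularCurve.modularFunctionFieldBar N :=
  ModularCurve.coeffEmb_mem_laurentBaseChange Kb (ModularCurve.jqd_mem_full N d.2)

/-- the generators as elements of the function field -/
noncomputable def genF (N : ℕ) [NeZero N] (d : Dv N) : FF N := ⟨gen N d, gen_mem N d⟩

/-- `j ∈ F` -/
noncomputable def jF (N : ℕ) [NeZero N] : FF N := genF N ⟨1, one_dvd N⟩

/-- evaluation of polynomials at the formal generators -/
noncomputable def evF (N : ℕ) [NeZero N] : MvPolynomial (Dv N) Kb →ₐ[Kb] FF N :=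
  MvPolynomial.aeval (genF N)

/-! ### analytic objects -/

open UpperHalfPlane ModularForm EisensteinSeries
open scoped MatrixGroups

/-- the analytic `j`-function -/
noncomputable def jfun (τ : ℍ) : ℂ := E₄ τ ^ 3 / ModularForm.discriminant τ

/-- `τ ↦ d τ` -/
noncomputable def dmul {N : ℕ} [NeZero N] (d : Dv N) (τ : ℍ) : ℍ :=
  ⟨(d.1 : ℂ) * τ, by
    have h : (0 : ℝ) < d.1 := by exact_mod_cast d.pos
    simpa using mul_pos h τ.im_pos⟩

/-- cosets -/
abbrev Q (N : ℕ) := SL(2, ℤ) ⧸ CongruenceSubgroup.Gamma0 N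

/-- the value at `τ` of the modular function attached to a polynomial in the generators -/
noncomputable def val (N : ℕ) [NeZero N] (P : MvPolynomial (Dv N) Kb) (τ : ℍ) : ℂ :=
  MvPolynomial.eval₂ iota (fun d => jfun (dmul d τ)) P

end Fermat.Agent.S24
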