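/-
S24: the analytic `q`-expansions of `E₄` and `Δ` are the prelude's formal power series.
Hints. `qExpansion_E₄`: `Fermat.Agent.S23.primA_eq`.  `qExpansion_discriminant`: Mathlib
`ModularForm.discriminant_cuspFunction_eqOn` gives `cuspFunction 1 Δ = q ∏' (1 - q^(n+1))^24` on the
unit ball; Taylor coefficients of the partial products converge to those of the limit (Cauchy estimate
`Complex.norm_iteratedDeriv_le_of_forall_mem_sphere_norm_le` + `norm_tprod_one_add_sub_one_le`-type
bounds, or `TendstoLocallyUniformlyOn.deriv`), and the coefficients of the formal partial products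
converge to those of `etaProd` (`HasProd` in the Pi topology, `PowerSeries.WithPiTopology`).
-/
import Fermat.Agent.S24.Defs
import Fermat.Agent.S23.Prim

set_option autoImplicit false

open UpperHalfPlane ModularForm EisensteinSeries Function
open scoped Manifold MatrixGroups

namespace Fermat.Agent.S24

theorem qExpansion_E₄ :
    qExpansion 1 E₄ = ModularCurve.eisenstein4.map (Int.castRingHom ℂ) := by
  ext m
  rw [Fermat.Agent.S23.primA_eq, PowerSeries.coeff_map, ModularCurve.eisenstein4,
    PowerSeries.coeff_mk, Fermat.Agent.S23.primA]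
  simp only [eq_intCast]
  congr 1
  split_ifs
  · rfl
  · simp [ArithmeticFunction.sigma_apply]

/-- evaluation of power series is multiplicative -/
lemma formalBridge_hasSum_mul {p r : PowerSeries ℂ} {q a b : ℂ}
    (hp : HasSum (fun n => PowerSeries.coeff n p * q ^ n) a)
    (hr : HasSum (fun n => PowerSeries.coeff n r * q ^ n) b) :
    HasSum (fun n => PowerSeries.coeff n (p * r) * q ^ n) (a * b) := by
  have h1 := hp.summable.norm
  have h2 := hr.summable.norm
  have h3 := tsum_mul_tsum_eq_tsum_sum_antidiagonal_of_summable_norm h1 h2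
  have h4 := (summable_norm_sum_mul_antidiagonal_of_summable_norm h1 h2).of_norm
  rw [hp.tsum_eq, hr.tsum_eq] at h3
  rw [h3]
  have h5 : (fun n => PowerSeries.coeff n (p * r) * q ^ n) = fun n =>
      ∑ kl ∈ Finset.HasAntidiagonal.antidiagonal n,
        PowerSeries.coeff kl.1 p * q ^ kl.1 * (PowerSeries.coeff kl.2 r * q ^ kl.2) := by
    funext n
    rw [PowerSeries.coeff_mul, Finset.sum_mul]
    refine Finset.sum_congr rfl fun kl hkl => ?_
    rw [← Finset.HasAntidiagonal.mem_antidiagonal.mp hkl, pow_add]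
    ring
  rw [h5]
  exact h4.hasSum

lemma formalBridge_hasSum_one (q : ℂ) :
    HasSum (fun n => PowerSeries.coeff n (1 : PowerSeries ℂ) * q ^ n) 1 := by
  convert hasSum_single (f := fun n => PowerSeries.coeff n (1 : PowerSeries ℂ) * q ^ n) 0 ?_ using 1
  · simp
  · intro n hn
    simp [PowerSeries.coeff_one, hn]

lemma formalBridge_hasSum_X (q : ℂ) :
    HasSum (fun n => PowerSeries.coeff n (PowerSeries.X : PowerSeries ℂ) * q ^ n) q := by
  convert hasSum_single (f := fun n => PowerSeries.coeff n (PowerSeries.X : PowerSeries ℂ) * q ^ n) 1 ?_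
    using 1
  · simp
  · intro n hn
    simp [PowerSeries.coeff_X, hn]

lemma formalBridge_hasSum_pow {p : PowerSeries ℂ} {q a : ℂ}
    (hp : HasSum (fun n => PowerSeries.coeff n p * q ^ n) a) (k : ℕ) :
    HasSum (fun n => PowerSeries.coeff n (p ^ k) * q ^ n) (a ^ k) := by
  induction k with
  | zero => simpa using formalBridge_hasSum_one q
  | succ k ih => rw [pow_succ, pow_succ]; exact formalBridge_hasSum_mul ih hp
open scoped PowerSeries.WithPiTopology

/-- weight of a finite set of indices -/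
def formalBridgeWt (s : Finset ℕ) : ℕ := ∑ i ∈ s, (i + 1)

lemma formalBridge_prod {R : Type*} [CommRing R] (x : R) (s : Finset ℕ) :
    ∏ i ∈ s, (-x ^ (i + 1)) = (-1) ^ s.card * x ^ formalBridgeWt s := by
  rw [formalBridgeWt, ← Finset.prod_pow_eq_pow_sum, ← Finset.prod_const, ← Finset.prod_mul_distrib]
  refine Finset.prod_congr rfl fun i _ => ?_
  ring

lemma formalBridge_map_etaProd :
    ModularCurve.etaProd.map (Int.castRingHom ℂ) =
      ∏' n : ℕ, (1 - (PowerSeries.X : PowerSeries ℂ) ^ (n + 1)) := by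
  have hc : Continuous (PowerSeries.map (Int.castRingHom ℂ)) := by
    rw [continuous_iff_continuousAt]
    intro p
    rw [ContinuousAt, PowerSeries.WithPiTopology.tendsto_iff_coeff_tendsto]
    intro d
    simp only [PowerSeries.coeff_map]
    exact ((continuous_of_discreteTopology (f := (Int.castRingHom ℂ))).comp
      (PowerSeries.WithPiTopology.continuous_coeff ℤ d)).tendsto p
  rw [ModularCurve.etaProd,
    (PowerSeries.WithPiTopology.multipliable_one_sub_X_pow ℤ).map_tprod _ hc]
  simp

lemma formalBridge_summable_formal :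
    Summable (fun s : Finset ℕ => ∏ i ∈ s, (-(PowerSeries.X : PowerSeries ℂ) ^ (i + 1))) := by
  apply PowerSeries.WithPiTopology.summable_prod_of_tendsto_order_atTop_nhds_top
  refine ENat.tendsto_nhds_top_iff_natCast_lt.mpr (fun n ↦ Filter.eventually_atTop.mpr ⟨n, ?_⟩)
  intro m hm
  rw [PowerSeries.order_neg, PowerSeries.order_X_pow]
  norm_cast
  exact Nat.lt_add_one_iff.mpr hm

lemma formalBridge_coeff_etaProd (k : ℕ) :
    PowerSeries.coeff k (ModularCurve.etaProd.map (Int.castRingHom ℂ)) =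
      ∑' s : Finset ℕ, if formalBridgeWt s = k then (-1 : ℂ) ^ s.card else 0 := by
  rw [formalBridge_map_etaProd]
  simp_rw [sub_eq_add_neg]
  rw [tprod_one_add formalBridge_summable_formal,
    formalBridge_summable_formal.map_tsum _ (PowerSeries.WithPiTopology.continuous_coeff ℂ k)]
  refine tsum_congr fun s => ?_
  rw [formalBridge_prod]
  have : ((-1 : PowerSeries ℂ) ^ s.card) = PowerSeries.C ((-1 : ℂ) ^ s.card) := by simp
  rw [this, PowerSeries.coeff_C_mul, PowerSeries.coeff_X_pow]
  split_ifs with h1 h2 h2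
  · simp
  · exact absurd h1.symm h2
  · exact absurd h2.symm h1
  · simp

lemma formalBridge_hasSum_etaProd {q : ℂ} (hq : ‖q‖ < 1) :
    HasSum (fun n => PowerSeries.coeff n (ModularCurve.etaProd.map (Int.castRingHom ℂ)) * q ^ n)
      (∏' n : ℕ, (1 - q ^ (n + 1))) := by
  have hs : Summable (fun i : ℕ => ‖-q ^ (i + 1)‖) := by
    simp only [norm_neg, norm_pow]
    simp only [pow_succ]
    exact (summable_geometric_of_lt_one (norm_nonneg _) hq).mul_right _
  have h1 := summable_finsetProd_of_summable_norm hs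
  have h2 := tprod_one_add h1
  simp_rw [sub_eq_add_neg]
  rw [h2]
  have h3 := h1.hasSum.tsum_fiberwise formalBridgeWt
  have h4 : (fun n => PowerSeries.coeff n (ModularCurve.etaProd.map (Int.castRingHom ℂ)) * q ^ n) =
      fun c => ∑' (b : ↑(formalBridgeWt ⁻¹' {c})), ∏ i ∈ (b : Finset ℕ), -q ^ (i + 1) := by
    classical
    funext k
    rw [formalBridge_coeff_etaProd, ← tsum_mul_right]
    rw [tsum_subtype (formalBridgeWt ⁻¹' {k}) (fun s => ∏ i ∈ s, (-q ^ (i + 1)))]
    refine tsum_congr fun s => ?_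
    rw [Set.indicator_apply, formalBridge_prod]
    simp only [Set.mem_preimage, Set.mem_singleton_iff]
    split_ifs with h
    · rw [h]
    · simp
  rw [h4]
  exact h3

theorem qExpansion_discriminant :
    qExpansion 1 ModularForm.discriminant =
      PowerSeries.X * ModularCurve.dedekindEtaUnit.map (Int.castRingHom ℂ) := by
  ext m
  symm
  refine ModularFormClass.qExpansion_coeff_unique (f := CuspForm.discriminant)
    (c := fun m => PowerSeries.coeff m
      (PowerSeries.X * ModularCurve.dedekindEtaUnit.map (Int.castRingHom ℂ)))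
    one_pos one_mem_strictPeriods_SL ?_ m
  intro τ
  have hq : ‖Periodic.qParam 1 τ‖ < 1 := Periodic.norm_qParam_lt_one one_pos τ.im_pos
  set q := Periodic.qParam 1 (τ : ℂ) with hqdef
  have h1 : CuspForm.discriminant τ = q * (∏' n : ℕ, (1 - q ^ (n + 1))) ^ 24 := by
    have hper := SlashInvariantFormClass.periodic_comp_ofComplex CuspForm.discriminant
      one_mem_strictPeriods_SL
    have h2 := eq_cuspFunction τ one_ne_zero hper
    have h3 := discriminant_cuspFunction_eqOn (x := q) (by simpa using hq)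
    rw [CuspForm.coe_discriminant] at h2
    rw [CuspForm.coe_discriminant, ← h2, h3]
    simp only
    rw [Multipliable.tprod_pow]
    simp_rw [sub_eq_add_neg]
    apply multipliable_one_add_of_summable
    simp only [norm_neg, norm_pow]
    simp only [pow_succ]
    exact (summable_geometric_of_lt_one (norm_nonneg _) hq).mul_right _
  rw [h1, ModularCurve.dedekindEtaUnit, map_pow]
  simp only [smul_eq_mul]
  exact formalBridge_hasSum_mul (formalBridge_hasSum_X q)
    (formalBridge_hasSum_pow (formalBridge_hasSum_etaProd hq) 24)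
lemma formalBridge_coe_dmul {N : ℕ} [NeZero N] (d : Dv N) (τ : ℍ) :
    ((dmul d τ : ℍ) : ℂ) = (d.1 : ℂ) * τ := rfl

lemma formalBridge_dmul_ofComplex {N : ℕ} [NeZero N] (d : Dv N) (f : ℍ → ℂ) {z : ℂ}
    (hz : 0 < z.im) : f (dmul d (ofComplex z)) = (f ∘ ofComplex) ((d.1 : ℂ) * z) := by
  have h : (0 : ℝ) < d.1 := by exact_mod_cast d.pos
  have hz' : 0 < ((d.1 : ℂ) * z).im := by simpa using mul_pos h hz
  rw [Function.comp_apply, ofComplex_apply_of_im_pos hz, ofComplex_apply_of_im_pos hz']
  rfl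

lemma formalBridge_periodic (N : ℕ) [NeZero N] (d : Dv N) (f : ℍ → ℂ)
    (hper : Periodic (f ∘ ofComplex) ((1 : ℝ) : ℂ)) :
    Periodic ((fun τ => f (dmul d τ)) ∘ ofComplex) ((N : ℝ) : ℂ) := by
  intro z
  simp only [Function.comp_apply]
  by_cases hz : 0 < z.im
  · have hz' : 0 < (z + ((N : ℝ) : ℂ)).im := by simpa using hz
    rw [formalBridge_dmul_ofComplex d f hz, formalBridge_dmul_ofComplex d f hz']
    have := (hper.nat_mul (d.1 * N)) ((d.1 : ℂ) * z)
    rw [← this]
    congr 1
    push_cast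
    ring
  · have hz' : ¬ 0 < (z + ((N : ℝ) : ℂ)).im := by simpa using hz
    rw [ofComplex_apply_eq_of_im_nonpos (not_lt.mp hz') (not_lt.mp hz)]

lemma formalBridge_mdiff (N : ℕ) [NeZero N] (d : Dv N) (f : ℍ → ℂ) (hol : MDiff f) :
    MDiff (fun τ => f (dmul d τ)) := by
  rw [UpperHalfPlane.mdifferentiable_iff] at hol ⊢
  have h : (0 : ℝ) < d.1 := by exact_mod_cast d.pos
  have h1 : DifferentiableOn ℂ ((f ∘ ofComplex) ∘ fun z : ℂ => (d.1 : ℂ) * z) {z | 0 < z.im} := by
    refine hol.comp (by fun_prop) ?_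
    intro z hz
    simpa using mul_pos h hz
  refine h1.congr ?_
  intro z hz
  exact formalBridge_dmul_ofComplex d f hz

lemma formalBridge_hasSum_dmul (N : ℕ) [NeZero N] (d : Dv N) (f : ℍ → ℂ)
    (hper : Periodic (f ∘ ofComplex) ((1 : ℝ) : ℂ)) (hol : MDiff f) (hbdd : IsBoundedAtImInfty f)
    (τ : ℍ) :
    HasSum (fun m : ℕ => (if (N * d.1) ∣ m then (qExpansion 1 f).coeff (m / (N * d.1)) else 0) •
      Periodic.qParam (N : ℝ) τ ^ m) (f (dmul d τ)) := by
  have hN : 0 < N * d.1 := Nat.mul_pos (Nat.pos_of_ne_zero (NeZero.ne N)) d.pos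
  have hN' : (N : ℂ) ≠ 0 := by exact_mod_cast NeZero.ne N
  have h0 := hasSum_qExpansion one_pos hper hol hbdd (dmul d τ)
  have hq : Periodic.qParam 1 ((dmul d τ : ℍ) : ℂ) = Periodic.qParam (N : ℝ) τ ^ (N * d.1) := by
    rw [formalBridge_coe_dmul, Periodic.qParam, Periodic.qParam, ← Complex.exp_nat_mul]
    congr 1
    push_cast
    field_simp
  have hinj : Function.Injective (fun m : ℕ => (N * d.1) * m) :=
    fun a b h => Nat.eq_of_mul_eq_mul_left hN h
  rw [← hinj.hasSum_iff]
  · convert h0 using 2 with m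
    simp only [Function.comp_apply, dvd_mul_right, if_true, Nat.mul_div_cancel_left _ hN, hq,
      smul_eq_mul, pow_mul]
  · intro n hn
    have : ¬ (N * d.1) ∣ n := fun ⟨m, hm⟩ => hn ⟨m, hm.symm⟩
    simp [this]

lemma formalBridge_coeff_unique {h : ℝ} {f : ℍ → ℂ} {c : ℕ → ℂ} (hh : 0 < h)
    (han : AnalyticAt ℂ (cuspFunction h f) 0)
    (hf : ∀ τ : ℍ, HasSum (fun m ↦ c m • Periodic.qParam h τ ^ m) (f τ)) (m : ℕ) :
    c m = (qExpansion h f).coeff m := by
  let _ : FunLike (ℍ → ℂ) ℍ ℂ := ⟨fun f => f, fun _ _ h => h⟩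
  exact qExpansion_coeff_unique f hh han hf m

/-- the expansion in `s = exp(2πiτ/N)` of `τ ↦ f(dτ)` is the `q`-expansion of `f` at `q = s^(Nd)`. -/
theorem qExpansion_dmul (N : ℕ) [NeZero N] (d : Dv N) (f : ℍ → ℂ)
    (hper : Periodic (f ∘ ofComplex) ((1 : ℝ) : ℂ)) (hol : MDiff f) (hbdd : IsBoundedAtImInfty f) :
    HahnSeries.ofPowerSeries ℤ ℂ (qExpansion (N : ℝ) (fun τ => f (dmul d τ))) =
      ModularCurve.qExpand ℂ (N * d.1) (HahnSeries.ofPowerSeries ℤ ℂ (qExpansion 1 f)) := by
  have hNpos : (0 : ℝ) < N := by exact_mod_cast Nat.pos_of_ne_zero (NeZero.ne N)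
  have hN : 0 < N * d.1 := Nat.mul_pos (Nat.pos_of_ne_zero (NeZero.ne N)) d.pos
  have hs := formalBridge_hasSum_dmul N d f hper hol hbdd
  have han : AnalyticAt ℂ (cuspFunction (N : ℝ) (fun τ => f (dmul d τ))) 0 :=
    analyticAt_cuspFunction_zero hNpos (formalBridge_periodic N d f hper)
      (formalBridge_mdiff N d f hol) (isBoundedAtImInfty_of_hasSum_qExpansion hNpos hs)
  have hc := formalBridge_coeff_unique hNpos han hs
  ext k
  by_cases hk : 0 ≤ k
  · obtain ⟨m, rfl⟩ := Int.eq_ofNat_of_zero_le hk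
    rw [HahnSeries.ofPowerSeries_apply_coeff, ← hc m]
    split_ifs with hdvd
    · obtain ⟨c, rfl⟩ := hdvd
      rw [Nat.mul_div_cancel_left _ hN]
      have : (((N * d.1 * c : ℕ)) : ℤ) = ((N * d.1 : ℕ) : ℤ) * (c : ℤ) := by push_cast; ring
      rw [this, ModularCurve.qExpand_coeff_mul, HahnSeries.ofPowerSeries_apply_coeff]
    · rw [ModularCurve.qExpand_coeff_of_not_dvd]
      exact_mod_cast hdvd
  · have hk' : k < 0 := not_le.mp hk
    rw [ModularCurve.ofPowerSeries_coeff_of_neg _ hk']
    by_cases hdvd : ((N * d.1 : ℕ) : ℤ) ∣ k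
    · obtain ⟨c, rfl⟩ := hdvd
      rw [ModularCurve.qExpand_coeff_mul, ModularCurve.ofPowerSeries_coeff_of_neg]
      have : (0 : ℤ) < ((N * d.1 : ℕ) : ℤ) := by exact_mod_cast hN
      by_contra hc0
      exact absurd hk' (not_lt.mpr (mul_nonneg this.le (not_lt.mp hc0)))
    · rw [ModularCurve.qExpand_coeff_of_not_dvd _ _ hdvd]

end Fermat.Agent.S24
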