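/-
S24, general differential part (D1): for a field `F` algebraic over `K(x)`, `x` transcendental,
char 0, the module `Ω[F⁄K]` is one-dimensional, generated by `D x ≠ 0`.
-/
import Mathlib

set_option autoImplicit false
set_option linter.style.haveILetI false

open KaehlerDifferential Polynomial IntermediateField
open scoped IntermediateField.algebraAdjoinAdjoin TensorProduct

namespace Fermat.Agent.S24

variable (K : Type*) {F : Type*} [Field K] [Field F] [Algebra K F]

/-- `d/dx` on `K[x]`, with values in `F`. -/
noncomputable def diffPolyDer (x : F) (hx : Transcendental K x) :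
    Derivation K (Algebra.adjoin K {x}) F :=
  Derivation.mk'
    { toFun := fun a => aeval x (derivative ((algEquivOfTranscendental K x hx).symm a))
      map_add' := by intro a b; simp
      map_smul' := by intro c a; simp }
    (by
      intro a b
      have key : ∀ a : Algebra.adjoin K {x},
          aeval x ((algEquivOfTranscendental K x hx).symm a) = (a : F) := by
        intro a
        obtain ⟨p, rfl⟩ := (algEquivOfTranscendental K x hx).surjective a
        rw [AlgEquiv.symm_apply_apply, algEquivOfTranscendental_apply]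
        simp
      simp only [LinearMap.coe_mk, AddHom.coe_mk, map_mul, derivative_mul, map_add, key]
      rw [Algebra.smul_def, Algebra.smul_def]
      change _ = (a : F) * _ + (b : F) * _
      ring)

theorem diffPolyDer_gen (x : F) (hx : Transcendental K x) :
    diffPolyDer K x hx ⟨x, Algebra.self_mem_adjoin_singleton K x⟩ = 1 := by
  simp [diffPolyDer]

theorem diff_formallyEtale [CharZero K] (x : F) [Algebra.IsAlgebraic K⟮x⟯ F] :
    Algebra.FormallyEtale (Algebra.adjoin K {x}) F := by
  have h1 : Algebra.FormallyEtale (Algebra.adjoin K {x}) K⟮x⟯ :=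
    Algebra.FormallyEtale.of_isLocalization (nonZeroDivisors (Algebra.adjoin K {x}))
  have : CharZero K⟮x⟯ := charZero_of_injective_algebraMap (algebraMap K K⟮x⟯).injective
  have h2 : Algebra.FormallyEtale K⟮x⟯ F := Algebra.FormallyEtale.of_isSeparable K⟮x⟯ F
  exact Algebra.FormallyEtale.comp (Algebra.adjoin K {x}) K⟮x⟯ F

/-- the derivation `d/dx` of `F`. -/
noncomputable def diffDer [CharZero K] (x : F) (hx : Transcendental K x) [Algebra.IsAlgebraic K⟮x⟯ F] :
    Derivation K F F :=
  haveI := diff_formallyEtale K x
  (((diffPolyDer K x hx).liftKaehlerDifferential.liftBaseChange F).comp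
    (tensorKaehlerEquivOfFormallyEtale K (Algebra.adjoin K {x}) F).symm.toLinearMap).compDer (D K F)

theorem diffDer_self [CharZero K] (x : F) (hx : Transcendental K x) [Algebra.IsAlgebraic K⟮x⟯ F] :
    diffDer K x hx x = 1 := by
  haveI := diff_formallyEtale K x
  have h := tensorKaehlerEquivOfFormallyEtale_symm_D_algebraMap K (Algebra.adjoin K {x}) F
    ⟨x, Algebra.self_mem_adjoin_singleton K x⟩
  have h' : algebraMap (Algebra.adjoin K {x}) F ⟨x, Algebra.self_mem_adjoin_singleton K x⟩ = x := rfl
  rw [h'] at h
  change (LinearMap.liftBaseChange F (diffPolyDer K x hx).liftKaehlerDifferential)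
    ((tensorKaehlerEquivOfFormallyEtale K (Algebra.adjoin K {x}) F).symm (D K F x)) = 1
  rw [h, LinearMap.liftBaseChange_tmul, Derivation.liftKaehlerDifferential_comp_D, diffPolyDer_gen,
    one_smul]

theorem diff_D_ne_zero [CharZero K] (x : F) (hx : Transcendental K x) [Algebra.IsAlgebraic K⟮x⟯ F] :
    D K F x ≠ 0 := by
  intro h
  have h1 := (diffDer K x hx).liftKaehlerDifferential_comp_D x
  rw [h, map_zero, diffDer_self] at h1
  exact zero_ne_one h1

theorem diff_map_mem (x : F) (η : Ω[Algebra.adjoin K {x}⁄K]) :
    KaehlerDifferential.map K K (Algebra.adjoin K {x}) F η ∈ Submodule.span F {D K F x} := by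
  have hη : η ∈ Submodule.span (Algebra.adjoin K {x}) (Set.range (D K (Algebra.adjoin K {x}))) := by
    rw [KaehlerDifferential.span_range_derivation]; trivial
  induction hη using Submodule.span_induction with
  | mem y hy =>
    obtain ⟨a, rfl⟩ := hy
    rw [KaehlerDifferential.map_D]
    obtain ⟨p, hp⟩ := Algebra.adjoin_mem_exists_aeval _ _ a.2
    have : algebraMap (Algebra.adjoin K {x}) F a = aeval x p := hp.symm
    rw [this, Derivation.map_aeval]
    exact Submodule.smul_mem _ _ (Submodule.mem_span_singleton_self _)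
  | zero => rw [map_zero]; exact Submodule.zero_mem _
  | add y z _ _ hy hz => rw [map_add]; exact Submodule.add_mem _ hy hz
  | smul a y _ hy =>
    rw [map_smul, ← algebraMap_smul F a]
    exact Submodule.smul_mem _ _ hy

theorem diff_span_eq_top [CharZero K] (x : F) [Algebra.IsAlgebraic K⟮x⟯ F] :
    Submodule.span F {D K F x} = ⊤ := by
  haveI := diff_formallyEtale K x
  rw [eq_top_iff]
  intro ω hω
  clear hω
  obtain ⟨t, rfl⟩ := (tensorKaehlerEquivOfFormallyEtale K (Algebra.adjoin K {x}) F).surjective ω
  induction t using TensorProduct.induction_on with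
  | zero => rw [map_zero]; exact Submodule.zero_mem _
  | tmul f η =>
    rw [tensorKaehlerEquivOfFormallyEtale_apply, mapBaseChange_tmul]
    exact Submodule.smul_mem _ _ (diff_map_mem K x η)
  | add y z hy hz => rw [map_add]; exact Submodule.add_mem _ hy hz

theorem diff_exists_smul [CharZero K] (x : F) [Algebra.IsAlgebraic K⟮x⟯ F] (ω : Ω[F⁄K]) :
    ∃ f : F, ω = f • D K F x := by
  have : ω ∈ Submodule.span F {D K F x} := by rw [diff_span_eq_top]; trivial
  obtain ⟨f, hf⟩ := Submodule.mem_span_singleton.mp this
  exact ⟨f, hf.symm⟩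

theorem diff_D_eq [CharZero K] (x : F) (hx : Transcendental K x) [Algebra.IsAlgebraic K⟮x⟯ F]
    (f : F) : D K F f = diffDer K x hx f • D K F x := by
  obtain ⟨g, hg⟩ := diff_exists_smul K x (D K F f)
  have h1 := (diffDer K x hx).liftKaehlerDifferential_comp_D f
  rw [hg, map_smul, Derivation.liftKaehlerDifferential_comp_D, diffDer_self, smul_eq_mul,
    mul_one] at h1
  rw [← h1, hg]

/-- exchange: `F` is algebraic over `K(t)` for every transcendental `t`. -/
theorem diff_exchange (x t : F) [Algebra.IsAlgebraic K⟮x⟯ F] (ht : Transcendental K t) :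
    Algebra.IsAlgebraic K⟮t⟯ F := by
  have h1 : Algebra.IsAlgebraic (Algebra.adjoin K {x}) F :=
    (IsFractionRing.comap_isAlgebraic_iff (A := Algebra.adjoin K {x}) (K := K⟮x⟯) (C := F)).mpr
      inferInstance
  have h2 : Algebra.trdeg K F ≤ Cardinal.mk ({x} : Set F) :=
    Algebra.IsAlgebraic.trdeg_le_cardinalMk K {x}
  have h3 : AlgebraicIndependent K (fun _ : Unit => t) :=
    algebraicIndependent_unique_type_iff.mpr ht
  have h4 : IsTranscendenceBasis K (fun _ : Unit => t) := by
    apply h3.isTranscendenceBasis_of_lift_trdeg_le_of_finite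
    simpa using h2
  have h5 := h4.isAlgebraic_field
  have h6 : Set.range (fun _ : Unit => t) = {t} := by simp
  rwa [h6] at h5

/-- a polynomial relation over `K[t]` for every element of `F`. -/
theorem diff_exists_relation (t : F) (ht : Transcendental K t) [Algebra.IsAlgebraic K⟮t⟯ F]
    (f : F) : ∃ P : K[X][X], P ≠ 0 ∧ P.eval₂ (aeval t : K[X] →ₐ[K] F).toRingHom f = 0 := by
  have h1 : Algebra.IsAlgebraic (Algebra.adjoin K {t}) F :=
    (IsFractionRing.comap_isAlgebraic_iff (A := Algebra.adjoin K {t}) (K := K⟮t⟯) (C := F)).mpr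
      inferInstance
  obtain ⟨P0, hP0, hP0f⟩ := h1.isAlgebraic f
  let e := algEquivOfTranscendental K t ht
  refine ⟨P0.map (e.symm : Algebra.adjoin K {t} →+* K[X]), ?_, ?_⟩
  · rw [Ne, Polynomial.map_eq_zero_iff e.symm.injective]
    exact hP0
  · rw [Polynomial.eval₂_map]
    have : (aeval t : K[X] →ₐ[K] F).toRingHom.comp (e.symm : Algebra.adjoin K {t} →+* K[X]) =
        algebraMap (Algebra.adjoin K {t}) F := by
      ext a
      obtain ⟨p, rfl⟩ := e.surjective a
      simp only [RingHom.comp_apply, RingHom.coe_coe, AlgEquiv.symm_apply_apply,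
        AlgHom.toRingHom_eq_coe]
      change _ = ((e p : Algebra.adjoin K {t}) : F)
      rw [algEquivOfTranscendental_apply]
      simp
    rw [this]
    exact hP0f

end Fermat.Agent.S24
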