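/-
S24: basic API for `AlgebraicCurve.Place.ord`.
-/
import Fermat.Agent.S24.Defs

set_option autoImplicit false

open AlgebraicCurve IntermediateField

namespace Fermat.Agent.S24

variable {K F : Type*} [Field K] [Field F] [Algebra K F] (v : Place K F)

theorem mem_iff_ord_nonneg {f : F} (hf : f ≠ 0) : f ∈ v.toValuationSubring ↔ 0 ≤ v.ord f := by
  constructor
  · intro h
    have h1 : v.adicValuation f ≤ 1 := by
      have := v.adicValuation_coe ⟨f, h⟩
      simp only at this
      rw [this]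
      exact IsDedekindDomain.HeightOneSpectrum.intValuation_le_one _ _
    have h2 : WithZero.log (v.adicValuation f) ≤ WithZero.log (1 : WithZero (Multiplicative ℤ)) :=
      (WithZero.log_le_log (v.adicValuation_ne_zero hf) one_ne_zero).2 h1
    rw [WithZero.log_one] at h2
    unfold Place.ord
    omega
  · intro h
    obtain ⟨π, hπ⟩ := IsDiscreteValuationRing.exists_irreducible v.toValuationSubring
    obtain ⟨u, hu⟩ := v.exists_unit_mul_zpow hf hπ
    rw [hu]
    obtain ⟨n, hn⟩ := Int.eq_ofNat_of_zero_le h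
    rw [hn, zpow_natCast]
    exact mul_mem (u : v.toValuationSubring).2 (pow_mem π.2 n)

theorem ord_algebraMap (a : K) : v.ord (algebraMap K F a) = 0 := by
  rcases eq_or_ne a 0 with rfl | ha
  · simp
  · have h0 : algebraMap K F a ≠ 0 := by simpa using ha
    have h1 := (mem_iff_ord_nonneg v h0).1 (v.algebraMap_mem' a)
    have h2 := (mem_iff_ord_nonneg v (inv_ne_zero h0)).1 (by
      rw [← map_inv₀]; exact v.algebraMap_mem' a⁻¹)
    rw [v.ord_inv] at h2
    omega

theorem ord_neg (f : F) : v.ord (-f) = v.ord f := by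
  rcases eq_or_ne f 0 with rfl | hf
  · simp
  · have h1 : (-1 : F) = algebraMap K F (-1) := by simp
    rw [← neg_one_mul, v.ord_mul (by simp) hf, h1, ord_algebraMap, zero_add]

theorem ord_add_ge {f g : F} (hfg : f + g ≠ 0) : min (v.ord f) (v.ord g) ≤ v.ord (f + g) := by
  rcases eq_or_ne f 0 with rfl | hf
  · simp
  rcases eq_or_ne g 0 with rfl | hg
  · simp
  have key : ∀ f g : F, f ≠ 0 → g ≠ 0 → f + g ≠ 0 → v.ord f ≤ v.ord g → v.ord f ≤ v.ord (f + g) := by
    intro f g hf hg hfg hle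
    have h1 : g / f ∈ v.toValuationSubring := by
      rw [mem_iff_ord_nonneg v (div_ne_zero hg hf), div_eq_mul_inv, v.ord_mul hg (inv_ne_zero hf),
        v.ord_inv]
      omega
    have h2 : 1 + g / f ∈ v.toValuationSubring :=
      add_mem (one_mem _) h1
    have h3 : f + g = f * (1 + g / f) := by field_simp
    have h4 : 1 + g / f ≠ 0 := by
      intro h; rw [h, mul_zero] at h3; exact hfg h3
    rw [h3, v.ord_mul hf h4]
    have := (mem_iff_ord_nonneg v h4).1 h2
    omega
  rcases le_total (v.ord f) (v.ord g) with h | h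
  · rw [min_eq_left h]; exact key f g hf hg hfg h
  · rw [min_eq_right h, add_comm]; exact key g f hg hf (by rwa [add_comm]) h

theorem ord_add_eq_of_lt {f g : F} (hf : f ≠ 0) (h : g = 0 ∨ v.ord f < v.ord g) :
    v.ord (f + g) = v.ord f := by
  rcases h with rfl | h
  · simp
  have hfg : f + g ≠ 0 := by
    intro h0
    have : g = -f := by linear_combination h0
    rw [this, ord_neg] at h
    omega
  have h1 := ord_add_ge v hfg
  have h2 : min (v.ord (f + g)) (v.ord (-g)) ≤ v.ord ((f + g) + (-g)) :=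
    ord_add_ge v (by simpa using hf)
  rw [ord_neg, add_neg_cancel_right] at h2
  rw [min_eq_left h.le] at h1
  rcases le_total (v.ord (f + g)) (v.ord g) with h3 | h3
  · rw [min_eq_left h3] at h2; omega
  · rw [min_eq_right h3] at h2; omega

theorem exists_ord_eq_one : ∃ t : F, v.ord t = 1 := by
  obtain ⟨π, hπ⟩ := IsDiscreteValuationRing.exists_irreducible v.toValuationSubring
  exact ⟨π, v.ord_coe_irreducible hπ⟩

theorem ne_zero_of_ord_ne_zero {f : F} (h : v.ord f ≠ 0) : f ≠ 0 := by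
  rintro rfl; simp at h

/-- a discrete valuation ring is a maximal proper subring of its fraction field -/
theorem eq_of_le_valuationSubring {O : ValuationSubring F} (hO : O ≠ ⊤)
    (h : v.toValuationSubring ≤ O) : v.toValuationSubring = O := by
  refine le_antisymm h ?_
  intro f hfO
  by_contra hf
  apply hO
  have hf0 : f ≠ 0 := by rintro rfl; exact hf v.toValuationSubring.zero_mem
  have hneg : v.ord f < 0 := by
    by_contra hn
    exact hf ((mem_iff_ord_nonneg v hf0).2 (not_lt.1 hn))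
  obtain ⟨t, ht⟩ := exists_ord_eq_one v
  have ht0 : t ≠ 0 := ne_zero_of_ord_ne_zero v (by omega)
  -- `t⁻¹ ∈ O`
  have htinv : t⁻¹ ∈ O := by
    have h1 : t⁻¹ / f ∈ v.toValuationSubring := by
      rw [mem_iff_ord_nonneg v (div_ne_zero (inv_ne_zero ht0) hf0), div_eq_mul_inv,
        v.ord_mul (inv_ne_zero ht0) (inv_ne_zero hf0), v.ord_inv, v.ord_inv]
      omega
    have h2 : t⁻¹ = (t⁻¹ / f) * f := by field_simp
    rw [h2]
    exact mul_mem (h h1) hfO
  refine SetLike.ext fun x => ⟨fun _ => ValuationSubring.mem_top x, fun _ => ?_⟩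
  rcases eq_or_ne x 0 with rfl | hx
  · exact O.zero_mem
  rcases le_or_gt 0 (v.ord x) with hx1 | hx1
  · exact h ((mem_iff_ord_nonneg v hx).2 hx1)
  · obtain ⟨n, hn⟩ := Int.eq_ofNat_of_zero_le (show 0 ≤ -v.ord x by omega)
    have h1 : x * t ^ n ∈ v.toValuationSubring := by
      rw [mem_iff_ord_nonneg v (mul_ne_zero hx (pow_ne_zero n ht0)),
        v.ord_mul hx (pow_ne_zero n ht0), ← zpow_natCast, v.ord_zpow, ht]
      omega
    have h2 : x = (x * t ^ n) * (t⁻¹) ^ n := by
      rw [inv_pow]; field_simp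
    rw [h2]
    exact mul_mem (h h1) (pow_mem htinv n)

theorem dCoord_eq : ∃ t : F, v.ord t = 1 ∧ v.dCoord = KaehlerDifferential.D K F t :=
  ⟨((IsDiscreteValuationRing.exists_irreducible v.toValuationSubring).choose : F),
    v.ord_coe_irreducible (IsDiscreteValuationRing.exists_irreducible v.toValuationSubring).choose_spec,
    rfl⟩

/-- a `ℤ`-valued valuation-like function with the same valuation ring is a multiple of `ord`. -/
theorem exists_mul_ord (w : F → ℤ) (hmul : ∀ f g, f ≠ 0 → g ≠ 0 → w (f * g) = w f + w g)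
    (hw : ∀ f, f ≠ 0 → (f ∈ v.toValuationSubring ↔ 0 ≤ w f)) :
    ∃ m : ℕ, 0 < m ∧ ∀ f, f ≠ 0 → w f = (m : ℤ) * v.ord f := by
  have w1 : w 1 = 0 := by
    have := hmul 1 1 one_ne_zero one_ne_zero
    rw [mul_one] at this
    omega
  have winv : ∀ f, f ≠ 0 → w f⁻¹ = - w f := by
    intro f hf
    have := hmul f f⁻¹ hf (inv_ne_zero hf)
    rw [mul_inv_cancel₀ hf, w1] at this
    omega
  obtain ⟨t, ht⟩ := exists_ord_eq_one v
  have ht0 : t ≠ 0 := ne_zero_of_ord_ne_zero v (by omega)
  have hwt : 0 < w t := by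
    have h1 : ¬ (0 ≤ w t⁻¹) := by
      rw [← hw _ (inv_ne_zero ht0), mem_iff_ord_nonneg v (inv_ne_zero ht0), v.ord_inv, ht]
      omega
    rw [winv t ht0] at h1
    omega
  have wpow : ∀ n : ℕ, w (t ^ n) = n * w t := by
    intro n
    induction n with
    | zero => simp [w1]
    | succ n ih =>
      rw [pow_succ, hmul _ _ (pow_ne_zero n ht0) ht0, ih]; push_cast; ring
  have wzpow : ∀ n : ℤ, w (t ^ n) = n * w t := by
    intro n
    rcases Int.eq_nat_or_neg n with ⟨k, rfl | rfl⟩
    · rw [zpow_natCast, wpow]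
    · rw [zpow_neg, zpow_natCast, winv _ (pow_ne_zero k ht0), wpow]; ring
  obtain ⟨m, hm⟩ := Int.eq_ofNat_of_zero_le hwt.le
  refine ⟨m, by omega, fun f hf => ?_⟩
  have hu0 : f * (t ^ (v.ord f))⁻¹ ≠ 0 := mul_ne_zero hf (inv_ne_zero (zpow_ne_zero _ ht0))
  have hu : v.ord (f * (t ^ (v.ord f))⁻¹) = 0 := by
    rw [v.ord_mul hf (inv_ne_zero (zpow_ne_zero _ ht0)), v.ord_inv, v.ord_zpow, ht]; ring
  have h1 : 0 ≤ w (f * (t ^ (v.ord f))⁻¹) := by
    rw [← hw _ hu0, mem_iff_ord_nonneg v hu0, hu]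
  have h2 : 0 ≤ w (f * (t ^ (v.ord f))⁻¹)⁻¹ := by
    rw [← hw _ (inv_ne_zero hu0), mem_iff_ord_nonneg v (inv_ne_zero hu0), v.ord_inv, hu]; simp
  rw [winv _ hu0] at h2
  have h3 : w (f * (t ^ (v.ord f))⁻¹) = 0 := by omega
  rw [hmul _ _ hf (inv_ne_zero (zpow_ne_zero _ ht0)), winv _ (zpow_ne_zero _ ht0), wzpow, hm] at h3
  linarith

end Fermat.Agent.S24
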