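/-
S24: differentials of a function field and their orders at parametrised places.
-/
import Fermat.Agent.S24.PlaceBasic
import Fermat.Agent.S24.DiffOne

set_option autoImplicit false
set_option linter.style.haveILetI false
set_option linter.unusedSectionVars false

open AlgebraicCurve IntermediateField KaehlerDifferential

namespace Fermat.Agent.S24

/-- `s d/ds` on Laurent series. -/
noncomputable def diffTheta (u : LaurentSeries ℂ) : LaurentSeries ℂ where
  coeff k := (k : ℂ) * u.coeff k
  isPWO_support' := u.isPWO_support.mono (by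
    intro k hk
    simp only [Function.mem_support, ne_eq, mul_eq_zero, not_or] at hk
    exact hk.2)

theorem diffTheta_coeff (u : LaurentSeries ℂ) (k : ℤ) :
    (diffTheta u).coeff k = (k : ℂ) * u.coeff k := rfl

theorem diffTheta_support (u : LaurentSeries ℂ) : (diffTheta u).support ⊆ u.support := by
  intro k hk
  simp only [HahnSeries.mem_support, diffTheta_coeff, ne_eq, mul_eq_zero, not_or] at hk
  exact hk.2

theorem diffTheta_add (u w : LaurentSeries ℂ) :
    diffTheta (u + w) = diffTheta u + diffTheta w := by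
  ext k
  simp [diffTheta_coeff, mul_add]

theorem diffTheta_mul (u w : LaurentSeries ℂ) :
    diffTheta (u * w) = u * diffTheta w + w * diffTheta u := by
  ext k
  rw [HahnSeries.coeff_add, diffTheta_coeff, HahnSeries.coeff_mul,
    HahnSeries.coeff_mul_right' w.isPWO_support (diffTheta_support w), mul_comm w,
    HahnSeries.coeff_mul_left' u.isPWO_support (diffTheta_support u), Finset.mul_sum,
    ← Finset.sum_add_distrib]
  refine Finset.sum_congr rfl ?_
  intro ij hij
  rw [Finset.mem_antidiagonal] at hij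
  rw [diffTheta_coeff, diffTheta_coeff, ← hij.2.2]
  push_cast
  ring

theorem diffTheta_C (c : ℂ) : diffTheta (HahnSeries.C c) = 0 := by
  ext k
  rw [diffTheta_coeff, HahnSeries.coeff_zero, HahnSeries.C_apply, HahnSeries.coeff_single]
  split_ifs with h
  · subst h; simp
  · simp

theorem diffTheta_order (u : LaurentSeries ℂ) (h : u.order ≠ 0) :
    (diffTheta u).order = u.order := by
  have hu : u ≠ 0 := by
    rintro rfl
    exact h HahnSeries.order_zero
  have h1 : (diffTheta u).coeff u.order ≠ 0 := by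
    rw [diffTheta_coeff]
    exact mul_ne_zero (by exact_mod_cast h) (HahnSeries.coeff_order_eq_zero.not.mpr hu)
  have h2 : diffTheta u ≠ 0 := by
    intro h0
    rw [h0] at h1
    exact h1 rfl
  apply le_antisymm (HahnSeries.order_le_of_coeff_ne_zero h1)
  apply HahnSeries.order_le_of_coeff_ne_zero
  have h3 := HahnSeries.coeff_order_eq_zero.not.mpr h2
  rw [diffTheta_coeff] at h3
  exact right_ne_zero_of_mul h3

variable {K F : Type*} [Field K] [Field F] [Algebra K F]

/-- a relation between differentials is transported by `Θ` to Laurent series. -/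
theorem diffTheta_key (Θ : F →+* LaurentSeries ℂ)
    (hconst : ∀ a : K, ∃ c : ℂ, Θ (algebraMap K F a) = HahnSeries.C c) (y t a : F)
    (h : D K F y = a • D K F t) : diffTheta (Θ y) = Θ a * diffTheta (Θ t) := by
  letI : Algebra F (LaurentSeries ℂ) := Θ.toAlgebra
  letI : Algebra K (LaurentSeries ℂ) := (Θ.comp (algebraMap K F)).toAlgebra
  haveI : IsScalarTower K F (LaurentSeries ℂ) := IsScalarTower.of_algebraMap_eq (fun _ => rfl)
  have hsmulF : ∀ (f : F) (u : LaurentSeries ℂ), f • u = Θ f * u := fun f u => by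
    rw [Algebra.smul_def]; rfl
  have hsmulK : ∀ (c : K) (u : LaurentSeries ℂ), c • u = Θ (algebraMap K F c) * u := fun f u => by
    rw [Algebra.smul_def]; rfl
  let δ : Derivation K F (LaurentSeries ℂ) := Derivation.mk'
    { toFun := fun f => diffTheta (Θ f)
      map_add' := by intro f g; rw [map_add, diffTheta_add]
      map_smul' := by
        intro c f
        obtain ⟨c', hc'⟩ := hconst c
        rw [Algebra.smul_def, map_mul, diffTheta_mul, RingHom.id_apply, hsmulK, hc', diffTheta_C,
          mul_zero, add_zero] }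
    (by
      intro f g
      change diffTheta (Θ (f * g)) = f • diffTheta (Θ g) + g • diffTheta (Θ f)
      rw [map_mul, diffTheta_mul, hsmulF, hsmulF])
  have h1 := congrArg δ.liftKaehlerDifferential h
  rw [map_smul, Derivation.liftKaehlerDifferential_comp_D,
    Derivation.liftKaehlerDifferential_comp_D, hsmulF] at h1
  exact h1

variable [CharZero K]

/-- `Ω[F/K]` is spanned by `dx` if `F` is algebraic over `K(x)` (characteristic 0). -/
theorem exists_eq_smul_D (x : F) (halg : Algebra.IsAlgebraic K⟮x⟯ F) (ω : Ω[F⁄K]) :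
    ∃ a : F, ω = a • D K F x :=
  diff_exists_smul K x ω

/-- `dy ≠ 0` if `y` has a zero or a pole at a parametrised place. -/
theorem D_ne_zero_of_hasParam (v : Place K F) (hv : HasParam v) (y : F) (hy : v.ord y ≠ 0) :
    D K F y ≠ 0 := by
  obtain ⟨Θ, m, hm, hconst, hord⟩ := hv
  intro h0
  have h1 := diffTheta_key Θ hconst y y 0 (by rw [h0, zero_smul])
  rw [map_zero, zero_mul] at h1
  have hy0 : y ≠ 0 := ne_zero_of_ord_ne_zero v hy
  have h2 : (Θ y).order ≠ 0 := by
    rw [hord y hy0]
    exact mul_ne_zero (by exact_mod_cast hm.ne') hy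
  have h3 := diffTheta_order _ h2
  rw [h1, HahnSeries.order_zero] at h3
  exact h2 h3.symm

/-- the order of `a dy` at a parametrised place where `y` has a zero or a pole. -/
theorem ordDifferential_smul_D (x : F) (halg : Algebra.IsAlgebraic K⟮x⟯ F)
    (v : Place K F) (hv : HasParam v) (a y : F) (ha : a ≠ 0) (hy : v.ord y ≠ 0) :
    v.ordDifferential (a • D K F y) = v.ord a + v.ord y - 1 := by
  obtain ⟨t, ht, hd⟩ := dCoord_eq v
  have hDt : D K F t ≠ 0 := D_ne_zero_of_hasParam v hv t (by rw [ht]; exact one_ne_zero)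
  have hDy : D K F y ≠ 0 := D_ne_zero_of_hasParam v hv y hy
  obtain ⟨b, hb⟩ := exists_eq_smul_D x halg (D K F t)
  have hb0 : b ≠ 0 := by
    rintro rfl
    exact hDt (by rw [hb, zero_smul])
  have hgen : ∀ ω : Ω[F⁄K], ∃ g : F, ω = g • D K F t := by
    intro ω
    obtain ⟨c, hc⟩ := exists_eq_smul_D x halg ω
    refine ⟨c * b⁻¹, ?_⟩
    rw [hc, hb, smul_smul, mul_assoc, inv_mul_cancel₀ hb0, mul_one]
  haveI : v.DCoordGenerates := ⟨by
    rw [eq_top_iff, hd]
    intro ω _
    obtain ⟨g, hg⟩ := hgen ω
    rw [hg]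
    exact Submodule.smul_mem _ _ (Submodule.mem_span_singleton_self _)⟩
  haveI : Nontrivial Ω[F⁄K] := ⟨⟨_, 0, hDt⟩⟩
  obtain ⟨g, hg⟩ := hgen (D K F y)
  have hg0 : g ≠ 0 := by
    rintro rfl
    exact hDy (by rw [hg, zero_smul])
  have hcoef : v.differentialCoeff (a • D K F y) = a * g :=
    v.differentialCoeff_unique (by rw [hd, hg, smul_smul])
  rw [Place.ordDifferential, hcoef, v.ord_mul ha hg0]
  obtain ⟨Θ, m, hm, hconst, hord⟩ := hv
  have h1 := diffTheta_key Θ hconst y t g hg
  have hy0 : y ≠ 0 := ne_zero_of_ord_ne_zero v hy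
  have ht0 : t ≠ 0 := ne_zero_of_ord_ne_zero v (by rw [ht]; exact one_ne_zero)
  have hm0 : (m : ℤ) ≠ 0 := by exact_mod_cast hm.ne'
  have h2 : (Θ y).order ≠ 0 := by
    rw [hord y hy0]
    exact mul_ne_zero hm0 hy
  have h3 : (Θ t).order ≠ 0 := by
    rw [hord t ht0, ht, mul_one]
    exact hm0
  have h4 := congrArg HahnSeries.order h1
  have hΘg : Θ g ≠ 0 := (map_ne_zero Θ).mpr hg0
  have hθt : diffTheta (Θ t) ≠ 0 := by
    intro h0
    have := diffTheta_order _ h3
    rw [h0, HahnSeries.order_zero] at this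
    exact h3 this.symm
  rw [HahnSeries.order_mul hΘg hθt, diffTheta_order _ h2, diffTheta_order _ h3, hord y hy0,
    hord g hg0, hord t ht0, ht, mul_one] at h4
  have h5 : (m : ℤ) * v.ord y = (m : ℤ) * (v.ord g + 1) := by rw [h4]; ring
  have h6 := mul_left_cancel₀ hm0 h5
  omega

end Fermat.Agent.S24
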