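import Mathlib

set_option autoImplicit false

namespace Fermat.Agent.S24

open IntermediateField algebraAdjoinAdjoin Polynomial

variable {K F : Type*} [Field K] [Field F] [Algebra K F] {x : F}

lemma ff_essFiniteType [FiniteDimensional K⟮x⟯ F] : Algebra.EssFiniteType K F := by
  have h1 : Algebra.EssFiniteType K (Algebra.adjoin K {x}) := by
    have : Algebra.FiniteType K (Algebra.adjoin K {x}) :=
      (Subalgebra.fg_iff_finiteType _).mp ⟨{x}, by simp⟩
    infer_instance
  have h2 : Algebra.EssFiniteType (Algebra.adjoin K {x}) K⟮x⟯ :=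
    Algebra.EssFiniteType.of_isLocalization _ (nonZeroDivisors (Algebra.adjoin K {x}))
  have h3 : Algebra.EssFiniteType K K⟮x⟯ := Algebra.EssFiniteType.comp K (Algebra.adjoin K {x}) _
  exact Algebra.EssFiniteType.comp K K⟮x⟯ F

lemma ff_finiteDimensional_of_transcendental [FiniteDimensional K⟮x⟯ F] {f : F}
    (hf : Transcendental K f) : FiniteDimensional K⟮f⟯ F := by
  have h1 : Algebra.IsAlgebraic (Algebra.adjoin K {x}) F :=
    Algebra.IsAlgebraic.trans (Algebra.adjoin K {x}) K⟮x⟯ F
  have h2 : Algebra.trdeg K F ≤ 1 := by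
    have := Algebra.IsAlgebraic.trdeg_le_cardinalMk K ({x} : Set F)
    simpa using this
  have h3 : AlgebraicIndependent K (fun _ : Unit => f) :=
    algebraicIndependent_unique_type_iff.mpr hf
  have h4 : IsTranscendenceBasis K (fun _ : Unit => f) :=
    h3.isTranscendenceBasis_of_lift_trdeg_le_of_finite (by simpa using h2)
  have h5 := h4.isAlgebraic_field
  have h6 : Set.range (fun _ : Unit => f) = {f} := by simp
  rw [h6] at h5
  have h7 : Algebra.EssFiniteType K F := ff_essFiniteType (x := x)
  have h8 : Algebra.EssFiniteType K⟮f⟯ F := Algebra.EssFiniteType.of_comp K K⟮f⟯ F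
  exact Algebra.finite_of_essFiniteType_of_isAlgebraic

/-- an element of `F` algebraic over the algebraically closed field `K` is a constant. -/
lemma ff_exists_eq_algebraMap [IsAlgClosed K] {f : F} (hf : IsAlgebraic K f) :
    ∃ c : K, f = algebraMap K F c := by
  have h1 := IsAlgClosed.degree_eq_one_of_irreducible K (minpoly.irreducible hf.isIntegral)
  obtain ⟨c, hc⟩ := minpoly.mem_range_of_degree_eq_one K f h1
  exact ⟨c, hc.symm⟩

end Fermat.Agent.S24
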