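import Fermat.Agent.S24.FFPlace

set_option autoImplicit false

namespace Fermat.Agent.S24

open AlgebraicCurve IsDedekindDomain WithZero IntermediateField algebraAdjoinAdjoin Polynomial

variable {K F : Type*} [Field K] [Field F] [Algebra K F]

section Fibre

variable (K) (x : F)

/-- `K[x]` -/
abbrev Ax : Subalgebra K F := Algebra.adjoin K {x}

/-- the integral closure of `K[x]` in `F` -/
abbrev Bx : Subalgebra (Ax K x) F := integralClosure (Ax K x) F

variable {K x}

lemma ff_isPrincipalIdealRing_Ax (hx : Transcendental K x) : IsPrincipalIdealRing (Ax K x) :=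
  IsPrincipalIdealRing.of_surjective (Polynomial.algEquivOfTranscendental K x hx).toRingEquiv.toRingHom
    (Polynomial.algEquivOfTranscendental K x hx).surjective

variable [CharZero K] [FiniteDimensional K⟮x⟯ F]

lemma ff_isDedekindDomain_Bx (hx : Transcendental K x) : IsDedekindDomain (Bx K x) := by
  have := ff_isPrincipalIdealRing_Ax hx
  exact integralClosure.isDedekindDomain (Ax K x) K⟮x⟯ F

omit [CharZero K] in
lemma ff_isFractionRing_Bx : IsFractionRing (Bx K x) F :=
  integralClosure.isFractionRing_of_finite_extension K⟮x⟯ F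

lemma ff_finite_Bx (hx : Transcendental K x) : Module.Finite (Ax K x) (Bx K x) := by
  have := ff_isPrincipalIdealRing_Ax hx
  exact IsIntegralClosure.finite (Ax K x) K⟮x⟯ F (Bx K x)

omit [CharZero K] [FiniteDimensional K⟮x⟯ F] in
/-- `K[x] ⊆ O_v` if `x ∈ O_v`. -/
lemma ff_Ax_le (v : Place K F) (hv : x ∈ v.toValuationSubring) (a : Ax K x) :
    (a : F) ∈ v.toValuationSubring := by
  let O : Subalgebra K F :=
    { v.toValuationSubring.toSubring with algebraMap_mem' := v.algebraMap_mem' }
  have h : Ax K x ≤ O := Algebra.adjoin_le (Set.singleton_subset_iff.mpr hv)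
  exact h a.2

omit [CharZero K] [FiniteDimensional K⟮x⟯ F] in
/-- the integral closure of `K[x]` is contained in `O_v` if `x ∈ O_v`. -/
lemma ff_Bx_le (v : Place K F) (hv : x ∈ v.toValuationSubring) (b : Bx K x) :
    algebraMap (Bx K x) F b ∈ v.toValuationSubring := by
  obtain ⟨q, hq, hq0⟩ := b.2
  let φ : Ax K x →+* v.toValuationSubring :=
    (algebraMap (Ax K x) F).codRestrict v.toValuationSubring.toSubring (ff_Ax_le v hv)
  have hint : IsIntegral v.toValuationSubring (b : F) := by
    refine ⟨q.map φ, hq.map φ, ?_⟩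
    rw [Polynomial.eval₂_map]
    exact hq0
  obtain ⟨y, hy⟩ := IsIntegrallyClosed.isIntegral_iff.mp hint
  change (b : F) ∈ _
  rw [← hy]
  exact y.2

lemma ff_finiteType_Bx (hx : Transcendental K x) : Algebra.FiniteType K (Bx K x) := by
  have := ff_finite_Bx hx
  have h1 : Algebra.FiniteType K (Ax K x) :=
    (Subalgebra.fg_iff_finiteType _).mp ⟨{x}, by simp⟩
  exact Algebra.FiniteType.trans h1 inferInstance

/-- residue fields of `B` are `K`. -/
lemma ff_exists_sub_mem [IsAlgClosed K] (hx : Transcendental K x) (P : Ideal (Bx K x))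
    (hP : P.IsMaximal) (b : Bx K x) : ∃ c : K, b - algebraMap K (Bx K x) c ∈ P := by
  have := ff_finiteType_Bx hx
  let _ := Ideal.Quotient.field P
  have h1 : Module.Finite K (Bx K x ⧸ P) := finite_of_finite_type_of_isJacobsonRing K _
  have h2 : Algebra.IsIntegral K (Bx K x ⧸ P) := Algebra.IsIntegral.of_finite K _
  obtain ⟨c, hc⟩ := (IsAlgClosed.algebraMap_bijective_of_isIntegral (k := K)
    (K := Bx K x ⧸ P)).2 (Ideal.Quotient.mk P b)
  refine ⟨c, ?_⟩
  rw [← Ideal.Quotient.eq_zero_iff_mem, map_sub, ← hc, sub_eq_zero]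
  rfl

/-- the residue of an element of `O_v` (case `x ∈ O_v`). -/
lemma ff_exists_residue_aux [IsAlgClosed K] (hx : Transcendental K x) (v : Place K F)
    (hv : x ∈ v.toValuationSubring) (t : F) (ht : t ∈ v.toValuationSubring) :
    ∃ c : K, t = algebraMap K F c ∨ 0 < v.ord (t - algebraMap K F c) := by
  have := ff_isDedekindDomain_Bx hx
  have := ff_isFractionRing_Bx (K := K) (x := x)
  obtain ⟨P, rfl⟩ := exists_prime_of_place (B := Bx K x) v (ff_Bx_le v hv)
  have hPmax : P.asIdeal.IsMaximal := P.isMaximal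
  obtain ⟨n, d, hnd⟩ := P.exists_primeCompl_mul_eq_of_integer t ht
  obtain ⟨c₁, hc₁⟩ := ff_exists_sub_mem hx P.asIdeal hPmax n
  obtain ⟨c₂, hc₂⟩ := ff_exists_sub_mem hx P.asIdeal hPmax d
  have hc₂0 : c₂ ≠ 0 := by
    rintro rfl
    rw [map_zero, sub_zero] at hc₂
    exact d.2 hc₂
  refine ⟨c₁ / c₂, ?_⟩
  by_cases h0 : t = algebraMap K F (c₁ / c₂)
  · exact Or.inl h0
  right
  have h0' : t - algebraMap K F (c₁ / c₂) ≠ 0 := sub_ne_zero.mpr h0
  have hval := valuation_eq_exp_neg_ord_placeOfPrime K P h0'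
  -- the element of `P`
  set e : Bx K x := (n - algebraMap K (Bx K x) c₁) * algebraMap K (Bx K x) c₂ -
    algebraMap K (Bx K x) c₁ * ((d : Bx K x) - algebraMap K (Bx K x) c₂) with he
  have heP : e ∈ P.asIdeal :=
    P.asIdeal.sub_mem (P.asIdeal.mul_mem_right _ hc₁) (P.asIdeal.mul_mem_left _ hc₂)
  have hc₂F : algebraMap K F c₂ ≠ 0 := by simpa using hc₂0
  have hid : (t - algebraMap K F (c₁ / c₂)) *
      (algebraMap (Bx K x) F d * algebraMap (Bx K x) F (algebraMap K (Bx K x) c₂)) =
      algebraMap (Bx K x) F e := by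
    rw [he]
    simp only [map_sub, map_mul, ← IsScalarTower.algebraMap_apply K (Bx K x) F, map_div₀, ← hnd]
    field_simp
    ring
  have hvd : P.valuation F (algebraMap (Bx K x) F d) = 1 :=
    (HeightOneSpectrum.valuation_eq_one_iff_notMem P).mpr d.2
  have hvc : P.valuation F (algebraMap (Bx K x) F (algebraMap K (Bx K x) c₂)) = 1 := by
    refine (HeightOneSpectrum.valuation_eq_one_iff_notMem P).mpr fun hmem => ?_
    have hu : IsUnit (algebraMap K (Bx K x) c₂) := (IsUnit.mk0 c₂ hc₂0).map _
    exact hPmax.ne_top (Ideal.eq_top_of_isUnit_mem _ hmem hu)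
  have hve : P.valuation F (algebraMap (Bx K x) F e) < 1 :=
    (HeightOneSpectrum.valuation_lt_one_iff_mem P e).mpr heP
  rw [← hid, map_mul, map_mul, hvd, hvc, mul_one, mul_one, hval, ← exp_zero, exp_lt_exp] at hve
  omega

omit [CharZero K] [FiniteDimensional K⟮x⟯ F] in
lemma ff_span_isMaximal (hx : Transcendental K x) :
    (Ideal.span {(⟨x, Algebra.self_mem_adjoin_singleton K x⟩ : Ax K x)}).IsMaximal := by
  have := ff_isPrincipalIdealRing_Ax hx
  set xA : Ax K x := ⟨x, Algebra.self_mem_adjoin_singleton K x⟩ with hxA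
  let e := Polynomial.algEquivOfTranscendental K x hx
  have he : e Polynomial.X = xA := by
    apply Subtype.ext
    simp [e, hxA]
  have hprime : Prime xA := by
    rw [← he]
    exact (MulEquiv.prime_iff e.toMulEquiv).mpr Polynomial.prime_X
  have hP : (Ideal.span {xA}).IsPrime := (Ideal.span_singleton_prime hprime.ne_zero).mpr hprime
  exact hP.isMaximal (by simpa using hprime.ne_zero)

/-- **Fibre formula**: the zeros of `x`, counted with multiplicity, are `[F : K(x)]` in number. -/
theorem ff_fibre_zero [IsAlgClosed K] (hx : Transcendental K x) :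
    ∃ s : Finset (Place K F), (∀ v, v ∈ s ↔ 0 < v.ord x) ∧
      ∑ v ∈ s, v.ord x = (Module.finrank K⟮x⟯ F : ℤ) := by
  classical
  have := ff_isPrincipalIdealRing_Ax hx
  have := ff_isDedekindDomain_Bx hx
  have := ff_isFractionRing_Bx (K := K) (x := x)
  have := ff_finite_Bx hx
  have hx0 : x ≠ 0 := fun h => hx (h ▸ isAlgebraic_zero)
  set xA : Ax K x := ⟨x, Algebra.self_mem_adjoin_singleton K x⟩ with hxA
  set p : Ideal (Ax K x) := Ideal.span {xA} with hp
  have hpmax : p.IsMaximal := ff_span_isMaximal hx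
  have hp0 : p ≠ ⊥ := by
    rw [hp, Ne, Ideal.span_singleton_eq_bot]
    intro h
    exact hx0 (congrArg Subtype.val h)
  have key := Ideal.sum_ramification_inertia (R := Ax K x) (S := Bx K x) K⟮x⟯ F hp0
  set xB : Bx K x := algebraMap (Ax K x) (Bx K x) xA with hxB
  have hxBF : algebraMap (Bx K x) F xB = x := rfl
  have hmap : p.map (algebraMap (Ax K x) (Bx K x)) = Ideal.span {xB} := by
    rw [hp, Ideal.map_span, Set.image_singleton]
  -- primes over `p`
  have hprime : ∀ P ∈ IsDedekindDomain.primesOverFinset p (Bx K x), P.IsPrime ∧ P ≠ ⊥ ∧ xB ∈ P := by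
    intro P hP
    rw [IsDedekindDomain.mem_primesOverFinset_iff hp0] at hP
    obtain ⟨h1, h2⟩ := hP
    have hxP : xB ∈ P := by
      have : xA ∈ P.comap (algebraMap (Ax K x) (Bx K x)) := by
        rw [← Ideal.under_def, ← h2.over]
        exact Ideal.mem_span_singleton_self _
      exact this
    refine ⟨h1, ?_, hxP⟩
    rintro rfl
    rw [Ideal.mem_bot] at hxP
    exact hx0 (by rw [← hxBF, hxP, map_zero])
  let g : {P // P ∈ IsDedekindDomain.primesOverFinset p (Bx K x)} → Place K F := fun P =>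
    placeOfPrime K (Bx K x) ⟨P.1, (hprime P.1 P.2).1, (hprime P.1 P.2).2.1⟩
  have hg : Function.Injective g := by
    intro P Q h
    have := placeOfPrime_injective K h
    exact Subtype.ext (congrArg HeightOneSpectrum.asIdeal this)
  -- valuations of `x`
  have hval : ∀ P : HeightOneSpectrum (Bx K x),
      P.intValuation xB = exp (-((placeOfPrime K (Bx K x) P).ord x)) := by
    intro P
    rw [← valuation_eq_exp_neg_ord_placeOfPrime K P hx0, ← HeightOneSpectrum.valuation_of_algebraMap
      (K := F)]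
    rfl
  have hpos : ∀ P : HeightOneSpectrum (Bx K x),
      0 < (placeOfPrime K (Bx K x) P).ord x ↔ xB ∈ P.asIdeal := by
    intro P
    rw [← HeightOneSpectrum.intValuation_lt_one_iff_mem, hval, ← exp_zero, exp_lt_exp]
    omega
  have hram : ∀ P : HeightOneSpectrum (Bx K x), xB ∈ P.asIdeal →
      (placeOfPrime K (Bx K x) P).ord x = (Ideal.ramificationIdx' p P.asIdeal : ℤ) := by
    intro P hP
    have h0 := (hpos P).mpr hP
    obtain ⟨n, hn⟩ := Int.eq_ofNat_of_zero_le h0.le
    rw [hn]
    congr 1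
    symm
    apply Ideal.ramificationIdx'_spec
    · rw [hmap, Ideal.span_singleton_le_iff_mem, ← HeightOneSpectrum.intValuation_le_pow_iff_mem,
        hval, hn]
    · rw [hmap, Ideal.span_singleton_le_iff_mem, ← HeightOneSpectrum.intValuation_le_pow_iff_mem,
        hval, hn, exp_le_exp]
      push_cast
      omega
  have hinert : ∀ P : Ideal (Bx K x), P.IsMaximal → P.LiesOver p →
      Ideal.inertiaDeg' p P = 1 := by
    intro P hPmax hPover
    rw [Ideal.inertiaDeg'_algebraMap]
    let _ := Ideal.Quotient.field p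
    let _ := Ideal.Quotient.field P
    refine finrank_eq_one (1 : Bx K x ⧸ P) one_ne_zero fun w => ?_
    obtain ⟨b, rfl⟩ := Ideal.Quotient.mk_surjective w
    obtain ⟨c, hc⟩ := ff_exists_sub_mem hx P hPmax b
    refine ⟨Ideal.Quotient.mk p (algebraMap K (Ax K x) c), ?_⟩
    rw [Algebra.smul_def, mul_one, Ideal.Quotient.algebraMap_mk_of_liesOver, eq_comm,
      Ideal.Quotient.eq]
    exact hc
  refine ⟨Finset.univ.image g, fun v => ?_, ?_⟩
  · simp only [Finset.mem_image, Finset.mem_univ, true_and]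
    constructor
    · rintro ⟨P, rfl⟩
      exact (hpos _).mpr (hprime P.1 P.2).2.2
    · intro hv
      obtain ⟨P, rfl⟩ := exists_prime_of_place (B := Bx K x) v
        (ff_Bx_le v (ff_mem_of_ord_nonneg v hv.le))
      have hxP := (hpos P).mp hv
      have hmem : P.asIdeal ∈ IsDedekindDomain.primesOverFinset p (Bx K x) := by
        rw [IsDedekindDomain.mem_primesOverFinset_iff hp0]
        refine ⟨P.isPrime, ⟨?_⟩⟩
        rw [Ideal.under_def]
        refine hpmax.eq_of_le (Ideal.comap_ne_top _ P.isPrime.ne_top) ?_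
        rw [hp, Ideal.span_singleton_le_iff_mem]
        exact hxP
      exact ⟨⟨P.asIdeal, hmem⟩, rfl⟩
  · rw [Finset.sum_image (fun a _ b _ h => hg h), ← key, Nat.cast_sum,
      ← Finset.sum_coe_sort (IsDedekindDomain.primesOverFinset p (Bx K x))]
    refine Finset.sum_congr rfl fun P _ => ?_
    have h1 := hprime P.1 P.2
    have h2 := (IsDedekindDomain.mem_primesOverFinset_iff hp0 _).mp P.2
    have hmax : P.1.IsMaximal := h1.1.isMaximal h1.2.1
    rw [hinert P.1 hmax h2.2, mul_one]
    exact hram ⟨P.1, h1.1, h1.2.1⟩ h1.2.2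

end Fibre

end Fermat.Agent.S24
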