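/-
S24: the norm of an integral element vanishing at a zero of `y`.
-/
import Fermat.Agent.S24.PlaceBasic

set_option autoImplicit false

open AlgebraicCurve IntermediateField
open scoped IntermediateField.algebraAdjoinAdjoin

namespace Fermat.Agent.S24

variable {K F : Type*} [Field K] [Field F] [Algebra K F] [CharZero K]

namespace PlacesP3

omit [CharZero K] in
/-- elements integral over a subring of `O_v` lie in `O_v`. -/
theorem mem_of_isIntegral (v : Place K F) (y : F) (hv : 0 ≤ v.ord y) (b : F)
    (hb : IsIntegral (Algebra.adjoin K {y}) b) : b ∈ v.toValuationSubring := by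
  have hyO : y ∈ v.toValuationSubring := by
    rcases eq_or_ne y 0 with rfl | hy0
    · exact zero_mem _
    · exact (mem_iff_ord_nonneg v hy0).2 hv
  let Ov : Subalgebra K F :=
    { v.toValuationSubring.toSubring with algebraMap_mem' := v.algebraMap_mem' }
  have hle : ∀ a : Algebra.adjoin K ({y} : Set F), (a : F) ∈ v.toValuationSubring := by
    intro a
    have h : Algebra.adjoin K ({y} : Set F) ≤ Ov :=
      Algebra.adjoin_le (by
        intro z hz
        rw [Set.mem_singleton_iff] at hz
        subst hz
        exact hyO)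
    exact h a.2
  let φ : Algebra.adjoin K ({y} : Set F) →+* v.toValuationSubring :=
    { toFun := fun a => ⟨a, hle a⟩
      map_one' := rfl
      map_mul' := fun _ _ => rfl
      map_zero' := rfl
      map_add' := fun _ _ => rfl }
  obtain ⟨p, hp, hpb⟩ := hb
  have hint : IsIntegral v.toValuationSubring b :=
    ⟨p.map φ, hp.map φ, by rw [Polynomial.eval₂_map]; exact hpb⟩
  obtain ⟨z, hz⟩ := IsIntegrallyClosed.isIntegral_iff.1 hint
  rw [← hz]
  exact z.2

theorem exists_dvd (y : F) (hy : Transcendental K y) [FiniteDimensional K⟮y⟯ F] (b : F)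
    (hb : IsIntegral (Algebra.adjoin K {y}) b) :
    ∃ (a : Algebra.adjoin K ({y} : Set F)) (b' : F), IsIntegral (Algebra.adjoin K {y}) b' ∧
      ((Algebra.norm K⟮y⟯ b : K⟮y⟯) : F) = (a : F) ∧ (a : F) = b * b' := by
  have : CharZero K⟮y⟯ := charZero_of_injective_algebraMap (algebraMap K K⟮y⟯).injective
  have : UniqueFactorizationMonoid (Algebra.adjoin K ({y} : Set F)) :=
    hy.uniqueFactorizationMonoid_adjoin
  have : IsNoetherianRing (Algebra.adjoin K ({y} : Set F)) :=
    have : Algebra.FiniteType K (Algebra.adjoin K ({y} : Set F)) :=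
      Algebra.FiniteType.adjoin_of_finite (Set.finite_singleton y)
    Algebra.FiniteType.isNoetherianRing K _
  have : Module.Finite (Algebra.adjoin K ({y} : Set F))
      (integralClosure (Algebra.adjoin K ({y} : Set F)) F) :=
    IsIntegralClosure.finite (Algebra.adjoin K ({y} : Set F)) K⟮y⟯ F _
  have : IsIntegrallyClosed (integralClosure (Algebra.adjoin K ({y} : Set F)) F) :=
    integralClosure.isIntegrallyClosedOfFiniteExtension K⟮y⟯
  let bb : integralClosure (Algebra.adjoin K ({y} : Set F)) F := ⟨b, hb⟩
  obtain ⟨c, hc⟩ := Algebra.dvd_algebraMap_intNorm_self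
    (Algebra.adjoin K ({y} : Set F)) _ bb
  have h1 := Algebra.algebraMap_intNorm (A := Algebra.adjoin K ({y} : Set F)) (K := K⟮y⟯) (L := F) bb
  refine ⟨Algebra.intNorm _ _ bb, c, c.2, ?_, ?_⟩
  · have := congrArg (fun z : K⟮y⟯ => (z : F)) h1
    exact this.symm
  · have := congrArg (fun z : integralClosure (Algebra.adjoin K ({y} : Set F)) F => (z : F)) hc
    exact this

end PlacesP3

/-- (P3) the norm of an integral element vanishing at a zero `v` of `y` is a polynomial in `y`
without constant term. -/
theorem exists_norm_eq' (y : F) (hy : Transcendental K y) [FiniteDimensional K⟮y⟯ F]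
    (v : Place K F) (hv : 0 < v.ord y) (b : F) (hb : IsIntegral (Algebra.adjoin K {y}) b)
    (hvb : 0 < v.ord b) :
    ∃ p : Polynomial K, ((Algebra.norm K⟮y⟯ b : K⟮y⟯) : F) = y * Polynomial.aeval y p := by
  obtain ⟨a, b', hb', hN, hab⟩ := PlacesP3.exists_dvd y hy b hb
  obtain ⟨P, hP⟩ : ∃ P : Polynomial K, Polynomial.aeval y P = (a : F) := by
    have h : ∀ z ∈ Algebra.adjoin K ({y} : Set F), ∃ P : Polynomial K, Polynomial.aeval y P = z := by
      intro z hz
      rw [Algebra.adjoin_singleton_eq_range_aeval] at hz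
      exact hz
    exact h _ a.2
  have hb0 : b ≠ 0 := ne_zero_of_ord_ne_zero v hvb.ne'
  have hy0 : y ≠ 0 := ne_zero_of_ord_ne_zero v hv.ne'
  -- `P = X * divX P + C (P.coeff 0)`
  have hdiv : Polynomial.aeval y P
      = y * Polynomial.aeval y P.divX + algebraMap K F (P.coeff 0) := by
    have h := congrArg (Polynomial.aeval y) (Polynomial.divX_mul_X_add P)
    rw [← h]
    simp only [map_add, map_mul, Polynomial.aeval_X, Polynomial.aeval_C]
    ring
  refine ⟨P.divX, ?_⟩
  rw [hN, ← hP, hdiv]
  suffices h : P.coeff 0 = 0 by rw [h, map_zero, add_zero]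
  by_contra hc
  have hc0 : algebraMap K F (P.coeff 0) ≠ 0 := by simpa using hc
  -- `v (c) > 0`, contradiction
  have hmem' : b' ∈ v.toValuationSubring := PlacesP3.mem_of_isIntegral v y hv.le b' hb'
  have hdivmem : Polynomial.aeval y P.divX ∈ v.toValuationSubring := by
    apply PlacesP3.mem_of_isIntegral v y hv.le
    have : Polynomial.aeval y P.divX ∈ Algebra.adjoin K ({y} : Set F) := by
      rw [Algebra.adjoin_singleton_eq_range_aeval]
      exact ⟨_, rfl⟩
    exact isIntegral_algebraMap (x := (⟨_, this⟩ : Algebra.adjoin K ({y} : Set F)))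
  have hpos : ∀ u w : F, 0 < v.ord u → w ∈ v.toValuationSubring → u * w = 0 ∨ 0 < v.ord (u * w) := by
    intro u w hu hw
    rcases eq_or_ne w 0 with rfl | hw0
    · left; simp
    · right
      rw [v.ord_mul (ne_zero_of_ord_ne_zero v hu.ne') hw0]
      have := (mem_iff_ord_nonneg v hw0).1 hw
      omega
  have e : algebraMap K F (P.coeff 0) = b * b' + -(y * Polynomial.aeval y P.divX) := by
    rw [← hab, ← hP, hdiv]; ring
  have h1 := hpos b b' hvb hmem'
  have h2 := hpos y _ hv hdivmem
  have hord : v.ord (algebraMap K F (P.coeff 0)) = 0 := ord_algebraMap v _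
  rcases h1 with h1 | h1
  · rcases h2 with h2 | h2
    · rw [h1, h2] at e; simp at e; exact hc e
    · rw [h1, zero_add] at e
      rw [e, ord_neg] at hord
      omega
  · rcases h2 with h2 | h2
    · rw [h2, neg_zero, add_zero] at e
      rw [e] at hord
      omega
    · have := ord_add_ge v (f := b * b') (g := -(y * Polynomial.aeval y P.divX))
        (by rw [← e]; exact hc0)
      rw [← e, hord, ord_neg] at this
      have := lt_min h1 h2
      omega

end Fermat.Agent.S24
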