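/-
S24: principal divisors have degree `0` (from the fundamental identity, taken as a hypothesis).
-/
import Fermat.Agent.S24.PlaceBasic

set_option autoImplicit false

open AlgebraicCurve IntermediateField

namespace Fermat.Agent.S24

variable {K F : Type*} [Field K] [Field F] [Algebra K F]

namespace PlacesP6

/-- `F` is finite over `K(f)` for every transcendental `f`, if it is finite over `K(y)`. -/
theorem finiteDimensional_of_transcendental (y : F) [FiniteDimensional K⟮y⟯ F]
    (f : F) (hf : Transcendental K f) : FiniteDimensional K⟮f⟯ F := by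
  have h1 : Algebra.EssFiniteType K K⟮y⟯ :=
    IntermediateField.essFiniteType_iff.2 ⟨{y}, by simp⟩
  have h2 : Algebra.EssFiniteType K F := Algebra.EssFiniteType.comp K K⟮y⟯ F
  have h3 : Algebra.EssFiniteType K⟮f⟯ F := Algebra.EssFiniteType.of_comp K K⟮f⟯ F
  have halg : Algebra.IsAlgebraic K⟮y⟯ F := Algebra.IsAlgebraic.of_finite _ _
  have halg' : Algebra.IsAlgebraic (Algebra.adjoin K ({y} : Set F)) F :=
    IntermediateField.isAlgebraic_adjoin_iff_top.1 halg
  have htr : Algebra.trdeg K F ≤ Cardinal.mk ({y} : Set F) :=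
    Algebra.IsAlgebraic.trdeg_le_cardinalMk K ({y} : Set F)
  have hind : AlgebraicIndependent K (Subtype.val : ({f} : Set F) → F) := by
    rw [algebraicIndependent_unique_type_iff]
    exact hf
  have hb : IsTranscendenceBasis K (Subtype.val : ({f} : Set F) → F) :=
    hind.isTranscendenceBasis_of_trdeg_le_of_finite (by simpa using htr)
  have h4 : Algebra.IsAlgebraic K⟮f⟯ F := by
    have := hb.isAlgebraic_field
    rwa [Subtype.range_coe] at this
  exact Algebra.finite_of_essFiniteType_of_isAlgebraic

theorem adjoin_inv (x : F) : K⟮x⁻¹⟯ = K⟮x⟯ := by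
  apply le_antisymm
  · rw [adjoin_simple_le_iff]
    exact inv_mem (mem_adjoin_simple_self K x)
  · rw [adjoin_simple_le_iff]
    have h := inv_mem (mem_adjoin_simple_self K x⁻¹)
    rwa [inv_inv] at h

theorem transcendental_inv {x : F} (hx : Transcendental K x) : Transcendental K x⁻¹ := by
  intro h
  apply hx
  have : x = (x⁻¹)⁻¹ := (inv_inv x).symm
  rw [this]
  exact h.inv

end PlacesP6

/-- (P6) principal divisors have degree `0`, given the fundamental identity (P1). -/
theorem sum_ord_eq_zero_of_zeros [IsAlgClosed K]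
    (hP1 : ∀ (y : F) (_ : Transcendental K y) [FiniteDimensional K⟮y⟯ F],
      ∃ Z : Finset (Place K F), (∀ v, v ∈ Z ↔ 0 < v.ord y) ∧
        ∑ v ∈ Z, v.ord y = (Module.finrank K⟮y⟯ F : ℤ))
    (y : F) [FiniteDimensional K⟮y⟯ F] (f : F) (hf : f ≠ 0) :
    ∃ Z : Finset (Place K F), (∀ v, v ∈ Z ↔ v.ord f ≠ 0) ∧ ∑ v ∈ Z, v.ord f = 0 := by
  classical
  by_cases halg : IsAlgebraic K f
  · obtain ⟨c, rfl⟩ : ∃ c : K, algebraMap K F c = f := by
      have hint : IsIntegral K f := halg.isIntegral
      have hdeg := IsAlgClosed.degree_eq_one_of_irreducible K (minpoly.irreducible hint)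
      exact minpoly.mem_range_of_degree_eq_one K f hdeg
    exact ⟨∅, fun v => by simp [ord_algebraMap], by simp⟩
  · have htr : Transcendental K f := halg
    have hfin : FiniteDimensional K⟮f⟯ F := PlacesP6.finiteDimensional_of_transcendental y f htr
    have hinv := PlacesP6.adjoin_inv (K := K) f
    have hfin' : FiniteDimensional K⟮f⁻¹⟯ F := by rw [hinv]; exact hfin
    obtain ⟨Z0, hZ0, hs0⟩ := hP1 f htr
    obtain ⟨Z1, hZ1, hs1⟩ := hP1 f⁻¹ (PlacesP6.transcendental_inv htr)
    rw [hinv] at hs1
    have hdisj : Disjoint Z0 Z1 := by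
      rw [Finset.disjoint_left]
      intro v h0 h1
      rw [hZ0] at h0
      rw [hZ1, v.ord_inv] at h1
      omega
    refine ⟨Z0 ∪ Z1, fun v => ?_, ?_⟩
    · rw [Finset.mem_union, hZ0, hZ1, v.ord_inv]
      omega
    · rw [Finset.sum_union hdisj, hs0]
      simp only [Place.ord_inv, Finset.sum_neg_distrib] at hs1
      omega

end Fermat.Agent.S24
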