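/-
S24: places of a function field `F/K` (`K` algebraically closed of characteristic 0) versus primes
of the integral closure of `K[y]`; the fundamental identity.
-/
import Fermat.Agent.S24.PlaceBasic
import Fermat.Agent.S24.FFFibre
import Fermat.Agent.S24.FFConst
import Fermat.Agent.S24.PlacesP3
import Fermat.Agent.S24.PlacesP6

set_option autoImplicit false
set_option linter.unusedSectionVars false

open AlgebraicCurve IntermediateField IsDedekindDomain

namespace Fermat.Agent.S24

section Aux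

variable {K F : Type*} [Field K] [Field F] [Algebra K F]

lemma ff_Ax_le' {x : F} (O : ValuationSubring F) (hK : ∀ a : K, algebraMap K F a ∈ O)
    (hv : x ∈ O) (a : Ax K x) : (a : F) ∈ O := by
  let O' : Subalgebra K F := { O.toSubring with algebraMap_mem' := hK }
  have h : Ax K x ≤ O' := Algebra.adjoin_le (Set.singleton_subset_iff.mpr hv)
  exact h a.2

lemma ff_Bx_le' {x : F} (O : ValuationSubring F) (hK : ∀ a : K, algebraMap K F a ∈ O)
    (hv : x ∈ O) (b : Bx K x) : algebraMap (Bx K x) F b ∈ O := by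
  obtain ⟨q, hq, hq0⟩ := b.2
  let φ : Ax K x →+* O :=
    (algebraMap (Ax K x) F).codRestrict O.toSubring (ff_Ax_le' O hK hv)
  have hint : IsIntegral O (b : F) := by
    refine ⟨q.map φ, hq.map φ, ?_⟩
    rw [Polynomial.eval₂_map]
    exact hq0
  obtain ⟨y, hy⟩ := IsIntegrallyClosed.isIntegral_iff.mp hint
  change (b : F) ∈ _
  rw [← hy]
  exact y.2

end Aux

variable {K F : Type*} [Field K] [Field F] [Algebra K F] [IsAlgClosed K] [CharZero K]

/-- (P1) the zeros of `y`, counted with multiplicity: `∑_{v(y)>0} v(y) = [F : K(y)]`. -/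
theorem exists_finset_zeros (y : F) (hy : Transcendental K y) [FiniteDimensional K⟮y⟯ F] :
    ∃ Z : Finset (Place K F), (∀ v, v ∈ Z ↔ 0 < v.ord y) ∧
      ∑ v ∈ Z, v.ord y = (Module.finrank K⟮y⟯ F : ℤ) :=
  ff_fibre_zero hy

/-- (P2) prime avoidance -/
theorem exists_eq_of_avoid (y : F) (hy : Transcendental K y) [FiniteDimensional K⟮y⟯ F]
    (v : Place K F) (hv : 0 < v.ord y) {ι : Type*} [Finite ι] (O : ι → ValuationSubring F)
    (hO : ∀ i, O i ≠ ⊤) (hK : ∀ i (a : K), algebraMap K F a ∈ O i) (hyO : ∀ i, y ∈ O i)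
    (H : ∀ b : F, IsIntegral (Algebra.adjoin K {y}) b → 0 < v.ord b → ∃ i, b⁻¹ ∉ O i) :
    ∃ i, v.toValuationSubring = O i := by
  classical
  have := Fintype.ofFinite ι
  have := ff_isDedekindDomain_Bx hy
  have := ff_isFractionRing_Bx (K := K) (x := y)
  have hyv : y ∈ v.toValuationSubring := ff_mem_of_ord_nonneg v hv.le
  obtain ⟨P, rfl⟩ := exists_prime_of_place (B := Bx K y) v (ff_Bx_le v hyv)
  have hPmax : P.asIdeal.IsMaximal := P.isMaximal
  -- the primes `Q i`
  let φ : ∀ i, Bx K y →+* O i := fun i =>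
    (algebraMap (Bx K y) F).codRestrict (O i).toSubring (ff_Bx_le' (O i) (hK i) (hyO i))
  let Q : ι → Ideal (Bx K y) := fun i => (IsLocalRing.maximalIdeal (O i)).comap (φ i)
  have hQ : ∀ i, (Q i).IsPrime := fun i => Ideal.comap_isPrime _ _
  obtain ⟨i₀, -⟩ := H y (isIntegral_algebraMap (R := Algebra.adjoin K {y})
    (x := ⟨y, Algebra.self_mem_adjoin_singleton K y⟩)) hv
  have hcover : ((P.asIdeal : Set (Bx K y)) ⊆ ⋃ i ∈ ((Finset.univ : Finset ι) : Set ι), Q i) := by
    intro b hb
    rcases eq_or_ne b 0 with rfl | hb0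
    · simp only [Finset.coe_univ, Set.mem_univ, Set.iUnion_true, Set.mem_iUnion, SetLike.mem_coe]
      exact ⟨i₀, (Q i₀).zero_mem⟩
    have hbF : algebraMap (Bx K y) F b ≠ 0 := by
      simpa using hb0
    have hval := valuation_eq_exp_neg_ord_placeOfPrime K P hbF
    have hlt : P.valuation F (algebraMap (Bx K y) F b) < 1 :=
      (HeightOneSpectrum.valuation_lt_one_iff_mem P b).mpr hb
    rw [hval, ← WithZero.exp_zero, WithZero.exp_lt_exp] at hlt
    obtain ⟨i, hi⟩ := H (algebraMap (Bx K y) F b) b.2 (by omega)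
    simp only [Finset.coe_univ, Set.mem_univ, Set.iUnion_true, Set.mem_iUnion, SetLike.mem_coe]
    refine ⟨i, ?_⟩
    change φ i b ∈ IsLocalRing.maximalIdeal (O i)
    rw [IsLocalRing.mem_maximalIdeal, mem_nonunits_iff]
    rintro ⟨u, hu⟩
    apply hi
    have h1 : ((u : O i) : F) = algebraMap (Bx K y) F b := by rw [hu]; rfl
    have h2 : ((u : O i) : F) * (((u⁻¹ : (O i)ˣ) : O i) : F) = 1 := by
      rw [← MulMemClass.coe_mul, Units.mul_inv]; rfl
    rw [← h1, eq_comm.mp (eq_inv_of_mul_eq_one_right h2)]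
    exact SetLike.coe_mem _
  obtain ⟨i, -, hi⟩ := (Ideal.subset_union_prime i₀ i₀ (fun i _ _ _ => hQ i)).mp hcover
  have hPQ : P.asIdeal = Q i := hPmax.eq_of_le (hQ i).ne_top hi
  refine ⟨i, eq_of_le_valuationSubring _ (hO i) ?_⟩
  intro f hf
  obtain ⟨n, d, hnd⟩ := P.exists_primeCompl_mul_eq_of_integer f hf
  have hdu : IsUnit (φ i d) := by
    by_contra hnu
    have hdQ : (d : Bx K y) ∈ Q i := (IsLocalRing.mem_maximalIdeal _).mpr hnu
    have hdP : (d : Bx K y) ∈ P.asIdeal := hPQ.ge hdQ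
    exact d.2 hdP
  obtain ⟨u, hu⟩ := hdu
  have h1 : ((u : O i) : F) = algebraMap (Bx K y) F d := by rw [hu]; rfl
  have h2 : ((u : O i) : F) * (((u⁻¹ : (O i)ˣ) : O i) : F) = 1 := by
    rw [← MulMemClass.coe_mul, Units.mul_inv]; rfl
  have : f = ((φ i n * ((u⁻¹ : (O i)ˣ) : O i) : O i) : F) := by
    rw [MulMemClass.coe_mul]
    change f = algebraMap (Bx K y) F n * _
    rw [← hnd, ← h1, mul_assoc, h2, mul_one]
  rw [this]
  exact SetLike.coe_mem _

/-- (P3) the norm of an integral element vanishing at a zero `v` of `y` is a polynomial in `y`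
without constant term. -/
theorem exists_norm_eq (y : F) (hy : Transcendental K y) [FiniteDimensional K⟮y⟯ F]
    (v : Place K F) (hv : 0 < v.ord y) (b : F) (hb : IsIntegral (Algebra.adjoin K {y}) b)
    (hvb : 0 < v.ord b) :
    ∃ p : Polynomial K, ((Algebra.norm K⟮y⟯ b : K⟮y⟯) : F) = y * Polynomial.aeval y p :=
  exists_norm_eq' y hy v hv b hb hvb

/-- the residue of an element of `O_v`. -/
lemma ff_exists_residue (y : F) (hy : Transcendental K y) [FiniteDimensional K⟮y⟯ F]
    (v : Place K F) (t : F) (ht : t ∈ v.toValuationSubring) :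
    ∃ c : K, t = algebraMap K F c ∨ 0 < v.ord (t - algebraMap K F c) := by
  rcases v.toValuationSubring.mem_or_inv_mem y with h | h
  · exact ff_exists_residue_aux hy v h t ht
  · have hy' : Transcendental K y⁻¹ := fun h => hy (by simpa using h.inv)
    have := ff_finiteDimensional_of_transcendental (x := y) hy'
    exact ff_exists_residue_aux hy' v h t ht

/-- (P4) all places have degree one. -/
theorem deg_eq_one (y : F) (hy : Transcendental K y) [FiniteDimensional K⟮y⟯ F]
    (v : Place K F) : v.deg = 1 := by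
  unfold Place.deg
  refine finrank_eq_one (1 : v.ResidueField) one_ne_zero fun w => ?_
  obtain ⟨a, rfl⟩ := IsLocalRing.residue_surjective w
  obtain ⟨c, hc⟩ := ff_exists_residue y hy v a a.2
  refine ⟨c, ?_⟩
  rw [Algebra.smul_def, mul_one, IsScalarTower.algebraMap_apply K v.toValuationSubring,
    IsLocalRing.ResidueField.algebraMap_eq, eq_comm, ← sub_eq_zero, ← map_sub,
    IsLocalRing.residue_eq_zero_iff, ff_mem_maximalIdeal_iff]
  rcases hc with hc | hc
  · left
    apply Subtype.ext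
    simp [hc]
  · right
    exact hc

/-- (P5) every place lies over a point of the `y`-line. -/
theorem exists_center (y : F) (hy : Transcendental K y) [FiniteDimensional K⟮y⟯ F]
    (v : Place K F) (hv : 0 ≤ v.ord y) : ∃ c : K, 0 < v.ord (y - algebraMap K F c) := by
  obtain ⟨c, hc⟩ := ff_exists_residue y hy v y (ff_mem_of_ord_nonneg v hv)
  refine ⟨c, hc.resolve_left fun h => hy ?_⟩
  rw [h]
  exact isAlgebraic_algebraMap c

/-- (P6) principal divisors have degree `0`. -/
theorem sum_ord_eq_zero (y : F) (hy : Transcendental K y) [FiniteDimensional K⟮y⟯ F]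
    (f : F) (hf : f ≠ 0) :
    ∃ Z : Finset (Place K F), (∀ v, v ∈ Z ↔ v.ord f ≠ 0) ∧ ∑ v ∈ Z, v.ord f = 0 :=
  sum_ord_eq_zero_of_zeros (fun y hy _ => exists_finset_zeros y hy) y f hf

end Fermat.Agent.S24
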