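/-
S24: Riemann-Hurwitz: the degree of a canonical divisor in terms of the fibres of `x`.
-/
import Fermat.Agent.S24.Places
import Fermat.Agent.S24.Diff

set_option autoImplicit false

open AlgebraicCurve IntermediateField KaehlerDifferential

namespace Fermat.Agent.S24

variable {K F : Type*} [Field K] [Field F] [Algebra K F] [IsAlgClosed K] [CharZero K]

namespace Canon

omit [IsAlgClosed K] [CharZero K] in
theorem adjoin_sub (x : F) (c : K) : K⟮x - algebraMap K F c⟯ = K⟮x⟯ := by
  apply le_antisymm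
  · rw [adjoin_simple_le_iff]
    exact sub_mem (mem_adjoin_simple_self K x) (IntermediateField.algebraMap_mem _ c)
  · rw [adjoin_simple_le_iff]
    have h := add_mem (mem_adjoin_simple_self K (x - algebraMap K F c))
      (IntermediateField.algebraMap_mem K⟮x - algebraMap K F c⟯ c)
    rwa [sub_add_cancel] at h

omit [IsAlgClosed K] [CharZero K] in
theorem adjoin_inv (x : F) : K⟮x⁻¹⟯ = K⟮x⟯ := by
  apply le_antisymm
  · rw [adjoin_simple_le_iff]
    exact inv_mem (mem_adjoin_simple_self K x)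
  · rw [adjoin_simple_le_iff]
    have h := inv_mem (mem_adjoin_simple_self K x⁻¹)
    rwa [inv_inv] at h

omit [IsAlgClosed K] [CharZero K] in
theorem transcendental_sub {x : F} (hx : Transcendental K x) (c : K) :
    Transcendental K (x - algebraMap K F c) := by
  intro h
  apply hx
  have : x = (x - algebraMap K F c) + algebraMap K F c := by ring
  rw [this]
  exact h.add (isAlgebraic_algebraMap c)

omit [IsAlgClosed K] [CharZero K] in
theorem transcendental_inv {x : F} (hx : Transcendental K x) : Transcendental K x⁻¹ := by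
  intro h
  apply hx
  have : x = (x⁻¹)⁻¹ := (inv_inv x).symm
  rw [this]
  exact h.inv

theorem fiber (x : F) (hx : Transcendental K x) [FiniteDimensional K⟮x⟯ F] (c : K) :
    ∃ Z : Finset (Place K F), (∀ v, v ∈ Z ↔ 0 < v.ord (x - algebraMap K F c)) ∧
      ∑ v ∈ Z, v.ord (x - algebraMap K F c) = (Module.finrank K⟮x⟯ F : ℤ) := by
  have h := adjoin_sub (K := K) x c
  have : FiniteDimensional K⟮x - algebraMap K F c⟯ F := by rw [h]; infer_instance
  obtain ⟨Z, hZ, hsum⟩ := exists_finset_zeros (x - algebraMap K F c) (transcendental_sub hx c)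
  refine ⟨Z, hZ, ?_⟩
  rw [hsum, h]

theorem poles (x : F) (hx : Transcendental K x) [FiniteDimensional K⟮x⟯ F] :
    ∃ Z : Finset (Place K F), (∀ v, v ∈ Z ↔ v.ord x < 0) ∧
      ∑ v ∈ Z, v.ord x = - (Module.finrank K⟮x⟯ F : ℤ) := by
  have h := adjoin_inv (K := K) x
  have : FiniteDimensional K⟮x⁻¹⟯ F := by rw [h]; infer_instance
  obtain ⟨Z, hZ, hsum⟩ := exists_finset_zeros x⁻¹ (transcendental_inv hx)
  refine ⟨Z, fun v => ?_, ?_⟩
  · rw [hZ, v.ord_inv]; omega
  · rw [h] at hsum
    rw [← hsum]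
    simp only [Place.ord_inv, Finset.sum_neg_distrib, neg_neg]

theorem degree_eq_sum (x : F) (hx : Transcendental K x) [FiniteDimensional K⟮x⟯ F]
    (D : Divisor K F) (T : Finset (Place K F)) (hT : D.support ⊆ T) :
    Divisor.degree D = ∑ v ∈ T, D v := by
  unfold Divisor.degree
  rw [Finsupp.liftAddHom_apply, Finsupp.sum_of_support_subset _ hT _ (by simp)]
  refine Finset.sum_congr rfl fun v _ => ?_
  simp [deg_eq_one x hx v]

omit [IsAlgClosed K] [CharZero K] in
theorem not_pos_of_pole (x : F) (v : Place K F) (hv : v.ord x < 0) (c : K) :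
    ¬ 0 < v.ord (x - algebraMap K F c) := by
  have hx0 : x ≠ 0 := ne_zero_of_ord_ne_zero v hv.ne
  have : v.ord (x + algebraMap K F (-c)) = v.ord x :=
    ord_add_eq_of_lt v hx0 (Or.inr (by rw [ord_algebraMap]; exact hv))
  rw [map_neg, ← sub_eq_add_neg] at this
  omega

omit [IsAlgClosed K] [CharZero K] in
theorem not_pos_of_ne (x : F) (v : Place K F) (c c' : K) (hc : c ≠ c')
    (hv : 0 < v.ord (x - algebraMap K F c)) : ¬ 0 < v.ord (x - algebraMap K F c') := by
  intro hv'
  have h1 : (x - algebraMap K F c') + -(x - algebraMap K F c) = algebraMap K F (c - c') := by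
    rw [map_sub]; ring
  have h0 : algebraMap K F (c - c') ≠ 0 := by
    rw [Ne, map_eq_zero, sub_eq_zero]; exact hc
  have h2 := ord_add_ge v (f := x - algebraMap K F c') (g := -(x - algebraMap K F c))
    (by rw [h1]; exact h0)
  rw [h1, ord_algebraMap, ord_neg] at h2
  have := lt_min hv' hv
  omega

theorem pointwise (x : F) (hx : Transcendental K x) [FiniteDimensional K⟮x⟯ F]
    (hparam : ∀ v : Place K F, HasParam v) (S : Finset K)
    (hS : ∀ c : K, c ∉ S → ∀ v : Place K F, 0 < v.ord (x - algebraMap K F c) →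
      v.ord (x - algebraMap K F c) = 1) (a : F) (ha : a ≠ 0) (v : Place K F) :
    v.ordDifferential (a • D K F x) = v.ord a + (if v.ord x < 0 then v.ord x - 1 else 0)
      + ∑ c ∈ S, (if 0 < v.ord (x - algebraMap K F c)
          then v.ord (x - algebraMap K F c) - 1 else 0) := by
  classical
  have halg : Algebra.IsAlgebraic K⟮x⟯ F := Algebra.IsAlgebraic.of_finite _ _
  rcases lt_or_ge (v.ord x) 0 with hv | hv
  · rw [ordDifferential_smul_D x halg v (hparam v) a x ha hv.ne, if_pos hv,
      Finset.sum_eq_zero (fun c _ => if_neg (not_pos_of_pole x v hv c))]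
    ring
  · obtain ⟨c₀, hc₀⟩ := exists_center x hx v hv
    have hD : D K F x = D K F (x - algebraMap K F c₀) := by
      rw [map_sub, Derivation.map_algebraMap, sub_zero]
    rw [hD, ordDifferential_smul_D x halg v (hparam v) a _ ha hc₀.ne', if_neg (not_lt.2 hv)]
    by_cases hcS : c₀ ∈ S
    · rw [Finset.sum_eq_single c₀
        (fun c _ hc => if_neg (not_pos_of_ne x v c₀ c (Ne.symm hc) hc₀))
        (fun h => absurd hcS h), if_pos hc₀]
      ring
    · rw [Finset.sum_eq_zero (fun c hc => if_neg (not_pos_of_ne x v c₀ c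
        (fun h => hcS (h ▸ hc)) hc₀)), hS c₀ hcS v hc₀]
      ring

end Canon

theorem degree_canonicalDivisorOf (x : F) (hx : Transcendental K x) [FiniteDimensional K⟮x⟯ F]
    [HasCanonicalDivisor (K := K) (F := F)] (hparam : ∀ v : Place K F, HasParam v)
    (S : Finset K)
    (hS : ∀ c : K, c ∉ S → ∀ v : Place K F, 0 < v.ord (x - algebraMap K F c) →
      v.ord (x - algebraMap K F c) = 1)
    {ω : Ω[F⁄K]} (hω : ω ≠ 0) :
    Divisor.degree (canonicalDivisorOf hω) =
      ∑ c ∈ S, ((Module.finrank K⟮x⟯ F : ℤ)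
          - (Nat.card {v : Place K F // 0 < v.ord (x - algebraMap K F c)} : ℤ))
        - (Module.finrank K⟮x⟯ F : ℤ) - (Nat.card {v : Place K F // v.ord x < 0} : ℤ) := by
  classical
  have halg : Algebra.IsAlgebraic K⟮x⟯ F := Algebra.IsAlgebraic.of_finite _ _
  obtain ⟨a, rfl⟩ := exists_eq_smul_D x halg ω
  have ha : a ≠ 0 := by
    rintro rfl
    exact hω (zero_smul _ _)
  obtain ⟨Za, hZa, hsuma⟩ := sum_ord_eq_zero x hx a ha
  obtain ⟨Zp, hZp, hsump⟩ := Canon.poles x hx
  choose Zc hZc hsumc using Canon.fiber x hx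
  set T : Finset (Place K F) :=
    (canonicalDivisorOf hω).support ∪ Za ∪ Zp ∪ S.biUnion Zc with hT
  have hT1 : (canonicalDivisorOf hω).support ⊆ T := by
    intro v hv; simp only [hT, Finset.mem_union]; tauto
  have hT2 : Za ⊆ T := by
    intro v hv; simp only [hT, Finset.mem_union]; tauto
  have hT3 : Zp ⊆ T := by
    intro v hv; simp only [hT, Finset.mem_union]; tauto
  have hT4 : ∀ c ∈ S, Zc c ⊆ T := by
    intro c hc v hv
    simp only [hT, Finset.mem_union, Finset.mem_biUnion]
    exact Or.inr ⟨c, hc, hv⟩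
  rw [Canon.degree_eq_sum x hx _ T hT1]
  simp only [canonicalDivisorOf_apply, Canon.pointwise x hx hparam S hS a ha,
    Finset.sum_add_distrib]
  have e1 : ∑ v ∈ T, v.ord a = 0 := by
    rw [← hsuma]
    refine (Finset.sum_subset hT2 fun v _ hv => ?_).symm
    by_contra h
    exact hv ((hZa v).2 h)
  have e2 : ∑ v ∈ T, (if v.ord x < 0 then v.ord x - 1 else 0)
      = - (Module.finrank K⟮x⟯ F : ℤ) - (Nat.card {v : Place K F // v.ord x < 0} : ℤ) := by
    rw [← Finset.sum_filter]
    have : T.filter (fun v => v.ord x < 0) = Zp := by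
      ext v
      rw [Finset.mem_filter, hZp]
      exact ⟨fun h => h.2, fun h => ⟨hT3 ((hZp v).2 h), h⟩⟩
    rw [this, Finset.sum_sub_distrib, hsump, Nat.subtype_card Zp hZp]
    simp
  have e3 : ∀ c ∈ S, ∑ v ∈ T, (if 0 < v.ord (x - algebraMap K F c)
          then v.ord (x - algebraMap K F c) - 1 else 0)
      = (Module.finrank K⟮x⟯ F : ℤ)
          - (Nat.card {v : Place K F // 0 < v.ord (x - algebraMap K F c)} : ℤ) := by
    intro c hc
    rw [← Finset.sum_filter]
    have : T.filter (fun v => 0 < v.ord (x - algebraMap K F c)) = Zc c := by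
      ext v
      rw [Finset.mem_filter, hZc]
      exact ⟨fun h => h.2, fun h => ⟨hT4 c hc ((hZc c v).2 h), h⟩⟩
    rw [this, Finset.sum_sub_distrib, hsumc, Nat.subtype_card (Zc c) (hZc c)]
    simp
  rw [e1, e2, Finset.sum_comm, Finset.sum_congr rfl e3]
  ring

theorem exists_differential_ne_zero (x : F) (hx : Transcendental K x) [FiniteDimensional K⟮x⟯ F]
    (hparam : ∀ v : Place K F, HasParam v) : ∃ ω : Ω[F⁄K], ω ≠ 0 := by
  obtain ⟨Z, hZ, hsum⟩ := exists_finset_zeros x hx
  have hpos : (0 : ℤ) < (Module.finrank K⟮x⟯ F : ℤ) := by exact_mod_cast Module.finrank_pos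
  have hne : Z.Nonempty := by
    rw [Finset.nonempty_iff_ne_empty]
    rintro rfl
    simp at hsum
    omega
  obtain ⟨v, hv⟩ := hne
  exact ⟨D K F x, D_ne_zero_of_hasParam v (hparam v) x ((hZ v).1 hv).ne'⟩

end Fermat.Agent.S24
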