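/-
S24: abstract degree bounds for `[F : K(x)]` from embeddings and traces; linear disjointness.
-/
import Fermat.Agent.S24.Defs

set_option autoImplicit false

open IntermediateField

namespace Fermat.Agent.S24

theorem DegreeBound.stepA {F C L : Type*} [Field F] [Field C] [Field L]
    [Algebra C L] {Q : Type*} [Fintype Q] (h : F)
    (Θ : Q → F →+* L) (X : L)
    (hdist : ∀ q q', Θ q h = Θ q' h → q = q')
    (q₀ : Q) (r : ℕ) (hr : Fintype.card Q < r) (a : Fin r → F)
    (htrace : ∀ (i : Fin r) (k : ℕ), ∃ R : Polynomial C,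
      ∑ q, Θ q (a i * h ^ k) = Polynomial.aeval X R) :
    ∃ c : Fin r → Polynomial C, (∃ i, c i ≠ 0) ∧
      ∑ i, Polynomial.aeval X (c i) * Θ q₀ (a i) = 0 := by
  classical
  choose R hR using htrace
  set n := Fintype.card Q with hn
  let v : Fin r → (Fin n → Polynomial C) := fun i k => R i k
  have hv : ¬ LinearIndependent (Polynomial C) v := by
    intro hli
    have := hli.fintype_card_le_finrank
    simp at this
    omega
  rw [Fintype.not_linearIndependent_iff] at hv
  obtain ⟨c, hc, hc0⟩ := hv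
  refine ⟨c, hc0, ?_⟩
  let w : Q → L := fun q => ∑ i, Polynomial.aeval X (c i) * Θ q (a i)
  have hw : ∀ k : Fin n, ∑ q, w q * (Θ q h) ^ (k : ℕ) = 0 := by
    intro k
    have h1 : ∑ q, w q * (Θ q h) ^ (k : ℕ)
        = ∑ i, Polynomial.aeval X (c i) * ∑ q, Θ q (a i * h ^ (k : ℕ)) := by
      simp only [w, Finset.sum_mul, Finset.mul_sum]
      rw [Finset.sum_comm]
      refine Finset.sum_congr rfl fun i _ => Finset.sum_congr rfl fun q _ => ?_
      rw [map_mul, map_pow, mul_assoc]
    rw [h1]
    simp only [hR, ← map_mul, ← map_sum]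
    have h2 := congrFun hc k
    simp only [Finset.sum_apply, Pi.smul_apply, smul_eq_mul, Pi.zero_apply, v] at h2
    rw [h2, map_zero]
  let e : Q ≃ Fin n := Fintype.equivFin Q
  have hinj : Function.Injective (fun j : Fin n => Θ (e.symm j) h) := by
    intro j j' hjj
    exact e.symm.injective (hdist _ _ hjj)
  have h0 : (fun j : Fin n => w (e.symm j)) = 0 := by
    apply Matrix.eq_zero_of_forall_pow_sum_mul_pow_eq_zero hinj
    intro k
    rw [← hw k]
    exact Fintype.sum_equiv e.symm _ _ (fun j => rfl)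
  have := congrFun h0 (e q₀)
  simpa [w] using this

/-- (D1) upper bound. -/
theorem finrank_le_of_trace {K F C L : Type*} [Field K] [Field F] [Algebra K F] [Field C] [Field L]
    [Algebra C L] {Q : Type*} [Fintype Q] (x h : F) (A : Subalgebra K F) (hh : h ∈ A)
    (hfrac : ∀ f : F, ∃ a ∈ A, ∃ b ∈ A, b ≠ 0 ∧ f = a / b)
    (Θ : Q → F →+* L) (X : L)
    (hdist : ∀ q q', Θ q h = Θ q' h → q = q')
    (htrace : ∀ a ∈ A, ∃ R : Polynomial C, ∑ q, Θ q a = Polynomial.aeval X R)
    (q₀ : Q)
    (hLD : ∀ (r : ℕ) (f : Fin r → F) (c : Fin r → Polynomial C), (∃ i, c i ≠ 0) →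
      ∑ i, Polynomial.aeval X (c i) * Θ q₀ (f i) = 0 →
      ∃ d : Fin r → Polynomial K, (∃ i, d i ≠ 0) ∧ ∑ i, Polynomial.aeval x (d i) * f i = 0)
    (hx : Transcendental K x) :
    FiniteDimensional K⟮x⟯ F ∧ Module.finrank K⟮x⟯ F ≤ Fintype.card Q := by
  classical
  -- Step B
  have stepB : ∀ (r : ℕ) (_ : Fintype.card Q < r) (f : Fin r → F),
      ∃ d : Fin r → Polynomial K, (∃ i, d i ≠ 0) ∧ ∑ i, Polynomial.aeval x (d i) * f i = 0 := by
    intro r hr f
    choose a ha b hb hb0 hf using fun i => hfrac (f i)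
    have hB0 : ∏ i, b i ≠ 0 := Finset.prod_ne_zero_iff.2 fun i _ => hb0 i
    have hmem : ∀ i, f i * ∏ j, b j ∈ A := by
      intro i
      have : f i * ∏ j, b j = a i * ∏ j ∈ Finset.univ.erase i, b j := by
        rw [← Finset.mul_prod_erase Finset.univ b (Finset.mem_univ i), hf i]
        field_simp [hb0 i]
      rw [this]
      exact A.mul_mem (ha i) (Subalgebra.prod_mem A fun j _ => hb j)
    obtain ⟨c, hc0, hc⟩ := DegreeBound.stepA (C := C) h Θ X hdist q₀ r hr
      (fun i => f i * ∏ j, b j)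
      (fun i k => htrace _ (A.mul_mem (hmem i) (A.pow_mem hh k)))
    obtain ⟨d, hd0, hd⟩ := hLD r _ c hc0 hc
    refine ⟨d, hd0, ?_⟩
    simp only [← mul_assoc, ← Finset.sum_mul] at hd
    exact (mul_eq_zero.1 hd).resolve_right hB0
  have hrank : Module.rank K⟮x⟯ F ≤ (Fintype.card Q : ℕ) := by
    apply rank_le
    intro s hs
    by_contra hcon
    push Not at hcon
    obtain ⟨d, ⟨i₀, hi₀⟩, hd⟩ := stepB s.card hcon (fun i => (s.equivFin.symm i : F))
    have hli : LinearIndependent K⟮x⟯ (fun i : Fin s.card => (s.equivFin.symm i : F)) :=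
      hs.comp _ s.equivFin.symm.injective
    rw [Fintype.linearIndependent_iff] at hli
    have := hli (fun i => Polynomial.aeval (AdjoinSimple.gen K x) (d i)) (by
      rw [← hd]
      refine Finset.sum_congr rfl fun i _ => ?_
      rw [Algebra.smul_def]
      congr 1
      rw [IntermediateField.algebraMap_apply, ← IntermediateField.aeval_coe,
        AdjoinSimple.coe_gen]) i₀
    apply hi₀
    have h2 : Polynomial.aeval x (d i₀) = 0 := by
      have := congrArg (fun z : K⟮x⟯ => (z : F)) this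
      simpa [← IntermediateField.aeval_coe] using this
    by_contra hne
    exact hx ⟨d i₀, hne, h2⟩
  have hfin : FiniteDimensional K⟮x⟯ F :=
    Module.rank_lt_aleph0_iff.1 (lt_of_le_of_lt hrank Cardinal.natCast_lt_aleph0)
  exact ⟨hfin, Module.finrank_le_of_rank_le hrank⟩

/-- two ring homs which agree on `K` and `x` agree on `K(x)`. -/
theorem DegreeBound.agree_adjoin {K F L : Type*} [Field K] [Field F] [Algebra K F] [Field L]
    (x : F) (φ ψ : F →+* L) (hx : φ x = ψ x)
    (hK : ∀ a : K, φ (algebraMap K F a) = ψ (algebraMap K F a)) (z : K⟮x⟯) :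
    φ (z : F) = ψ (z : F) := by
  obtain ⟨z, hz⟩ := z
  induction hz using IntermediateField.adjoin_induction with
  | mem y hy => 
    rw [Set.mem_singleton_iff] at hy
    subst hy; exact hx
  | algebraMap a => exact hK a
  | add y y' _ _ h h' => simp only [map_add] at *; rw [h, h']
  | inv y _ h => simp only [map_inv₀] at *; rw [h]
  | mul y y' _ _ h h' => simp only [map_mul] at *; rw [h, h']

/-- (D2) lower bound: distinct embeddings agreeing on `K(x)`. -/
theorem card_le_finrank {K F L : Type*} [Field K] [Field F] [Algebra K F] [Field L]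
    {Q : Type*} [Fintype Q] (x : F) [FiniteDimensional K⟮x⟯ F] (Θ : Q → F →+* L)
    (hinj : Function.Injective Θ) (hx : ∀ q q', Θ q x = Θ q' x)
    (hK : ∀ q q' (a : K), Θ q (algebraMap K F a) = Θ q' (algebraMap K F a)) :
    Fintype.card Q ≤ Module.finrank K⟮x⟯ F := by
  rcases isEmpty_or_nonempty Q with hQ | ⟨⟨q₀⟩⟩
  · simp
  let _ : Algebra K⟮x⟯ L := ((Θ q₀).comp (algebraMap K⟮x⟯ F)).toAlgebra
  let Φ : Q → (F →ₐ[K⟮x⟯] L) := fun q =>
    { Θ q with
      commutes' := fun z => DegreeBound.agree_adjoin x (Θ q) (Θ q₀) (hx q q₀) (hK q q₀) z }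
  have hΦ : Function.Injective Φ := by
    intro q q' h
    apply hinj
    ext f
    exact DFunLike.congr_fun h f
  have h1 : Fintype.card (F →ₐ[K⟮x⟯] L) ≤ Module.finrank L (F →ₗ[K⟮x⟯] L) :=
    (linearIndependent_toLinearMap K⟮x⟯ F L).fintype_card_le_finrank
  rw [Module.finrank_linearMap_self] at h1
  exact (Fintype.card_le_of_injective Φ hΦ).trans h1

/-- (D4) norm = product of conjugates, for a full set of embeddings into any field. -/
theorem norm_eq_prod {K F L : Type*} [Field K] [CharZero K] [Field F] [Algebra K F] [Field L]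
    {Q : Type*} [Fintype Q] (x : F) [FiniteDimensional K⟮x⟯ F] (Θ : Q → F →+* L)
    (hinj : Function.Injective Θ) (hx : ∀ q q', Θ q x = Θ q' x)
    (hK : ∀ q q' (a : K), Θ q (algebraMap K F a) = Θ q' (algebraMap K F a))
    (hn : Module.finrank K⟮x⟯ F = Fintype.card Q) (q₀ : Q) (b : F) :
    Θ q₀ ((Algebra.norm K⟮x⟯ b : K⟮x⟯) : F) = ∏ q, Θ q b := by
  let E := AlgebraicClosure L
  let _ : Algebra K⟮x⟯ E := ((algebraMap L E).comp ((Θ q₀).comp (algebraMap K⟮x⟯ F))).toAlgebra
  let Φ : Q → (F →ₐ[K⟮x⟯] E) := fun q =>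
    { (algebraMap L E).comp (Θ q) with
      commutes' := fun z => congrArg (algebraMap L E)
        (DegreeBound.agree_adjoin x (Θ q) (Θ q₀) (hx q q₀) (hK q q₀) z) }
  have hΦ : Function.Injective Φ := by
    intro q q' h
    apply hinj
    ext f
    exact (algebraMap L E).injective (DFunLike.congr_fun h f)
  have : CharZero K⟮x⟯ := charZero_of_injective_algebraMap (algebraMap K K⟮x⟯).injective
  have hcard : Fintype.card (F →ₐ[K⟮x⟯] E) = Fintype.card Q := by
    rw [AlgHom.card, hn]
  have hbij : Function.Bijective Φ :=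
    (Fintype.bijective_iff_injective_and_card Φ).2 ⟨hΦ, hcard.symm⟩
  have h := Algebra.norm_eq_prod_embeddings K⟮x⟯ E b
  apply (algebraMap L E).injective
  rw [map_prod]
  have h2 : ∏ q, (algebraMap L E) (Θ q b) = ∏ σ : F →ₐ[K⟮x⟯] E, σ b :=
    Fintype.prod_bijective Φ hbij _ _ (fun q => rfl)
  rw [h2, ← h]
  rfl

/-- (D3) linear disjointness: a relation over `C[x]` between Laurent series with coefficients in
`K ⊆ C` gives a relation over `K[x]`. -/
theorem exists_relation_of_coeffMap {K C : Type*} [Field K] [Field C] (ι : K →+* C)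
    (x : LaurentSeries K) (r : ℕ) (f : Fin r → LaurentSeries K) (c : Fin r → Polynomial C)
    (hc : ∃ i, c i ≠ 0)
    (h : ∑ i, Polynomial.aeval (ModularCurve.coeffMap ι x) (c i) * ModularCurve.coeffMap ι (f i) = 0) :
    ∃ d : Fin r → Polynomial K, (∃ i, d i ≠ 0) ∧ ∑ i, Polynomial.aeval x (d i) * f i = 0 := by
  classical
  let _ : Algebra K C := ι.toAlgebra
  obtain ⟨i₀, hi₀⟩ := hc
  obtain ⟨k₀, hk₀⟩ : ∃ k, (c i₀).coeff k ≠ 0 := by
    by_contra hcon
    push Not at hcon
    exact hi₀ (Polynomial.ext (by simpa using hcon))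
  obtain ⟨π, hπ⟩ : ∃ π : Module.Dual K C, π ((c i₀).coeff k₀) ≠ 0 := by
    by_contra hcon
    push Not at hcon
    exact hk₀ ((Module.forall_dual_apply_eq_zero_iff K _).1 hcon)
  let d : Fin r → Polynomial K := fun i => (c i).sum (fun k a => Polynomial.monomial k (π a))
  have hd : ∀ i k, (d i).coeff k = π ((c i).coeff k) := by
    intro i k
    simp only [d, Polynomial.sum_def, Polynomial.finsetSum_coeff, Polynomial.coeff_monomial]
    rw [Finset.sum_ite_eq']
    split_ifs with hk
    · rfl
    · rw [Polynomial.notMem_support_iff.1 hk, map_zero]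
  have hdeg : ∀ i, (d i).natDegree < (c i).natDegree + 1 := by
    intro i
    rw [Nat.lt_succ_iff, Polynomial.natDegree_le_iff_coeff_eq_zero]
    intro M hM
    rw [hd, Polynomial.coeff_eq_zero_of_natDegree_lt hM, map_zero]
  refine ⟨d, ⟨i₀, fun h0 => hπ ?_⟩, ?_⟩
  · rw [← hd, h0, Polynomial.coeff_zero]
  · ext n
    have hn := congrArg (fun u : LaurentSeries C => π (u.coeff n)) h
    simp only [HahnSeries.coeff_zero, map_zero] at hn
    rw [HahnSeries.coeff_zero, ← hn]
    have e1 : ∀ i, Polynomial.aeval (ModularCurve.coeffMap ι x) (c i) * ModularCurve.coeffMap ι (f i)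
        = ∑ k ∈ Finset.range ((c i).natDegree + 1),
            HahnSeries.single 0 ((c i).coeff k) * ModularCurve.coeffMap ι (x ^ k * f i) := by
      intro i
      rw [Polynomial.aeval_eq_sum_range, Finset.sum_mul]
      refine Finset.sum_congr rfl fun k _ => ?_
      rw [map_mul, map_pow, Algebra.smul_def, ModularCurve.algebraMap_laurentSeries_eq_single,
        mul_assoc]
    have e2 : ∀ i, Polynomial.aeval x (d i) * f i
        = ∑ k ∈ Finset.range ((c i).natDegree + 1),
            HahnSeries.single 0 ((d i).coeff k) * (x ^ k * f i) := by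
      intro i
      rw [Polynomial.aeval_eq_sum_range' (hdeg i), Finset.sum_mul]
      refine Finset.sum_congr rfl fun k _ => ?_
      rw [Algebra.smul_def, ModularCurve.algebraMap_laurentSeries_eq_single, mul_assoc]
    simp only [e1, e2, HahnSeries.coeff_sum, HahnSeries.coeff_single_zero_mul, map_sum,
      ModularCurve.coeffMap_coeff, hd]
    refine Finset.sum_congr rfl fun i _ => Finset.sum_congr rfl fun k _ => ?_
    have : (c i).coeff k * ι ((x ^ k * f i).coeff n) = ((x ^ k * f i).coeff n) • (c i).coeff k := by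
      rw [mul_comm]; rfl
    rw [this, map_smul, smul_eq_mul, mul_comm]

end Fermat.Agent.S24
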