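/-
S24: counting the places above a point from local uniformisation data.
-/
import Fermat.Agent.S24.Places
import Fermat.Agent.S24.DegreeBound

set_option autoImplicit false

open AlgebraicCurve IntermediateField

namespace Fermat.Agent.S24

namespace LocalCount

theorem order_inv' (u : LaurentSeries ℂ) : (u⁻¹).order = - u.order := by
  rcases eq_or_ne u 0 with rfl | hu
  · simp
  · have h := HahnSeries.order_mul hu (inv_ne_zero hu)
    rw [mul_inv_cancel₀ hu, HahnSeries.order_one] at h
    omega

theorem order_prod' {ι : Type*} (s : Finset ι) (u : ι → LaurentSeries ℂ) (hu : ∀ i ∈ s, u i ≠ 0) :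
    (∏ i ∈ s, u i).order = ∑ i ∈ s, (u i).order := by
  classical
  induction s using Finset.induction_on with
  | empty => simp
  | insert a s ha ih =>
    rw [Finset.prod_insert ha, Finset.sum_insert ha,
      HahnSeries.order_mul (hu a (Finset.mem_insert_self a s))
        (Finset.prod_ne_zero_iff.2 fun i hi => hu i (Finset.mem_insert_of_mem hi)),
      ih fun i hi => hu i (Finset.mem_insert_of_mem hi)]

/-- the valuation ring of `order ∘ Θ`. -/
def valRing {F : Type*} [Field F] (Θ : F →+* LaurentSeries ℂ) : ValuationSubring F where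
  carrier := {f | 0 ≤ (Θ f).order}
  mul_mem' := by
    intro a b ha hb
    simp only [Set.mem_ofPred_eq] at *
    rcases eq_or_ne (Θ a) 0 with h0 | h0
    · rw [map_mul, h0, zero_mul, HahnSeries.order_zero]
    rcases eq_or_ne (Θ b) 0 with h1 | h1
    · rw [map_mul, h1, mul_zero, HahnSeries.order_zero]
    rw [map_mul, HahnSeries.order_mul h0 h1]
    omega
  one_mem' := by simp
  add_mem' := by
    intro a b ha hb
    simp only [Set.mem_ofPred_eq] at *
    rcases eq_or_ne (Θ a + Θ b) 0 with h0 | h0
    · rw [map_add, h0, HahnSeries.order_zero]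
    · rw [map_add]
      exact le_trans (le_min ha hb) (HahnSeries.min_order_le_order_add h0)
  zero_mem' := by simp
  neg_mem' := by
    intro a ha
    simp only [Set.mem_ofPred_eq] at *
    rwa [map_neg, HahnSeries.order_neg]
  mem_or_inv_mem' := by
    intro a
    simp only [Set.mem_ofPred_eq]
    rw [map_inv₀, order_inv']
    omega

theorem mem_valRing {F : Type*} [Field F] (Θ : F →+* LaurentSeries ℂ) (f : F) :
    f ∈ valRing Θ ↔ 0 ≤ (Θ f).order := Iff.rfl

end LocalCount

variable {K F : Type*} [Field K] [Field F] [Algebra K F] [IsAlgClosed K] [CharZero K]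
variable {Q : Type*} [Fintype Q] {y : F} {e : ℕ} {π : Equiv.Perm Q}

/-- every zero of `y` is parametrised by one of the embeddings. -/
theorem LocalUnif.exists_param (U : LocalUnif K F Q y e π) (hy : Transcendental K y)
    [FiniteDimensional K⟮y⟯ F] (hn : Module.finrank K⟮y⟯ F = Fintype.card Q)
    (v : Place K F) (hv : 0 < v.ord y) :
    ∃ (q : Q) (m : ℕ), 0 < m ∧ ∀ f : F, f ≠ 0 → (U.Θ q f).order = (m : ℤ) * v.ord f := by
  have hepos : (0 : ℤ) < e := by exact_mod_cast U.e_pos
  have hK : ∀ q (a : K), algebraMap K F a ∈ LocalCount.valRing (U.Θ q) := by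
    intro q a
    rw [LocalCount.mem_valRing, U.const, HahnSeries.order_C]
  have hyO : ∀ q, y ∈ LocalCount.valRing (U.Θ q) := by
    intro q
    rw [LocalCount.mem_valRing, U.order_y]
    exact hepos.le
  have hcardpos : 0 < Fintype.card Q := by
    rw [← hn]; exact Module.finrank_pos
  obtain ⟨q₀⟩ : Nonempty Q := Fintype.card_pos_iff.1 hcardpos
  obtain ⟨q, hq⟩ := exists_eq_of_avoid y hy v hv (fun q => LocalCount.valRing (U.Θ q))
    (by
      intro q htop
      have : y⁻¹ ∈ LocalCount.valRing (U.Θ q) := by rw [htop]; exact ValuationSubring.mem_top _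
      rw [LocalCount.mem_valRing, map_inv₀, LocalCount.order_inv', U.order_y] at this
      omega)
    hK hyO
    (by
      intro b hb hvb
      have hb0 : b ≠ 0 := ne_zero_of_ord_ne_zero v hvb.ne'
      obtain ⟨p, hp⟩ := exists_norm_eq y hy v hv b hb hvb
      have hD4 := norm_eq_prod (K := K) y U.Θ U.inj U.agree
        (fun q q' a => by rw [U.const, U.const]) hn q₀ b
      have hN0 : ((Algebra.norm K⟮y⟯ b : K⟮y⟯) : F) ≠ 0 := by
        simpa using (Algebra.norm_ne_zero_iff (R := K⟮y⟯)).2 hb0
      have hy0 : y ≠ 0 := ne_zero_of_ord_ne_zero v hv.ne'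
      have hp0 : Polynomial.aeval y p ≠ 0 := by
        intro h0; rw [hp, h0, mul_zero] at hN0; exact hN0 rfl
      have hpO : Polynomial.aeval y p ∈ LocalCount.valRing (U.Θ q₀) := by
        rw [Polynomial.aeval_eq_sum_range]
        refine sum_mem fun k _ => ?_
        rw [Algebra.smul_def]
        exact mul_mem (hK q₀ _) (pow_mem (hyO q₀) k)
      rw [LocalCount.mem_valRing] at hpO
      have hne : ∀ (q : Q) (f : F), f ≠ 0 → U.Θ q f ≠ 0 := fun q f hf =>
        (map_ne_zero (U.Θ q)).2 hf
      rw [hp, map_mul] at hD4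
      have hord := congrArg HahnSeries.order hD4
      rw [HahnSeries.order_mul (hne _ _ hy0) (hne _ _ hp0), U.order_y,
        LocalCount.order_prod' _ _ (fun q _ => hne q b hb0)] at hord
      have hpos : 0 < ∑ q, (U.Θ q b).order := by omega
      obtain ⟨q, _, hq⟩ := Finset.exists_lt_of_sum_lt (s := Finset.univ)
        (f := fun _ : Q => (0 : ℤ)) (g := fun q => (U.Θ q b).order) (by simpa using hpos)
      refine ⟨q, ?_⟩
      rw [LocalCount.mem_valRing, map_inv₀, LocalCount.order_inv']
      omega)
  obtain ⟨m, hm, hmf⟩ := exists_mul_ord v (fun f => (U.Θ q f).order)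
    (fun f g hf hg => by
      simp only [map_mul]
      exact HahnSeries.order_mul ((map_ne_zero _).2 hf) ((map_ne_zero _).2 hg))
    (fun f _ => by rw [hq]; exact LocalCount.mem_valRing _ _)
  exact ⟨q, m, hm, hmf⟩

namespace LocalCount

theorem surj_of_sum {α β : Type*} [Fintype α] [Fintype β] (g : α → β)
    (hg : Function.Injective g) (a : α → ℕ) (c : β → ℕ) (hc : ∀ b, 0 < c b)
    (hle : ∀ x, a x ≤ c (g x)) (hsum : ∑ x, a x = ∑ b, c b) : Function.Surjective g := by
  classical
  by_contra hns
  rw [Function.Surjective] at hns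
  push Not at hns
  obtain ⟨b₀, hb₀⟩ := hns
  have h1 : ∑ x, a x ≤ ∑ x, c (g x) := Finset.sum_le_sum fun x _ => hle x
  have h2 : ∑ x, c (g x) = ∑ b ∈ Finset.univ.image g, c b :=
    (Finset.sum_image (fun x _ y _ h => hg h)).symm
  have h3 : ∑ b ∈ Finset.univ.image g, c b < ∑ b, c b :=
    Finset.sum_lt_sum_of_subset (Finset.subset_univ _) (Finset.mem_univ b₀) (by simp [hb₀]) (hc b₀)
      (fun _ _ _ => Nat.zero_le _)
  omega

omit [IsAlgClosed K] [CharZero K] [Fintype Q] in
theorem order_R (U : LocalUnif K F Q y e π) (u : LaurentSeries ℂ) : (U.R u).order = u.order := by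
  have hζ : U.ζ ≠ 0 := U.prim.ne_zero U.e_pos.ne'
  rcases eq_or_ne u 0 with rfl | hu
  · simp
  have hRu : U.R u ≠ 0 := (map_ne_zero U.R).2 hu
  apply le_antisymm
  · apply HahnSeries.order_le_of_coeff_ne_zero
    rw [U.R_coeff]
    exact mul_ne_zero (zpow_ne_zero _ hζ) (HahnSeries.coeff_order_eq_zero.not.2 hu)
  · apply HahnSeries.order_le_of_coeff_ne_zero
    have := HahnSeries.coeff_order_eq_zero.not.2 hRu
    rw [U.R_coeff] at this
    exact right_ne_zero_of_mul this

omit [IsAlgClosed K] [CharZero K] [Fintype Q] in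
theorem coeff_pow (U : LocalUnif K F Q y e π) (k : ℕ) (q : Q) (f : F) (j : ℤ) :
    (U.Θ ((π ^ k) q) f).coeff j = (U.ζ ^ j) ^ k * (U.Θ q f).coeff j := by
  induction k with
  | zero => simp
  | succ k ih =>
    rw [pow_succ', Equiv.Perm.mul_apply, U.equiv, RingHom.comp_apply, U.R_coeff, ih]
    ring

omit [IsAlgClosed K] [CharZero K] [Fintype Q] in
theorem order_pow (U : LocalUnif K F Q y e π) (k : ℕ) (q : Q) (f : F) :
    (U.Θ ((π ^ k) q) f).order = (U.Θ q f).order := by
  induction k with
  | zero => simp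
  | succ k ih =>
    rw [pow_succ', Equiv.Perm.mul_apply, U.equiv, RingHom.comp_apply, order_R, ih]

omit [IsAlgClosed K] [CharZero K] [Fintype Q] in
theorem order_zpow (U : LocalUnif K F Q y e π) (k : ℤ) (q : Q) (f : F) :
    (U.Θ ((π ^ k) q) f).order = (U.Θ q f).order := by
  obtain ⟨n, rfl | rfl⟩ := k.eq_nat_or_neg
  · rw [zpow_natCast, order_pow]
  · have := order_pow U n ((π ^ (-(n : ℤ))) q) f
    rw [← this, ← Equiv.Perm.mul_apply, ← zpow_natCast, ← zpow_add]
    simp

end LocalCount

/-- the number of zeros of `y` is the number of orbits of `π`. -/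
theorem LocalUnif.card_places (U : LocalUnif K F Q y e π) (hy : Transcendental K y)
    [FiniteDimensional K⟮y⟯ F] (hn : Module.finrank K⟮y⟯ F = Fintype.card Q) :
    Nat.card {v : Place K F // 0 < v.ord y} =
      Nat.card (MulAction.orbitRel.Quotient (Subgroup.zpowers π) Q) := by
  classical
  obtain ⟨Z, hZ, hsum⟩ := exists_finset_zeros y hy
  let _ : Fintype {v : Place K F // 0 < v.ord y} := Fintype.subtype Z hZ
  choose qv m hm hqm using fun v : {v : Place K F // 0 < v.ord y} => U.exists_param hy hn v.1 v.2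
  let _ : Fintype (MulAction.orbitRel.Quotient (Subgroup.zpowers π) Q) := Fintype.ofFinite _
  let g : {v : Place K F // 0 < v.ord y} → MulAction.orbitRel.Quotient (Subgroup.zpowers π) Q :=
    fun v => Quotient.mk'' (qv v)
  have hg : Function.Injective g := by
    intro v v' hvv
    have h1 : qv v ∈ MulAction.orbit (Subgroup.zpowers π) (qv v') := by
      have := Quotient.eq''.1 hvv
      rwa [MulAction.orbitRel_apply] at this
    obtain ⟨⟨σ, hσ⟩, hσq⟩ := h1
    obtain ⟨k, rfl⟩ := Subgroup.mem_zpowers_iff.1 hσ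
    have h2 : ∀ f, (U.Θ (qv v) f).order = (U.Θ (qv v') f).order := by
      intro f
      rw [← hσq]
      exact LocalCount.order_zpow U k (qv v') f
    apply Subtype.ext
    apply Place.ext
    ext f
    rcases eq_or_ne f 0 with rfl | hf
    · simp [zero_mem]
    rw [mem_iff_ord_nonneg _ hf, mem_iff_ord_nonneg _ hf]
    have h3 := h2 f
    rw [hqm v f hf, hqm v' f hf] at h3
    have hm1 : (0 : ℤ) < m v := by exact_mod_cast hm v
    have hm2 : (0 : ℤ) < m v' := by exact_mod_cast hm v'
    constructor
    · intro h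
      have : 0 ≤ (m v' : ℤ) * v'.1.ord f := by rw [← h3]; positivity
      exact nonneg_of_mul_nonneg_right this hm2
    · intro h
      have : 0 ≤ (m v : ℤ) * v.1.ord f := by rw [h3]; positivity
      exact nonneg_of_mul_nonneg_right this hm1
  have hsurj : Function.Surjective g := by
    apply LocalCount.surj_of_sum g hg (fun v => (v.1.ord y).toNat) (fun ω => Nat.card ω.orbit)
    · intro ω
      have : Nonempty ω.orbit := (MulAction.orbitRel.Quotient.nonempty_orbit ω).to_subtype
      exact Nat.card_pos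
    · intro v
      change (v.1.ord y).toNat ≤ Nat.card (MulAction.orbitRel.Quotient.orbit
        (Quotient.mk'' (qv v) : MulAction.orbitRel.Quotient (Subgroup.zpowers π) Q))
      rw [MulAction.orbitRel.Quotient.orbit_mk, Nat.card_eq_fintype_card,
        ← MulAction.minimalPeriod_eq_card]
      set w := Function.minimalPeriod (π • ·) (qv v) with hw
      have hwpos : 0 < w := Nat.pos_of_ne_zero (NeZero.ne _)
      have hper : (π ^ w) (qv v) = qv v :=
        (MulAction.pow_smul_eq_iff_minimalPeriod_dvd (a := π) (b := qv v) (n := w)).2 dvd_rfl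
      obtain ⟨t, ht⟩ := exists_ord_eq_one v.1
      have ht0 : t ≠ 0 := ne_zero_of_ord_ne_zero v.1 (by omega)
      have hot : (U.Θ (qv v) t).order = m v := by rw [hqm v t ht0, ht, mul_one]
      have hc := LocalCount.coeff_pow U w (qv v) t (m v)
      rw [hper] at hc
      have hne : (U.Θ (qv v) t).coeff (m v) ≠ 0 := by
        rw [← hot]
        exact HahnSeries.coeff_order_eq_zero.not.2 ((map_ne_zero _).2 ht0)
      have h1 : (U.ζ ^ ((m v : ℤ))) ^ w = 1 :=
        mul_right_cancel₀ hne (by rw [one_mul]; exact hc.symm)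
      rw [zpow_natCast, ← pow_mul] at h1
      have hdvd : e ∣ m v * w := U.prim.dvd_of_pow_eq_one _ h1
      have hy0 : y ≠ 0 := ne_zero_of_ord_ne_zero v.1 v.2.ne'
      have hey : (e : ℤ) = m v * v.1.ord y := by rw [← U.order_y (qv v), hqm v y hy0]
      have hE : ((v.1.ord y).toNat : ℤ) = v.1.ord y := Int.toNat_of_nonneg v.2.le
      have hey' : e = m v * (v.1.ord y).toNat := by
        have : (e : ℤ) = ((m v * (v.1.ord y).toNat : ℕ) : ℤ) := by
          rw [Nat.cast_mul, hE, hey]
        exact_mod_cast this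
      rw [hey'] at hdvd
      exact Nat.le_of_dvd hwpos (Nat.dvd_of_mul_dvd_mul_left (hm v) hdvd)
    · have h1 : ∑ ω : MulAction.orbitRel.Quotient (Subgroup.zpowers π) Q, Nat.card ω.orbit
          = Fintype.card Q := by
        rw [← Nat.card_sigma, ← Nat.card_eq_fintype_card]
        exact (Nat.card_congr (MulAction.selfEquivSigmaOrbits' (Subgroup.zpowers π) Q)).symm
      rw [h1, ← hn]
      have h2 : ((∑ v : {v : Place K F // 0 < v.ord y}, (v.1.ord y).toNat : ℕ) : ℤ)
          = ∑ v ∈ Z, v.ord y := by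
        rw [Nat.cast_sum, Finset.sum_subtype Z hZ (fun v => v.ord y)]
        exact Finset.sum_congr rfl fun v _ => Int.toNat_of_nonneg v.2.le
      exact_mod_cast h2.trans hsum
  exact Nat.card_eq_of_bijective g ⟨hg, hsurj⟩

end Fermat.Agent.S24
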