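/-
S24: Laurent expansion at `i∞` in the parameter `s = exp(2πiτ/N)`, as a ring hom on the ring of
`N`-periodic holomorphic functions on `ℍ` which are meromorphic at `i∞`.
Use Mathlib's `qExpansion (N : ℝ)` (`qExpansion_mul`, `qExpansion_add`, `qExpansion_eq_zero_iff`,
`analyticAt_cuspFunction_zero`, all for plain functions `ℍ → ℂ`) on `Bd N`, then localise at `Δ`
(`Mer N` is `IsLocalization.Away Δ` of `Bd N`; or define by hand `f ↦ T(Δ^m f)/T(Δ)^m`).
-/
import Fermat.Agent.S24.Rot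

set_option autoImplicit false

open UpperHalfPlane Function
open scoped Manifold MatrixGroups

namespace Fermat.Agent.S24

/-- periodicity of `f ∘ ofComplex` in terms of `f`. -/
theorem cuspChart_periodic_iff {f : ℍ → ℂ} (x : ℝ) :
    Periodic (f ∘ ofComplex) (x : ℂ) ↔ ∀ τ : ℍ, f (x +ᵥ τ) = f τ := by
  constructor
  · intro h τ
    have := h (τ : ℂ)
    have h1 : 0 < ((τ : ℂ) + x).im := by simpa using τ.im_pos
    simp only [comp_apply, ofComplex_apply_of_im_pos h1, ofComplex_apply] at this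
    rw [← this]
    congr 1
    ext
    simp [add_comm]
  · intro h w
    by_cases hw : 0 < w.im
    · have h1 : 0 < (w + x).im := by simpa using hw
      simp only [comp_apply, ofComplex_apply_of_im_pos h1, ofComplex_apply_of_im_pos hw]
      rw [← h ⟨w, hw⟩]
      congr 1
      ext
      simp [add_comm]
    · have hw' : w.im ≤ 0 := not_lt.mp hw
      have h1 : (w + x).im ≤ 0 := by simpa using hw'
      simp only [comp_apply, ofComplex_apply_of_im_nonpos h1, ofComplex_apply_of_im_nonpos hw']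

theorem cuspChart_periodic_iff' {f : ℍ → ℂ} (N : ℕ) :
    Periodic (f ∘ ofComplex) (N : ℂ) ↔ ∀ τ : ℍ, f ((N : ℝ) +ᵥ τ) = f τ := by
  rw [← cuspChart_periodic_iff]
  simp

/-- `N`-periodic holomorphic functions bounded at `i∞` -/
def Bd (N : ℕ) : Subring (ℍ → ℂ) where
  carrier := {f | Periodic (f ∘ ofComplex) (N : ℂ) ∧ MDiff f ∧ IsBoundedAtImInfty f}
  mul_mem' := by
    rintro f g ⟨hf1, hf2, hf3⟩ ⟨hg1, hg2, hg3⟩
    exact ⟨hf1.mul hg1, hf2.mul hg2, Filter.BoundedAtFilter.mul hf3 hg3⟩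
  one_mem' := ⟨fun _ => rfl, mdifferentiable_const, Filter.const_boundedAtFilter _ _⟩
  add_mem' := by
    rintro f g ⟨hf1, hf2, hf3⟩ ⟨hg1, hg2, hg3⟩
    exact ⟨hf1.add hg1, hf2.add hg2, Filter.BoundedAtFilter.add hf3 hg3⟩
  zero_mem' := ⟨fun _ => rfl, mdifferentiable_const, Filter.const_boundedAtFilter _ _⟩
  neg_mem' := by
    rintro f ⟨hf1, hf2, hf3⟩
    exact ⟨fun w => congrArg Neg.neg (hf1 w), hf2.neg, Filter.BoundedAtFilter.neg hf3⟩

theorem mem_Bd {N : ℕ} {f : ℍ → ℂ} :
    f ∈ Bd N ↔ Periodic (f ∘ ofComplex) (N : ℂ) ∧ MDiff f ∧ IsBoundedAtImInfty f := Iff.rfl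

theorem cuspChart_disc_vadd (k : ℤ) (τ : ℍ) :
    ModularForm.discriminant ((k : ℝ) +ᵥ τ) = ModularForm.discriminant τ := by
  have := SlashInvariantForm.vAdd_apply_of_mem_strictPeriods CuspForm.discriminant τ
    (h := (k : ℝ)) (by
      rw [Subgroup.strictPeriods_SL2Z, AddSubgroup.mem_zmultiples_iff]
      exact ⟨k, by simp⟩)
  simpa using this

theorem discriminant_mem_Bd (N : ℕ) : ModularForm.discriminant ∈ Bd N := by
  refine ⟨(cuspChart_periodic_iff' N).2 fun τ => ?_, CuspForm.discriminant.holo',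
    ModularForm.discriminant_isZeroAtImInfty.isBoundedAtImInfty⟩
  simpa using cuspChart_disc_vadd (N : ℤ) τ

/-- `N`-periodic holomorphic functions meromorphic at `i∞` -/
def Mer (N : ℕ) : Subring (ℍ → ℂ) where
  carrier := {f | ∃ m : ℕ, (fun τ => ModularForm.discriminant τ ^ m * f τ) ∈ Bd N}
  mul_mem' := by
    rintro f g ⟨m, hm⟩ ⟨m', hm'⟩
    refine ⟨m + m', ?_⟩
    have := (Bd N).mul_mem hm hm'
    convert this using 1
    ext τ
    simp only [Pi.mul_apply, pow_add]
    ring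
  one_mem' := ⟨0, by
    have := (Bd N).one_mem
    convert this using 1
    ext τ
    simp⟩
  add_mem' := by
    rintro f g ⟨m, hm⟩ ⟨m', hm'⟩
    refine ⟨m + m', ?_⟩
    have := (Bd N).add_mem
      ((Bd N).mul_mem ((Bd N).pow_mem (discriminant_mem_Bd N) m') hm)
      ((Bd N).mul_mem ((Bd N).pow_mem (discriminant_mem_Bd N) m) hm')
    convert this using 1
    ext τ
    simp only [Pi.mul_apply, Pi.add_apply, Pi.pow_apply, pow_add]
    ring
  zero_mem' := ⟨0, by
    have := (Bd N).zero_mem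
    convert this using 1
    ext τ
    simp⟩
  neg_mem' := by
    rintro f ⟨m, hm⟩
    refine ⟨m, ?_⟩
    have := (Bd N).neg_mem hm
    convert this using 1
    ext τ
    simp

theorem mem_Mer {N : ℕ} {f : ℍ → ℂ} :
    f ∈ Mer N ↔ ∃ m : ℕ, (fun τ => ModularForm.discriminant τ ^ m * f τ) ∈ Bd N := Iff.rfl

theorem Bd_le_Mer (N : ℕ) : Bd N ≤ Mer N := by
  intro f hf
  refine ⟨0, ?_⟩
  convert hf using 1
  ext τ
  simp

theorem const_mem_Bd (N : ℕ) (c : ℂ) : (fun _ : ℍ => c) ∈ Bd N :=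
  ⟨fun _ => rfl, mdifferentiable_const, Filter.const_boundedAtFilter _ _⟩

variable (N : ℕ) [NeZero N]

theorem cuspChart_N_pos : (0 : ℝ) < (N : ℝ) := by
  exact_mod_cast Nat.pos_of_ne_zero (NeZero.ne N)

omit [NeZero N] in
variable {N} in
theorem cuspChart_per {f : ℍ → ℂ} (hf : f ∈ Bd N) :
    Periodic (f ∘ ofComplex) (((N : ℝ) : ℂ)) := by
  simpa using hf.1

variable {N} in
theorem cuspChart_analytic {f : ℍ → ℂ} (hf : f ∈ Bd N) :
    AnalyticAt ℂ (cuspFunction (N : ℝ) f) 0 :=
  analyticAt_cuspFunction_zero (cuspChart_N_pos N) (cuspChart_per hf) hf.2.1 hf.2.2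

/-- the expansion of bounded functions, as a ring hom to Laurent series -/
noncomputable def bdExp : Bd N →+* LaurentSeries ℂ :=
  (HahnSeries.ofPowerSeries ℤ ℂ).comp
  { toFun := fun f => qExpansion (N : ℝ) f.1
    map_one' := qExpansion_one _
    map_mul' := fun f g => qExpansion_mul (cuspChart_analytic f.2) (cuspChart_analytic g.2)
    map_zero' := qExpansion_zero _
    map_add' := fun f g => qExpansion_add (cuspChart_analytic f.2) (cuspChart_analytic g.2) }

theorem bdExp_apply (f : Bd N) :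
    bdExp N f = HahnSeries.ofPowerSeries ℤ ℂ (qExpansion (N : ℝ) f.1) := rfl

theorem bdExp_injective : Function.Injective (bdExp N) := by
  rw [injective_iff_map_eq_zero]
  intro f hf
  rw [bdExp_apply, map_eq_zero_iff _ HahnSeries.ofPowerSeries_injective,
    qExpansion_eq_zero_iff (cuspChart_N_pos N) (cuspChart_per f.2) f.2.2.1 f.2.2.2] at hf
  exact Subtype.ext hf

/-- `Δ` as an element of `Bd N` -/
noncomputable def discBd : Bd N := ⟨ModularForm.discriminant, discriminant_mem_Bd N⟩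

theorem bdExp_discBd_ne_zero : bdExp N (discBd N) ≠ 0 := by
  intro h
  have := (map_eq_zero_iff _ (bdExp_injective N)).1 h
  have h2 := congrFun (congrArg Subtype.val this) UpperHalfPlane.I
  exact ModularForm.discriminant_ne_zero _ h2

/-- underlying function of `cuspExp` -/
noncomputable def cuspExpFun (f : Mer N) : LaurentSeries ℂ :=
  bdExp N ⟨_, f.2.choose_spec⟩ / bdExp N (discBd N) ^ f.2.choose

theorem cuspExpFun_mul_pow (f : Mer N) (m : ℕ)
    (hm : (fun τ => ModularForm.discriminant τ ^ m * f.1 τ) ∈ Bd N) :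
    cuspExpFun N f * bdExp N (discBd N) ^ m = bdExp N ⟨_, hm⟩ := by
  have h0 := bdExp_discBd_ne_zero N
  rw [cuspExpFun, div_mul_eq_mul_div, div_eq_iff (pow_ne_zero _ h0), ← map_pow, ← map_pow,
    ← map_mul, ← map_mul]
  congr 1
  apply Subtype.ext
  ext τ
  simp only [discBd, Subring.coe_mul, Subring.coe_pow, Pi.mul_apply, Pi.pow_apply]
  ring

/-- Laurent expansion at `i∞` in `s = exp(2πiτ/N)` -/
noncomputable def cuspExp : Mer N →+* LaurentSeries ℂ where
  toFun := cuspExpFun N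
  map_one' := by
    have h := cuspExpFun_mul_pow N 1 0 (by
      have := (Bd N).one_mem
      convert this using 1
      ext τ
      simp)
    rw [pow_zero, mul_one] at h
    rw [h, ← map_one (bdExp N)]
    congr 1
    apply Subtype.ext
    ext τ
    simp
  map_zero' := by
    have h := cuspExpFun_mul_pow N 0 0 (by
      have := (Bd N).zero_mem
      convert this using 1
      ext τ
      simp)
    rw [pow_zero, mul_one] at h
    rw [h, ← map_zero (bdExp N)]
    congr 1
    apply Subtype.ext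
    ext τ
    simp
  map_mul' f g := by
    obtain ⟨m, hm⟩ := f.2
    obtain ⟨m', hm'⟩ := g.2
    have h0 := bdExp_discBd_ne_zero N
    have hfg : (fun τ => ModularForm.discriminant τ ^ (m + m') * (f * g).1 τ) ∈ Bd N := by
      have := (Bd N).mul_mem hm hm'
      convert this using 1
      ext τ
      simp only [Subring.coe_mul, Pi.mul_apply, pow_add]
      ring
    apply mul_right_cancel₀ (pow_ne_zero (m + m') h0)
    rw [cuspExpFun_mul_pow N (f * g) (m + m') hfg, pow_add]
    have e : cuspExpFun N f * cuspExpFun N g *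
        (bdExp N (discBd N) ^ m * bdExp N (discBd N) ^ m') =
        (cuspExpFun N f * bdExp N (discBd N) ^ m) * (cuspExpFun N g * bdExp N (discBd N) ^ m') := by
      ring
    rw [e, cuspExpFun_mul_pow N f m hm, cuspExpFun_mul_pow N g m' hm', ← map_mul]
    congr 1
    apply Subtype.ext
    ext τ
    simp only [Subring.coe_mul, Pi.mul_apply, pow_add]
    ring
  map_add' f g := by
    obtain ⟨m, hm⟩ := f.2
    obtain ⟨m', hm'⟩ := g.2
    have h0 := bdExp_discBd_ne_zero N
    have hfg : (fun τ => ModularForm.discriminant τ ^ (m + m') * (f + g).1 τ) ∈ Bd N := by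
      have := (Bd N).add_mem
        ((Bd N).mul_mem ((Bd N).pow_mem (discriminant_mem_Bd N) m') hm)
        ((Bd N).mul_mem ((Bd N).pow_mem (discriminant_mem_Bd N) m) hm')
      convert this using 1
      ext τ
      simp only [Subring.coe_add, Pi.mul_apply, Pi.add_apply, Pi.pow_apply, pow_add]
      ring
    apply mul_right_cancel₀ (pow_ne_zero (m + m') h0)
    rw [cuspExpFun_mul_pow N (f + g) (m + m') hfg, pow_add]
    have e : (cuspExpFun N f + cuspExpFun N g) *
        (bdExp N (discBd N) ^ m * bdExp N (discBd N) ^ m') =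
        bdExp N (discBd N) ^ m' * (cuspExpFun N f * bdExp N (discBd N) ^ m) +
        bdExp N (discBd N) ^ m * (cuspExpFun N g * bdExp N (discBd N) ^ m') := by
      ring
    rw [e, cuspExpFun_mul_pow N f m hm, cuspExpFun_mul_pow N g m' hm', ← map_pow, ← map_pow,
      ← map_mul, ← map_mul, ← map_add]
    congr 1
    apply Subtype.ext
    ext τ
    simp only [discBd, Subring.coe_add, Subring.coe_mul, Subring.coe_pow, Pi.mul_apply,
      Pi.add_apply, Pi.pow_apply, pow_add]
    ring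

theorem cuspExp_mul_pow (f : Mer N) (m : ℕ)
    (hm : (fun τ => ModularForm.discriminant τ ^ m * f.1 τ) ∈ Bd N) :
    cuspExp N f * bdExp N (discBd N) ^ m = bdExp N ⟨_, hm⟩ :=
  cuspExpFun_mul_pow N f m hm

theorem cuspExp_injective : Function.Injective (cuspExp N) := by
  rw [injective_iff_map_eq_zero]
  intro f hf
  obtain ⟨m, hm⟩ := f.2
  have h := cuspExp_mul_pow N f m hm
  rw [hf, zero_mul] at h
  have h2 := (map_eq_zero_iff _ (bdExp_injective N)).1 h.symm
  apply Subtype.ext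
  ext τ
  have h3 := congrFun (congrArg Subtype.val h2) τ
  simp only [ZeroMemClass.coe_zero, Pi.zero_apply, mul_eq_zero] at h3
  rcases h3 with h3 | h3
  · exact absurd h3 (pow_ne_zero _ (ModularForm.discriminant_ne_zero τ))
  · simpa using h3

theorem cuspExp_of_mem_Bd (f : ℍ → ℂ) (hf : f ∈ Bd N) :
    cuspExp N ⟨f, Bd_le_Mer N hf⟩ = HahnSeries.ofPowerSeries ℤ ℂ (qExpansion (N : ℝ) f) := by
  have h := cuspExp_mul_pow N ⟨f, Bd_le_Mer N hf⟩ 0 (by
    convert hf using 1
    ext τ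
    simp)
  rw [pow_zero, mul_one] at h
  rw [h, bdExp_apply]
  congr 2
  ext τ
  simp

theorem cuspExp_const (c : ℂ) :
    cuspExp N ⟨fun _ => c, Bd_le_Mer N (const_mem_Bd N c)⟩ = HahnSeries.C c := by
  rw [cuspExp_of_mem_Bd N _ (const_mem_Bd N c), ← HahnSeries.ofPowerSeries_C]
  congr 1
  have h1 : (fun _ : ℍ => c) = c • (1 : ℍ → ℂ) := by
    ext τ
    simp
  rw [h1, qExpansion_smul (cuspChart_analytic (N := N) (Bd N).one_mem), qExpansion_one]
  ext n
  simp [PowerSeries.coeff_C, PowerSeries.coeff_one]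

/-- `exp(2πi/N)` -/
noncomputable def zetaN : ℂ := Complex.exp (2 * Real.pi * Complex.I / N)

theorem zetaN_ne_zero : zetaN N ≠ 0 := Complex.exp_ne_zero _

theorem isPrimitiveRoot_zetaN : IsPrimitiveRoot (zetaN N) N :=
  Complex.isPrimitiveRoot_exp N (NeZero.ne N)

omit [NeZero N] in
theorem translate_mem_Bd (f : ℍ → ℂ) (hf : f ∈ Bd N) (k : ℤ) :
    (fun τ => f (ModularGroup.T ^ k • τ)) ∈ Bd N := by
  refine ⟨(cuspChart_periodic_iff' N).2 fun τ => ?_, ?_, ?_⟩
  · rw [modular_T_zpow_smul, modular_T_zpow_smul, vadd_comm]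
    exact (cuspChart_periodic_iff' N).1 hf.1 _
  · have := mdifferentiable_smul (g := ((ModularGroup.T ^ k : SL(2, ℤ)) : GL (Fin 2) ℝ)) (by simp)
    exact hf.2.1.comp this
  · obtain ⟨M, A, h⟩ := isBoundedAtImInfty_iff.1 hf.2.2
    refine isBoundedAtImInfty_iff.2 ⟨M, A, fun z hz => h _ ?_⟩
    rw [modular_T_zpow_smul]
    simpa using hz

theorem translate_mem_Mer (f : ℍ → ℂ) (hf : f ∈ Mer N) (k : ℤ) :
    (fun τ => f (ModularGroup.T ^ k • τ)) ∈ Mer N := by
  obtain ⟨m, hm⟩ := hf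
  refine ⟨m, ?_⟩
  have := translate_mem_Bd N _ hm k
  convert this using 1
  ext τ
  simp only [modular_T_zpow_smul, cuspChart_disc_vadd]

theorem qParam_translate (k : ℤ) (τ : ℍ) :
    Periodic.qParam (N : ℝ) ((ModularGroup.T ^ k • τ : ℍ) : ℂ) =
      zetaN N ^ k * Periodic.qParam (N : ℝ) (τ : ℂ) := by
  have hN : (N : ℂ) ≠ 0 := by exact_mod_cast NeZero.ne N
  rw [modular_T_zpow_smul, coe_vadd, zetaN, ← Complex.exp_int_mul, Periodic.qParam,
    Periodic.qParam, ← Complex.exp_add]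
  congr 1
  push_cast
  field_simp

theorem bdExp_translate (f : ℍ → ℂ) (hf : f ∈ Bd N) (k : ℤ) :
    bdExp N ⟨fun τ => f (ModularGroup.T ^ k • τ), translate_mem_Bd N f hf k⟩ =
      rot (zetaN N ^ k) (zpow_ne_zero _ (zetaN_ne_zero N)) (bdExp N ⟨f, hf⟩) := by
  rw [bdExp_apply, bdExp_apply, rot_ofPowerSeries]
  congr 1
  ext m
  rw [PowerSeries.coeff_rescale]
  let _ : FunLike (ℍ → ℂ) ℍ ℂ := ⟨fun f => f, fun _ _ h => h⟩
  refine (qExpansion_coeff_unique (F := ℍ → ℂ) (fun τ => f (ModularGroup.T ^ k • τ))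
    (c := fun m => (zetaN N ^ k) ^ m * (PowerSeries.coeff m) (qExpansion (N : ℝ) f))
    (cuspChart_N_pos N)
    (cuspChart_analytic (translate_mem_Bd N f hf k)) (fun τ => ?_) m).symm
  have := hasSum_qExpansion (cuspChart_N_pos N) (cuspChart_per hf) hf.2.1 hf.2.2
    (ModularGroup.T ^ k • τ)
  have e : (fun n : ℕ => ((zetaN N ^ k) ^ n * (PowerSeries.coeff n) (qExpansion (N : ℝ) f)) •
      Periodic.qParam (N : ℝ) (τ : ℂ) ^ n) = fun n : ℕ => (PowerSeries.coeff n)
      (qExpansion (N : ℝ) f) • Periodic.qParam (N : ℝ) ((ModularGroup.T ^ k • τ : ℍ) : ℂ) ^ n := by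
    ext n
    rw [qParam_translate, mul_pow, smul_eq_mul, smul_eq_mul]
    ring
  rw [e]
  exact this

/-- equivariance under `τ ↦ τ + k` -/
theorem cuspExp_translate (f : ℍ → ℂ) (hf : f ∈ Mer N) (k : ℤ) :
    cuspExp N ⟨fun τ => f (ModularGroup.T ^ k • τ), translate_mem_Mer N f hf k⟩ =
      rot (zetaN N ^ k) (zpow_ne_zero _ (zetaN_ne_zero N)) (cuspExp N ⟨f, hf⟩) := by
  have hf' := hf
  obtain ⟨m, hm⟩ := hf'
  have h0 := bdExp_discBd_ne_zero N
  generalize hR : rot (zetaN N ^ k) (zpow_ne_zero _ (zetaN_ne_zero N)) = R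
  have hD : R (bdExp N (discBd N)) = bdExp N (discBd N) := by
    rw [← hR]
    exact (bdExp_translate N _ (discriminant_mem_Bd N) k).symm.trans
      (congrArg (bdExp N) (Subtype.ext (funext fun τ => by
        simp only [modular_T_zpow_smul, cuspChart_disc_vadd]
        rfl)))
  have hm' : (fun τ => ModularForm.discriminant τ ^ m * f (ModularGroup.T ^ k • τ)) ∈ Bd N := by
    have := translate_mem_Bd N _ hm k
    convert this using 1
    ext τ
    simp only [modular_T_zpow_smul, cuspChart_disc_vadd]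
  have h1 := cuspExp_mul_pow N ⟨_, translate_mem_Mer N f hf k⟩ m hm'
  have h2 := cuspExp_mul_pow N ⟨f, hf⟩ m hm
  have h3 : bdExp N ⟨_, hm'⟩ = R (bdExp N ⟨_, hm⟩) := by
    rw [← hR, ← bdExp_translate N _ hm k]
    exact congrArg (bdExp N) (Subtype.ext (funext fun τ => by
      simp only [modular_T_zpow_smul, cuspChart_disc_vadd]))
  apply mul_right_cancel₀ (pow_ne_zero m h0)
  rw [h1, h3, ← h2, map_mul, map_pow, hD]

end Fermat.Agent.S24
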