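/-
S24: Taylor expansion of holomorphic functions on `ℍ` at a point `b`, in the Cayley coordinate
`w = (τ - b)/(τ - b̄)`, as a ring hom to `ℂ⟦X⟧`.
Suggested definition: `tayAt b f = PowerSeries.mk fun m => (m!)⁻¹ * iteratedDeriv m G 0` with
`G w = f (ofComplex ((b - conj b * w)/(1 - w)))`; copy the proofs of Mathlib's `qExpansion_mul`,
`qExpansion_add` (`iteratedDeriv_mul`, `iteratedDeriv_add`; only analyticity of `G` at `0` is needed).
-/
import Fermat.Agent.S24.Defs

set_option autoImplicit false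

open UpperHalfPlane
open scoped Manifold MatrixGroups ComplexConjugate

namespace Fermat.Agent.S24

/-- holomorphic functions on `ℍ` -/
def Hol : Subring (ℍ → ℂ) where
  carrier := {f | MDiff f}
  mul_mem' hf hg := hf.mul hg
  one_mem' := mdifferentiable_const
  add_mem' hf hg := hf.add hg
  zero_mem' := mdifferentiable_const
  neg_mem' hf := hf.neg

theorem mem_Hol {f : ℍ → ℂ} : f ∈ Hol ↔ MDiff f := Iff.rfl

theorem const_mem_Hol (c : ℂ) : (fun _ : ℍ => c) ∈ Hol := mdifferentiable_const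

/-- the Cayley coordinate centred at `b` -/
noncomputable def cay (b τ : ℍ) : ℂ := ((τ : ℂ) - b) / ((τ : ℂ) - conj (b : ℂ))

/-- the inverse of the Cayley coordinate -/
noncomputable def icay (b : ℍ) (w : ℂ) : ℂ := ((b : ℂ) - conj (b : ℂ) * w) / (1 - w)

theorem icay_im (b : ℍ) (w : ℂ) :
    (icay b w).im = b.im * (1 - Complex.normSq w) / Complex.normSq (1 - w) := by
  rw [icay, Complex.div_im, ← sub_div]
  congr 1
  simp only [Complex.sub_im, Complex.sub_re, Complex.mul_im, Complex.mul_re, Complex.conj_re,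
    Complex.conj_im, Complex.one_re, Complex.one_im, Complex.normSq_apply, coe_im, coe_re]
  ring

theorem icay_im_pos (b : ℍ) {w : ℂ} (hw : ‖w‖ < 1) : 0 < (icay b w).im := by
  rw [icay_im]
  have h1 : Complex.normSq w < 1 := by
    rw [Complex.normSq_eq_norm_sq]
    nlinarith [norm_nonneg w]
  have h2 : 0 < Complex.normSq (1 - w) := by
    rw [Complex.normSq_pos, sub_ne_zero]
    rintro rfl
    simp at hw
  exact div_pos (mul_pos b.im_pos (by linarith)) h2

theorem discChart_sub_conj_ne_zero (b τ : ℍ) : (τ : ℂ) - conj (b : ℂ) ≠ 0 := by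
  intro h
  have := congrArg Complex.im h
  simp only [Complex.sub_im, Complex.conj_im, coe_im, Complex.zero_im] at this
  linarith [b.im_pos, τ.im_pos]

theorem icay_cay (b τ : ℍ) : icay b (cay b τ) = τ := by
  have h1 := discChart_sub_conj_ne_zero b τ
  have h2 := discChart_sub_conj_ne_zero b b
  rw [icay, cay]
  have h3 : (1 : ℂ) - ((τ : ℂ) - b) / ((τ : ℂ) - conj (b : ℂ)) =
      ((b : ℂ) - conj (b : ℂ)) / ((τ : ℂ) - conj (b : ℂ)) := by
    field_simp
    ring
  rw [h3]
  field_simp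
  ring

theorem cay_icay (b : ℍ) {w : ℂ} (hw : ‖w‖ < 1) : cay b ⟨icay b w, icay_im_pos b hw⟩ = w := by
  have h2 := discChart_sub_conj_ne_zero b b
  have h1 : (1 : ℂ) - w ≠ 0 := by
    rw [sub_ne_zero]
    rintro rfl
    simp at hw
  rw [cay]
  change (icay b w - b) / (icay b w - conj (b : ℂ)) = w
  have e1 : icay b w - b = w * ((b : ℂ) - conj (b : ℂ)) / (1 - w) := by
    rw [icay]
    field_simp
    ring
  have e2 : icay b w - conj (b : ℂ) = ((b : ℂ) - conj (b : ℂ)) / (1 - w) := by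
    rw [icay]
    field_simp
    ring
  rw [e1, e2]
  field_simp

theorem norm_cay_lt_one (b τ : ℍ) : ‖cay b τ‖ < 1 := by
  have h1 := discChart_sub_conj_ne_zero b τ
  rw [cay, norm_div, div_lt_one (norm_pos_iff.2 h1)]
  rw [← sq_lt_sq₀ (norm_nonneg _) (norm_nonneg _), ← Complex.normSq_eq_norm_sq,
    ← Complex.normSq_eq_norm_sq, Complex.normSq_apply, Complex.normSq_apply]
  simp only [Complex.sub_im, Complex.sub_re, Complex.conj_re, Complex.conj_im, coe_im, coe_re]
  nlinarith [mul_pos b.im_pos τ.im_pos]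

/-- `f` in the Cayley coordinate -/
noncomputable def tayFun (b : ℍ) (f : ℍ → ℂ) (w : ℂ) : ℂ := f (ofComplex (icay b w))

theorem tayFun_cay (b : ℍ) (f : ℍ → ℂ) (τ : ℍ) : tayFun b f (cay b τ) = f τ := by
  rw [tayFun, icay_cay, ofComplex_apply]

theorem hasDerivAt_icay (b : ℍ) {w : ℂ} (hw : ‖w‖ < 1) :
    HasDerivAt (icay b) (((b : ℂ) - conj (b : ℂ)) / (1 - w) ^ 2) w := by
  have h1 : (1 : ℂ) - w ≠ 0 := by
    rw [sub_ne_zero]
    rintro rfl
    simp at hw
  have hn : HasDerivAt (fun w : ℂ => (b : ℂ) - conj (b : ℂ) * w) (-(conj (b : ℂ))) w := by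
    simpa using ((hasDerivAt_id w).const_mul (conj (b : ℂ))).const_sub (b : ℂ)
  have hd : HasDerivAt (fun w : ℂ => (1 : ℂ) - w) (-1) w := by
    simpa using (hasDerivAt_id w).const_sub (1 : ℂ)
  have := hn.div hd h1
  have e : ((b : ℂ) - conj (b : ℂ)) / (1 - w) ^ 2 =
      (-(conj (b : ℂ)) * (1 - w) - ((b : ℂ) - conj (b : ℂ) * w) * -1) / (1 - w) ^ 2 := by
    congr 1
    ring
  rw [e]
  exact this

theorem differentiableAt_tayFun (b : ℍ) {f : ℍ → ℂ} (hf : MDiff f) {w : ℂ} (hw : ‖w‖ < 1) :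
    DifferentiableAt ℂ (tayFun b f) w := by
  have h1 : DifferentiableAt ℂ (f ∘ ofComplex) (icay b w) :=
    mdifferentiableAt_iff.mp (hf ⟨icay b w, icay_im_pos b hw⟩)
  exact h1.comp w (hasDerivAt_icay b hw).differentiableAt

theorem differentiableOn_tayFun (b : ℍ) {f : ℍ → ℂ} (hf : MDiff f) :
    DifferentiableOn ℂ (tayFun b f) (Metric.ball 0 1) := fun _ hw =>
  (differentiableAt_tayFun b hf (mem_ball_zero_iff.mp hw)).differentiableWithinAt

theorem analyticAt_tayFun (b : ℍ) {f : ℍ → ℂ} (hf : MDiff f) : AnalyticAt ℂ (tayFun b f) 0 :=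
  (differentiableOn_tayFun b hf).analyticAt (Metric.ball_mem_nhds 0 one_pos)

/-- underlying function of `tayAt` -/
noncomputable def taySer (b : ℍ) (f : ℍ → ℂ) : PowerSeries ℂ :=
  PowerSeries.mk fun m => ((m.factorial : ℂ))⁻¹ * iteratedDeriv m (tayFun b f) 0

theorem coeff_taySer (b : ℍ) (f : ℍ → ℂ) (m : ℕ) :
    PowerSeries.coeff m (taySer b f) = ((m.factorial : ℂ))⁻¹ * iteratedDeriv m (tayFun b f) 0 := by
  simp [taySer]

theorem taySer_const (b : ℍ) (c : ℂ) : taySer b (fun _ => c) = PowerSeries.C c := by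
  ext m
  have h1 : tayFun b (fun _ => c) = fun _ => c := rfl
  rw [coeff_taySer, h1, iteratedDeriv_const, PowerSeries.coeff_C]
  split_ifs with h
  · subst h; simp
  · simp

theorem taySer_mul (b : ℍ) {f g : ℍ → ℂ} (hf : MDiff f) (hg : MDiff g) :
    taySer b (f * g) = taySer b f * taySer b g := by
  ext m
  have h1 : tayFun b (f * g) = tayFun b f * tayFun b g := rfl
  simp only [coeff_taySer, h1,
    iteratedDeriv_mul (analyticAt_tayFun b hf).contDiffAt (analyticAt_tayFun b hg).contDiffAt,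
    Finset.mul_sum, PowerSeries.coeff_mul,
    Finset.Nat.sum_antidiagonal_eq_sum_range_succ_mk, Nat.succ_eq_add_one]
  refine Finset.sum_congr rfl fun i hi ↦ ?_
  rw [Nat.cast_choose _ (by grind)]
  field_simp [Nat.factorial_ne_zero]

theorem taySer_add (b : ℍ) {f g : ℍ → ℂ} (hf : MDiff f) (hg : MDiff g) :
    taySer b (f + g) = taySer b f + taySer b g := by
  ext m
  have h1 : tayFun b (f + g) = tayFun b f + tayFun b g := rfl
  simp [coeff_taySer, h1,
    iteratedDeriv_add (analyticAt_tayFun b hf).contDiffAt (analyticAt_tayFun b hg).contDiffAt,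
    mul_add]

/-- Taylor expansion at `b` in the Cayley coordinate -/
noncomputable def tayAt (b : ℍ) : Hol →+* PowerSeries ℂ where
  toFun f := taySer b f.1
  map_one' := by
    have := taySer_const b 1
    rw [map_one] at this
    exact this
  map_mul' f g := taySer_mul b f.2 g.2
  map_zero' := by
    have := taySer_const b 0
    rw [map_zero] at this
    exact this
  map_add' f g := taySer_add b f.2 g.2

theorem tayAt_apply (b : ℍ) (f : Hol) : tayAt b f = taySer b f.1 := rfl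

theorem tayAt_injective (b : ℍ) : Function.Injective (tayAt b) := by
  rw [injective_iff_map_eq_zero]
  intro f hf
  apply Subtype.ext
  ext τ
  have h1 := Complex.hasSum_taylorSeries_on_ball (differentiableOn_tayFun b f.2)
    (z := cay b τ) (by simpa using norm_cay_lt_one b τ)
  have h2 : ∀ m : ℕ, ((m.factorial : ℂ))⁻¹ * iteratedDeriv m (tayFun b f.1) 0 = 0 := by
    intro m
    rw [← coeff_taySer, ← tayAt_apply, hf]
    simp
  rw [tayFun_cay] at h1
  have h3 : (fun n : ℕ => ((n.factorial : ℂ))⁻¹ • (cay b τ - 0) ^ n •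
      iteratedDeriv n (tayFun b f.1) 0) = fun _ => 0 := by
    ext n
    rw [smul_eq_mul, smul_eq_mul, mul_left_comm, h2, mul_zero]
  rw [h3] at h1
  exact h1.unique hasSum_zero

theorem tayAt_const (b : ℍ) (c : ℂ) : tayAt b ⟨fun _ => c, const_mem_Hol c⟩ = PowerSeries.C c :=
  taySer_const b c

theorem icay_zero (b : ℍ) : icay b 0 = b := by simp [icay]

theorem coeff_zero_tayAt (b : ℍ) (f : Hol) : PowerSeries.coeff 0 (tayAt b f) = f.1 b := by
  rw [tayAt_apply, coeff_taySer]
  simp [tayFun, icay_zero]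

theorem coeff_one_tayAt_eq_zero_iff (b : ℍ) (f : Hol) :
    PowerSeries.coeff 1 (tayAt b f) = 0 ↔ deriv (f.1 ∘ ofComplex) b = 0 := by
  rw [tayAt_apply, coeff_taySer]
  have h0 : ‖(0 : ℂ)‖ < 1 := by simp
  have h1 : DifferentiableAt ℂ (f.1 ∘ ofComplex) (icay b 0) :=
    mdifferentiableAt_iff.mp (f.2 ⟨icay b 0, icay_im_pos b h0⟩)
  have h2 : HasDerivAt (tayFun b f.1) (deriv (f.1 ∘ ofComplex) (icay b 0) *
      (((b : ℂ) - conj (b : ℂ)) / (1 - 0) ^ 2)) 0 :=
    h1.hasDerivAt.comp 0 (hasDerivAt_icay b h0)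
  have h3 := discChart_sub_conj_ne_zero b b
  simp only [Nat.factorial_one, Nat.cast_one, inv_one, one_mul, iteratedDeriv_one, h2.deriv,
    icay_zero, sub_zero, one_pow, div_one, mul_eq_zero, h3, or_false]

theorem discChart_iteratedDeriv_comp_mul (n : ℕ) (G : ℂ → ℂ) (c : ℂ) :
    iteratedDeriv n (fun x => G (c * x)) = fun x => c ^ n * iteratedDeriv n G (c * x) := by
  induction n with
  | zero => simp
  | succ n ih =>
    rw [iteratedDeriv_succ, ih]
    ext x
    rw [deriv_const_mul_field, deriv_comp_mul_left c (iteratedDeriv n G) x, iteratedDeriv_succ,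
      smul_eq_mul]
    ring

/-- equivariance: if `σ` acts on the Cayley coordinate by multiplication by `ζ`. -/
theorem tayAt_comp (b : ℍ) (σ : ℍ → ℍ) (ζ : ℂ) (h : ∀ τ, cay b (σ τ) = ζ * cay b τ)
    (f : Hol) (hf : f.1 ∘ σ ∈ Hol) :
    tayAt b ⟨f.1 ∘ σ, hf⟩ = PowerSeries.rescale ζ (tayAt b f) := by
  ext m
  rw [PowerSeries.coeff_rescale, tayAt_apply, tayAt_apply, coeff_taySer, coeff_taySer]
  have h1 : tayFun b (f.1 ∘ σ) =ᶠ[nhds 0] fun w => tayFun b f.1 (ζ * w) := by
    filter_upwards [Metric.ball_mem_nhds (0 : ℂ) one_pos] with w hw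
    have hw' : ‖w‖ < 1 := mem_ball_zero_iff.mp hw
    have e1 := h ⟨icay b w, icay_im_pos b hw'⟩
    rw [cay_icay b hw'] at e1
    rw [← e1, tayFun_cay, tayFun, Function.comp_apply, ofComplex_apply_of_im_pos (icay_im_pos b hw')]
  rw [h1.iteratedDeriv_eq, discChart_iteratedDeriv_comp_mul]
  simp only [mul_zero]
  ring

/-- `ρ = exp(2πi/3)` (same as `Fermat.Agent.S20.rho`) -/
noncomputable def rho : ℍ :=
  ⟨-1 / 2 + (Real.sqrt 3 / 2 : ℝ) * Complex.I, by simp⟩

theorem discChart_coe_S_smul (τ : ℍ) : ((ModularGroup.S • τ : ℍ) : ℂ) = -1 / (τ : ℂ) := by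
  rw [modular_S_smul]
  change (-(τ : ℂ))⁻¹ = _
  rw [neg_div, one_div, inv_neg]

theorem cay_I_S (τ : ℍ) : cay I (ModularGroup.S • τ) = (-1) * cay I τ := by
  have h1 := discChart_sub_conj_ne_zero I τ
  have h2 := discChart_sub_conj_ne_zero I (ModularGroup.S • τ)
  have h3 := τ.ne_zero
  rw [cay, cay]
  rw [discChart_coe_S_smul] at h2 ⊢
  rw [div_eq_iff h2]
  generalize (τ : ℂ) = t at *
  simp only [coe_I, Complex.conj_I] at *
  field_simp
  linear_combination (-2 * t) * Complex.I_sq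

theorem discChart_coe_ST_smul (τ : ℍ) :
    (((ModularGroup.S * ModularGroup.T) • τ : ℍ) : ℂ) = -1 / ((τ : ℂ) + 1) := by
  rw [mul_smul, discChart_coe_S_smul, modular_T_smul, coe_vadd]
  simp [add_comm]

theorem discChart_rho_sq : (rho : ℂ) ^ 2 + rho + 1 = 0 := by
  have h : ((Real.sqrt 3 : ℝ) : ℂ) ^ 2 = 3 := by
    rw [← Complex.ofReal_pow, Real.sq_sqrt (by norm_num)]
    norm_num
  change (-1 / 2 + ((Real.sqrt 3 / 2 : ℝ) : ℂ) * Complex.I) ^ 2 +
    (-1 / 2 + ((Real.sqrt 3 / 2 : ℝ) : ℂ) * Complex.I) + 1 = 0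
  push_cast
  linear_combination (1 / 4 : ℂ) * Complex.I ^ 2 * h + (3 / 4 : ℂ) * Complex.I_sq

theorem discChart_conj_rho : conj (rho : ℂ) = -1 - rho := by
  change conj (-1 / 2 + ((Real.sqrt 3 / 2 : ℝ) : ℂ) * Complex.I) =
    -1 - (-1 / 2 + ((Real.sqrt 3 / 2 : ℝ) : ℂ) * Complex.I)
  simp only [map_add, map_mul, Complex.conj_ofReal, Complex.conj_I, map_div₀, map_neg, map_one]
  have : conj (2 : ℂ) = 2 := Complex.conj_ofNat 2
  rw [this]
  ring

/-- the multiplier of `S T` at `ρ` -/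
theorem exists_cay_rho_ST : ∃ ζ : ℂ, IsPrimitiveRoot ζ 3 ∧
    ∀ τ : ℍ, cay rho ((ModularGroup.S * ModularGroup.T) • τ) = ζ * cay rho τ := by
  have hr := discChart_rho_sq
  refine ⟨(rho : ℂ) ^ 2, ?_, ?_⟩
  · have h1 : (rho : ℂ) ≠ 1 := by
      intro h
      rw [h] at hr
      norm_num at hr
    have h3 : (rho : ℂ) ^ 3 = 1 := by linear_combination ((rho : ℂ) - 1) * hr
    refine IsPrimitiveRoot.mk_of_lt _ (by norm_num) (by linear_combination ((rho : ℂ) ^ 3 + 1) * h3) ?_
    intro l hl0 hl3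
    interval_cases l
    · intro h
      have : (rho : ℂ) = -2 := by linear_combination hr - h
      rw [this] at hr
      norm_num at hr
    · intro h
      apply h1
      linear_combination h - (rho : ℂ) * h3
  · intro τ
    have h1 := discChart_sub_conj_ne_zero rho τ
    have h2 := discChart_sub_conj_ne_zero rho ((ModularGroup.S * ModularGroup.T) • τ)
    have h3 : (τ : ℂ) + 1 ≠ 0 := by
      intro h
      have := congrArg Complex.im h
      simp only [Complex.add_im, coe_im, Complex.one_im, Complex.zero_im, add_zero] at this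
      exact τ.im_pos.ne' this
    rw [cay, cay]
    rw [discChart_coe_ST_smul] at h2 ⊢
    rw [div_eq_iff h2]
    rw [discChart_conj_rho] at *
    generalize (τ : ℂ) = t at *
    generalize (rho : ℂ) = r at *
    field_simp
    linear_combination ((t + 1) * r ^ 2 - (t ^ 2 + t + 1) * r - (t + 1)) * hr

end Fermat.Agent.S24
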