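/-
S24: analytic facts on `j` and its translates `τ ↦ j(d g τ)`.
-/
import Fermat.Agent.S24.CuspChart
import Fermat.Agent.S24.DiscChart
import Fermat.Agent.S23.Prim
import Fermat.Agent.S23.Pres

set_option autoImplicit false

open UpperHalfPlane ModularForm EisensteinSeries Function CongruenceSubgroup Filter Topology
open scoped Manifold MatrixGroups

namespace Fermat.Agent.S24

theorem jfacts_mdiff_inv {f : ℍ → ℂ} (hf : MDiff f) (h0 : ∀ τ, f τ ≠ 0) :
    MDiff (fun τ => (f τ)⁻¹) := by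
  rw [UpperHalfPlane.mdifferentiable_iff] at hf ⊢
  exact hf.inv (fun z _ => h0 _)

theorem jfacts_mdiff_disc : MDiff ModularForm.discriminant := CuspForm.discriminant.holo'

theorem jfacts_mdiff_E4 : MDiff E₄ := E₄.holo'

theorem mdiff_jfun : MDiff jfun := by
  have : jfun = fun τ => E₄ τ ^ 3 * (ModularForm.discriminant τ)⁻¹ := by
    funext τ; simp [jfun, div_eq_mul_inv]
  rw [this]
  exact (jfacts_mdiff_E4.pow 3).mul (jfacts_mdiff_inv jfacts_mdiff_disc discriminant_ne_zero)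

theorem jfacts_transform {k : ℤ} {F : ℍ → ℂ} (γ : SL(2, ℤ)) (h : F ∣[k] γ = F) (z : ℍ) :
    F (γ • z) = denom γ z ^ k * F z := by
  have h2 := congrFun h z
  rw [SL_slash_apply] at h2
  rw [← h2, mul_comm, mul_assoc, ← zpow_add₀ (denom_ne_zero _ _)]
  simp

theorem jfacts_E4_smul (g : SL(2, ℤ)) (τ : ℍ) : E₄ (g • τ) = denom g τ ^ (4 : ℤ) * E₄ τ :=
  jfacts_transform g (E₄.slash_action_eq' _ ⟨g, rfl⟩) τ

theorem jfacts_disc_smul (g : SL(2, ℤ)) (τ : ℍ) :
    ModularForm.discriminant (g • τ) = denom g τ ^ (12 : ℤ) * ModularForm.discriminant τ :=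
  jfacts_transform g (CuspForm.discriminant.slash_action_eq' _ ⟨g, rfl⟩) τ

theorem jfun_smul (g : SL(2, ℤ)) (τ : ℍ) : jfun (g • τ) = jfun τ := by
  unfold jfun
  rw [jfacts_E4_smul, jfacts_disc_smul]
  have h := denom_ne_zero g τ
  have h2 := discriminant_ne_zero τ
  have e : (denom g τ ^ (4 : ℤ)) ^ 3 = denom g τ ^ (12 : ℤ) := by
    rw [← zpow_natCast, ← zpow_mul]; norm_num
  rw [mul_pow, e, mul_div_mul_left _ _ (zpow_ne_zero _ h)]

theorem jfacts_aff_im (a B D : ℤ) (τ : ℍ) :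
    (((a : ℂ) * τ + B) / D).im = (a : ℝ) * τ.im / D := by
  rw [show ((a : ℂ) * τ + B) / D = (((a : ℝ) : ℂ) * τ + ((B : ℝ) : ℂ)) / ((D : ℝ) : ℂ) by
    push_cast; rfl, Complex.div_ofReal_im]
  simp

/-- `τ ↦ (aτ+B)/D` -/
noncomputable def jfacts_aff (a B D : ℤ) (ha : 0 < a) (hD : 0 < D) (τ : ℍ) : ℍ :=
  ⟨((a : ℂ) * τ + B) / D, by
    rw [jfacts_aff_im]
    have h1 : (0 : ℝ) < a := by exact_mod_cast ha
    have h2 : (0 : ℝ) < D := by exact_mod_cast hD
    exact div_pos (mul_pos h1 τ.im_pos) h2⟩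

theorem jfacts_aff_coe (a B D : ℤ) (ha : 0 < a) (hD : 0 < D) (τ : ℍ) :
    (jfacts_aff a B D ha hD τ : ℂ) = ((a : ℂ) * τ + B) / D := rfl

theorem jfacts_hermite (d : ℕ) [NeZero d] (g : SL(2, ℤ)) :
    ∃ (a B D : ℤ) (ha : 0 < a) (hD : 0 < D), a * D = d ∧ (D = 1 → (d : ℤ) ∣ g 1 0) ∧
      ∀ τ τ' : ℍ, (τ' : ℂ) = d * ((g • τ : ℍ) : ℂ) → jfun τ' = jfun (jfacts_aff a B D ha hD τ) := by
  obtain ⟨γ', a, B, D, ha, hD, haD, h1, e00, e01, e10, e11⟩ := Fermat.Agent.S23.prim_decomp d g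
  refine ⟨a, B, D, ha, hD, haD, h1, fun τ τ' h => ?_⟩
  have : τ' = γ' • jfacts_aff a B D ha hD τ := by
    rw [UpperHalfPlane.ext_iff, h, coe_specialLinearGroup_apply, coe_specialLinearGroup_apply,
      jfacts_aff_coe]
    have n1 := denom_ne_zero g τ
    have n2 := denom_ne_zero γ' (jfacts_aff a B D ha hD τ)
    simp only [denom, jfacts_aff_coe] at n1 n2
    have hD' : (D : ℂ) ≠ 0 := by exact_mod_cast hD.ne'
    have c00 : (d : ℂ) * g 0 0 = γ' 0 0 * a := by exact_mod_cast e00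
    have c01 : (d : ℂ) * g 0 1 = γ' 0 0 * B + γ' 0 1 * D := by exact_mod_cast e01
    have c10 : (g 1 0 : ℂ) = γ' 1 0 * a := by exact_mod_cast e10
    have c11 : (g 1 1 : ℂ) = γ' 1 0 * B + γ' 1 1 * D := by exact_mod_cast e11
    simp only [Matrix.SpecialLinearGroup.coe_GL_coe_matrix, Matrix.SpecialLinearGroup.map_apply_coe,
      RingHom.mapMatrix_apply, Int.coe_castRingHom, Matrix.map_apply, Complex.ofReal_intCast,
      algebraMap_int_eq, eq_intCast] at n1 n2 ⊢
    have hz : ((a : ℂ) * τ + B) / D * D = (a : ℂ) * τ + B := div_mul_cancel₀ _ hD'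
    generalize ((a : ℂ) * τ + B) / D = z at hz n2 ⊢
    rw [← mul_div_assoc, div_eq_div_iff n1 n2]
    linear_combination ((τ : ℂ) * (γ' 1 0 * z + γ' 1 1)) * c00 + (γ' 1 0 * z + γ' 1 1) * c01
      - (γ' 0 0 * z + γ' 0 1) * τ * c10 - (γ' 0 0 * z + γ' 0 1) * c11
      - (γ' 0 0 * (γ' 1 0 * z + γ' 1 1) - (γ' 0 0 * z + γ' 0 1) * γ' 1 0) * hz
  rw [this, jfun_smul]

theorem jfacts_q_ne_zero (z : ℂ) : Periodic.qParam 1 z ≠ 0 := Complex.exp_ne_zero _

theorem jfacts_tendsto_disc_div_q :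
    Tendsto (fun τ : ℍ => ModularForm.discriminant τ / Periodic.qParam 1 τ) atImInfty (𝓝 1) := by
  refine tendsto_atImInfty_tprod_one_sub_eta_q_pow.congr fun τ => ?_
  rw [discriminant_eq_q_prod, mul_div_cancel_left₀ _ (jfacts_q_ne_zero _)]

theorem jfacts_tendsto_j_mul_q :
    Tendsto (fun τ : ℍ => jfun τ * Periodic.qParam 1 τ) atImInfty (𝓝 1) := by
  have h := (Fermat.Agent.S23.prim_E4_tendsto.pow 3).div jfacts_tendsto_disc_div_q one_ne_zero
  simp only [one_pow, div_one] at h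
  refine h.congr fun τ => ?_
  have h1 := jfacts_q_ne_zero τ
  have h2 := discriminant_ne_zero τ
  simp only [Pi.div_apply, jfun]
  field_simp

theorem jfacts_im_aff (a B D : ℤ) (ha : 0 < a) (hD : 0 < D) (τ : ℍ) :
    (jfacts_aff a B D ha hD τ).im = (a : ℝ) * τ.im / D := jfacts_aff_im a B D τ

theorem jfacts_tendsto_aff (a B D : ℤ) (ha : 0 < a) (hD : 0 < D) :
    Tendsto (jfacts_aff a B D ha hD) atImInfty atImInfty := by
  rw [atImInfty, tendsto_comap_iff]
  have h1 : (0 : ℝ) < a := by exact_mod_cast ha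
  have h2 : (0 : ℝ) < D := by exact_mod_cast hD
  have : (im ∘ jfacts_aff a B D ha hD) = fun τ : ℍ => ((a : ℝ) / D) * τ.im := by
    funext τ
    simp only [comp_apply, jfacts_im_aff]
    ring
  rw [this]
  exact Tendsto.const_mul_atTop (div_pos h1 h2) tendsto_comap

theorem jfacts_mdiff_comp_aff {f : ℍ → ℂ} (hf : MDiff f) (a B D : ℤ) (ha : 0 < a) (hD : 0 < D) :
    MDiff (fun τ => f (jfacts_aff a B D ha hD τ)) := by
  rw [UpperHalfPlane.mdifferentiable_iff] at hf ⊢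
  have h1 : DifferentiableOn ℂ (fun z : ℂ => ((a : ℂ) * z + B) / D) {z | 0 < z.im} := by fun_prop
  have h2 : Set.MapsTo (fun z : ℂ => ((a : ℂ) * z + B) / D) {z | 0 < z.im} {z | 0 < z.im} := by
    intro z hz
    exact (jfacts_aff a B D ha hD ⟨z, hz⟩).im_pos
  refine (hf.comp h1 h2).congr fun z hz => ?_
  have hz' : 0 < (((a : ℂ) * z + B) / D).im := h2 hz
  simp only [comp_apply, ofComplex_apply_of_im_pos hz, ofComplex_apply_of_im_pos hz']
  rfl

theorem jfacts_periodic_of {f : ℍ → ℂ} {N : ℕ}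
    (h : ∀ τ τ' : ℍ, (τ' : ℂ) = τ + N → f τ' = f τ) : Periodic (f ∘ ofComplex) (N : ℂ) := by
  intro w
  by_cases hw : 0 < w.im
  · have : 0 < (w + N).im := by simpa using hw
    simp only [comp_apply, ofComplex_apply_of_im_pos this, ofComplex_apply_of_im_pos hw]
    exact h _ _ rfl
  · have : (w + N).im ≤ 0 := by simpa using hw
    simp only [comp_apply, ofComplex_apply_of_im_nonpos this,
      ofComplex_apply_of_im_nonpos (not_lt.mp hw)]

theorem jfacts_jfun_add_int (τ τ' : ℍ) (n : ℤ) (h : (τ' : ℂ) = τ + n) : jfun τ' = jfun τ := by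
  have : τ' = ModularGroup.T ^ n • τ := by
    rw [UpperHalfPlane.ext_iff, h, ModularGroup.coe_T_zpow_smul_eq, add_comm]
  rw [this, jfun_smul]

theorem jfacts_disc_add_nat (τ τ' : ℍ) (n : ℕ) (h : (τ' : ℂ) = τ + n) :
    ModularForm.discriminant τ' = ModularForm.discriminant τ := by
  have hp := (SlashInvariantFormClass.periodic_comp_ofComplex CuspForm.discriminant
    one_mem_strictPeriods_SL).nat_mul n τ
  simp only [comp_apply, Complex.ofReal_one, mul_one, ← h, ofComplex_apply] at hp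
  exact hp

theorem jfacts_bdd_of_tendsto {f : ℍ → ℂ} {c : ℂ} (h : Tendsto f atImInfty (𝓝 c)) :
    IsBoundedAtImInfty f := h.isBigO_one ℝ

theorem jfacts_bdd (a B D : ℤ) (ha : 0 < a) (hD : 0 < D) (m : ℕ) (hm : (a : ℝ) / D ≤ m) :
    IsBoundedAtImInfty
      (fun τ => ModularForm.discriminant τ ^ m * jfun (jfacts_aff a B D ha hD τ)) := by
  have h1 : IsBoundedAtImInfty
      (fun τ : ℍ => (ModularForm.discriminant τ / Periodic.qParam 1 τ) ^ m) :=
    jfacts_bdd_of_tendsto (jfacts_tendsto_disc_div_q.pow m)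
  have h2 : IsBoundedAtImInfty (fun τ : ℍ => jfun (jfacts_aff a B D ha hD τ) *
      Periodic.qParam 1 (jfacts_aff a B D ha hD τ)) :=
    jfacts_bdd_of_tendsto (jfacts_tendsto_j_mul_q.comp (jfacts_tendsto_aff a B D ha hD))
  have h3 : IsBoundedAtImInfty (fun τ : ℍ => Periodic.qParam 1 τ ^ m /
      Periodic.qParam 1 (jfacts_aff a B D ha hD τ)) := by
    rw [isBoundedAtImInfty_iff]
    refine ⟨1, 0, fun τ _ => ?_⟩
    rw [norm_div, norm_pow, Periodic.norm_qParam, Periodic.norm_qParam, ← Real.exp_nat_mul,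
      ← Real.exp_sub, Real.exp_le_one_iff]
    have e : ((jfacts_aff a B D ha hD τ : ℍ) : ℂ).im = (a : ℝ) * τ.im / D :=
      jfacts_im_aff a B D ha hD τ
    rw [e]
    have hy := τ.im_pos
    have : (m : ℝ) * (-2 * Real.pi * (τ : ℂ).im / 1) - -2 * Real.pi * ((a : ℝ) * τ.im / D) / 1
        = -(2 * Real.pi * τ.im * (m - (a : ℝ) / D)) := by
      rw [coe_im]; ring
    rw [this]
    have := Real.pi_pos
    have h0 : 0 ≤ (m : ℝ) - (a : ℝ) / D := sub_nonneg.mpr hm
    have : 0 ≤ 2 * Real.pi * τ.im * (m - (a : ℝ) / D) := by positivity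
    linarith
  have := (h1.mul h2).mul h3
  refine this.congr' (Eventually.of_forall fun τ => ?_) (EventuallyEq.refl _ _)
  have n1 := jfacts_q_ne_zero τ
  have n2 := jfacts_q_ne_zero (jfacts_aff a B D ha hD τ)
  simp only [Pi.mul_apply, div_pow]
  field_simp

section

variable (N : ℕ) [NeZero N]

theorem jfacts_dmul_coe {N : ℕ} [NeZero N] (d : Dv N) (τ : ℍ) : (dmul d τ : ℂ) = (d.1 : ℂ) * τ := rfl

/-- (J1) `Γ₀(N)`-invariance of `j(dτ)`, `d ∣ N` -/
theorem jfun_dmul_smul_of_mem_Gamma0 (d : Dv N) (γ : SL(2, ℤ)) (hγ : γ ∈ Gamma0 N) (τ : ℍ) :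
    jfun (dmul d (γ • τ)) = jfun (dmul d τ) := by
  rw [Gamma0_mem, ZMod.intCast_zmod_eq_zero_iff_dvd] at hγ
  have hd : (d.1 : ℤ) ∣ γ 1 0 := (Int.natCast_dvd_natCast.mpr d.2).trans hγ
  obtain ⟨c', hc'⟩ := hd
  have hdet : γ 0 0 * γ 1 1 - γ 0 1 * γ 1 0 = 1 := by
    have := γ.det_coe
    rw [Matrix.det_fin_two] at this
    exact this
  let γ' : SL(2, ℤ) := ⟨!![γ 0 0, γ 0 1 * d.1; c', γ 1 1], by
    rw [Matrix.det_fin_two_of]; rw [hc'] at hdet; linear_combination hdet⟩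
  have : dmul d (γ • τ) = γ' • dmul d τ := by
    rw [UpperHalfPlane.ext_iff, jfacts_dmul_coe, coe_specialLinearGroup_apply,
      coe_specialLinearGroup_apply, jfacts_dmul_coe]
    have n1 := denom_ne_zero γ τ
    have n2 := denom_ne_zero γ' (dmul d τ)
    simp only [denom, jfacts_dmul_coe] at n1 n2
    have c10 : (γ 1 0 : ℂ) = d.1 * c' := by exact_mod_cast hc'
    simp only [Matrix.SpecialLinearGroup.coe_GL_coe_matrix, Matrix.SpecialLinearGroup.map_apply_coe,
      RingHom.mapMatrix_apply, Int.coe_castRingHom, Matrix.map_apply, Complex.ofReal_intCast,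
      algebraMap_int_eq, eq_intCast] at n1 n2 ⊢
    simp only [γ', Matrix.of_apply, Matrix.cons_val', Matrix.cons_val_zero,
      Matrix.cons_val_fin_one, Matrix.cons_val_one] at n2 ⊢
    rw [← mul_div_assoc, div_eq_div_iff n1 n2]
    push_cast
    rw [c10]
    ring
  rw [this, jfun_smul]

/-- (J2) -/
theorem jd_mem_Hol (d : Dv N) (g : SL(2, ℤ)) : (fun τ => jfun (dmul d (g • τ))) ∈ Hol := by
  obtain ⟨a, B, D, ha, hD, -, -, h⟩ := jfacts_hermite d.1 g
  have : (fun τ => jfun (dmul d (g • τ))) = fun τ => jfun (jfacts_aff a B D ha hD τ) :=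
    funext fun τ => h τ _ rfl
  rw [mem_Hol, this]
  exact jfacts_mdiff_comp_aff mdiff_jfun a B D ha hD

/-- (J3) `j(d g τ) = j((aτ+b)/δ)` is `N`-periodic and meromorphic at `i∞` -/
theorem jd_mem_Mer (d : Dv N) (g : SL(2, ℤ)) : (fun τ => jfun (dmul d (g • τ))) ∈ Mer N := by
  obtain ⟨a, B, D, ha, hD, haD, -, h⟩ := jfacts_hermite d.1 g
  have : (fun τ => jfun (dmul d (g • τ))) = fun τ => jfun (jfacts_aff a B D ha hD τ) :=
    funext fun τ => h τ _ rfl
  rw [this, mem_Mer]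
  refine ⟨a.toNat, ?_, ?_, ?_⟩
  · apply jfacts_periodic_of
    intro τ τ' hτ
    obtain ⟨k, hk⟩ := d.2
    have hD' : (D : ℂ) ≠ 0 := by exact_mod_cast hD.ne'
    have e : (N : ℂ) = a * D * k := by
      have : (N : ℤ) = a * D * k := by rw [haD]; exact_mod_cast hk
      exact_mod_cast this
    rw [jfacts_disc_add_nat τ τ' N hτ, jfacts_jfun_add_int (jfacts_aff a B D ha hD τ)
      (jfacts_aff a B D ha hD τ') (a * a * k)]
    rw [jfacts_aff_coe, jfacts_aff_coe, hτ, e]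
    push_cast
    field_simp
    ring
  · exact (jfacts_mdiff_disc.pow _).mul (jfacts_mdiff_comp_aff mdiff_jfun a B D ha hD)
  · apply jfacts_bdd
    have h1 : (0 : ℝ) < a := by exact_mod_cast ha
    have h2 : (1 : ℝ) ≤ D := by exact_mod_cast hD
    have h3 : ((a.toNat : ℕ) : ℝ) = a := by
      have : ((a.toNat : ℕ) : ℤ) = a := Int.toNat_of_nonneg ha.le
      exact_mod_cast this
    rw [h3]
    exact div_le_self h1.le h2

end

section

theorem jfacts_growth_le (a B D : ℤ) (ha : 0 < a) (hD : 0 < D) (a' B' D' : ℤ) (ha' : 0 < a')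
    (hD' : 0 < D')
    (h : ∀ τ, jfun (jfacts_aff a B D ha hD τ) = jfun (jfacts_aff a' B' D' ha' hD' τ)) :
    (a' : ℝ) / D' ≤ (a : ℝ) / D := by
  by_contra hlt
  push Not at hlt
  have t1 := (jfacts_tendsto_j_mul_q.comp (jfacts_tendsto_aff a B D ha hD)).norm
  have t2 := (jfacts_tendsto_j_mul_q.comp (jfacts_tendsto_aff a' B' D' ha' hD')).norm
  have t3 : Tendsto (fun τ : ℍ => Real.exp ((2 * Real.pi * ((a' : ℝ) / D' - (a : ℝ) / D)) * τ.im))
      atImInfty atTop := by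
    refine Real.tendsto_exp_atTop.comp (Tendsto.const_mul_atTop ?_ tendsto_comap)
    have := Real.pi_pos
    have := sub_pos.mpr hlt
    positivity
  have t4 := t2.pos_mul_atTop (by simp) t3
  have e : (fun τ : ℍ => ‖((fun τ : ℍ => jfun τ * Periodic.qParam 1 τ) ∘
      jfacts_aff a' B' D' ha' hD') τ‖ *
      Real.exp ((2 * Real.pi * ((a' : ℝ) / D' - (a : ℝ) / D)) * τ.im)) =
      fun τ : ℍ => ‖((fun τ : ℍ => jfun τ * Periodic.qParam 1 τ) ∘ jfacts_aff a B D ha hD) τ‖ := by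
    funext τ
    simp only [comp_apply, norm_mul, Periodic.norm_qParam, h τ]
    have e1 : ((jfacts_aff a B D ha hD τ : ℍ) : ℂ).im = (a : ℝ) * τ.im / D :=
      jfacts_im_aff a B D ha hD τ
    have e2 : ((jfacts_aff a' B' D' ha' hD' τ : ℍ) : ℂ).im = (a' : ℝ) * τ.im / D' :=
      jfacts_im_aff a' B' D' ha' hD' τ
    rw [e1, e2, mul_assoc, ← Real.exp_add]
    congr 2
    ring
  rw [e] at t4
  exact not_tendsto_nhds_of_tendsto_atTop t4 _ t1

theorem jfacts_growth (a B D : ℤ) (ha : 0 < a) (hD : 0 < D) (a' B' D' : ℤ) (ha' : 0 < a')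
    (hD' : 0 < D')
    (h : ∀ τ, jfun (jfacts_aff a B D ha hD τ) = jfun (jfacts_aff a' B' D' ha' hD' τ)) :
    (a : ℝ) / D = (a' : ℝ) / D' :=
  le_antisymm (jfacts_growth_le a' B' D' ha' hD' a B D ha hD fun τ => (h τ).symm)
    (jfacts_growth_le a B D ha hD a' B' D' ha' hD' h)

variable (N : ℕ) [NeZero N]

/-- (J4) the translates of `j(Nτ)` are pairwise distinct -/
theorem mk_eq_of_jfun_eq (g g' : SL(2, ℤ))
    (h : ∀ τ : ℍ, jfun (dmul (⟨N, dvd_rfl⟩ : Dv N) (g⁻¹ • τ))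
      = jfun (dmul (⟨N, dvd_rfl⟩ : Dv N) (g'⁻¹ • τ))) :
    (QuotientGroup.mk g : Q N) = QuotientGroup.mk g' := by
  rw [QuotientGroup.eq]
  obtain ⟨a, B, D, ha, hD, haD, h1, h2⟩ := jfacts_hermite N (g⁻¹ * g')
  have hN : (0 : ℤ) < N := by exact_mod_cast Nat.pos_of_ne_zero (NeZero.ne N)
  have key : ∀ τ, jfun (jfacts_aff a B D ha hD τ) = jfun (jfacts_aff N 0 1 hN one_pos τ) := by
    intro τ
    rw [← h2 τ (dmul (⟨N, dvd_rfl⟩ : Dv N) ((g⁻¹ * g') • τ)) rfl, mul_smul, h (g' • τ),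
      inv_smul_smul]
    congr 1
    rw [UpperHalfPlane.ext_iff, jfacts_aff_coe]
    simp [dmul]
  have hg := jfacts_growth a B D ha hD N 0 1 hN one_pos key
  have hDr : (0 : ℝ) < D := by exact_mod_cast hD
  have e1 : (a : ℝ) = N * D := by
    rw [div_eq_iff hDr.ne'] at hg
    rw [hg]; simp
  have e2 : a = N * D := by exact_mod_cast e1
  have e3 : D = 1 := by
    rw [e2] at haD
    have : (N : ℤ) * (D * D - 1) = 0 := by linear_combination haD
    rcases mul_eq_zero.mp this with h' | h'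
    · omega
    · nlinarith
  rw [Gamma0_mem, ZMod.intCast_zmod_eq_zero_iff_dvd]
  exact h1 e3

end

theorem jfacts_tendsto {k : ℤ} (F : ModularForm 𝒮ℒ k) :
    Tendsto F atImInfty (𝓝 ((qExpansion 1 F).coeff 0)) := by
  have han : AnalyticAt ℂ (cuspFunction 1 F) 0 :=
    ModularFormClass.analyticAt_cuspFunction_zero F one_pos one_mem_strictPeriods_SL
  have hper := SlashInvariantFormClass.periodic_comp_ofComplex F one_mem_strictPeriods_SL
  have h1 : (cuspFunction 1 F ∘ fun τ : ℍ => Function.Periodic.qParam 1 τ : ℍ → ℂ) = F := by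
    funext τ
    simpa using eq_cuspFunction τ one_ne_zero hper
  have h2 : (qExpansion 1 F).coeff 0 = cuspFunction 1 F 0 := by
    simp [qExpansion_coeff]
  rw [h2]
  have := han.continuousAt.tendsto.comp (qParam_tendsto_atImInfty (h := 1) one_pos)
  rwa [h1] at this

theorem jfacts_poly : ∀ (m : ℕ) (k : ℤ) (_ : k = 12 * m) (G : ModularForm 𝒮ℒ k),
    ∃ R : Polynomial ℂ, ∀ τ, G τ = ModularForm.discriminant τ ^ m * R.eval (jfun τ) := by
  intro m
  induction m with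
  | zero =>
    intro k hk G
    simp only [Nat.cast_zero, mul_zero] at hk
    subst hk
    obtain ⟨c, hc⟩ := ModularFormClass.levelOne_weight_zero_const G
    exact ⟨Polynomial.C c, fun τ => by simp [hc]⟩
  | succ m ih =>
    intro k hk G
    have hk' : ((3 * (m + 1) : ℕ) : ℤ) * 4 = k := by rw [hk]; push_cast; ring
    let P : ModularForm 𝒮ℒ k := ModularForm.mcast hk' (E₄.pow (3 * (m + 1)))
    have hP : ∀ τ, P τ = E₄ τ ^ (3 * (m + 1)) := fun τ =>
      congrFun (ModularForm.coe_pow E₄ (3 * (m + 1))) τ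
    set c := (qExpansion 1 G).coeff 0 with hc
    let H : ModularForm 𝒮ℒ k := G - c • P
    have hH : ∀ τ, H τ = G τ - c * E₄ τ ^ (3 * (m + 1)) := fun τ => by
      simp [H, hP]
    have hzero : IsZeroAtImInfty (⇑H) := by
      have h1 := (jfacts_tendsto G).sub
        ((Fermat.Agent.S23.prim_E4_tendsto.pow (3 * (m + 1))).const_mul c)
      simp only [one_pow, mul_one, ← hc, sub_self] at h1
      exact h1.congr fun τ => (hH τ).symm
    obtain ⟨M, hM⟩ := Fermat.Agent.S23.exists_levelOne_cusp_of k ⇑H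
      (fun γ => H.slash_action_eq' _ ⟨γ, rfl⟩) H.holo' hzero
    obtain ⟨R', hR'⟩ := ih (k - 12) (by rw [hk]; push_cast; ring) (CuspForm.discriminantEquiv M)
    refine ⟨Polynomial.C c * Polynomial.X ^ (m + 1) + R', fun τ => ?_⟩
    have h1 := discriminant_mul_discriminantEquiv_apply M τ
    rw [hR' τ, hM, hH τ] at h1
    have h2 := discriminant_ne_zero τ
    have h3 : ModularForm.discriminant τ ^ (m + 1) * jfun τ ^ (m + 1) = E₄ τ ^ (3 * (m + 1)) := by
      rw [jfun, div_pow, mul_div_cancel₀ _ (pow_ne_zero _ h2), pow_mul]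
    simp only [Polynomial.eval_add, Polynomial.eval_mul, Polynomial.eval_C, Polynomial.eval_pow,
      Polynomial.eval_X]
    rw [pow_succ] at h3 ⊢
    linear_combination (-1 : ℂ) * h1 - c * h3

/-- (J5) `SL₂(ℤ)`-invariant, holomorphic on `ℍ`, meromorphic at `i∞` ⟹ polynomial in `j` -/
theorem exists_polynomial_of_invariant (f : ℍ → ℂ) (hol : MDiff f)
    (hinv : ∀ (g : SL(2, ℤ)) (τ : ℍ), f (g • τ) = f τ)
    (hmer : ∃ m : ℕ, IsBoundedAtImInfty (fun τ => ModularForm.discriminant τ ^ m * f τ)) :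
    ∃ R : Polynomial ℂ, ∀ τ, f τ = R.eval (jfun τ) := by
  obtain ⟨m, hm⟩ := hmer
  obtain ⟨G, hG⟩ := Fermat.Agent.S23.exists_levelOne_of (12 * m)
    (fun τ => ModularForm.discriminant τ ^ m * f τ) (fun γ => by
      funext τ
      rw [SL_slash_apply, hinv, jfacts_disc_smul]
      have h := denom_ne_zero γ τ
      have e : (denom γ τ ^ (12 : ℤ)) ^ m * denom γ τ ^ (-(12 * (m : ℤ))) = 1 := by
        rw [← zpow_natCast, ← zpow_mul, ← zpow_add₀ h]; simp
      rw [mul_pow]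
      linear_combination (ModularForm.discriminant τ ^ m * f τ) * e)
    ((jfacts_mdiff_disc.pow m).mul hol) hm
  obtain ⟨R, hR⟩ := jfacts_poly m _ rfl G
  refine ⟨R, fun τ => ?_⟩
  have h1 := hR τ
  rw [hG] at h1
  exact mul_left_cancel₀ (pow_ne_zero m (discriminant_ne_zero τ)) h1

/-- (J6) `j` is surjective -/
theorem jfun_surjective : Function.Surjective jfun := by
  intro c
  by_contra hne
  push Not at hne
  have h0 : ∀ τ, E₄ τ ^ 3 - c * ModularForm.discriminant τ ≠ 0 := by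
    intro τ h
    apply hne τ
    rw [jfun, div_eq_iff (discriminant_ne_zero τ)]
    linear_combination h
  obtain ⟨G, hG⟩ := Fermat.Agent.S23.exists_levelOne_of (-12)
    (fun τ => (E₄ τ ^ 3 - c * ModularForm.discriminant τ)⁻¹) (fun γ => by
      funext τ
      rw [SL_slash_apply, jfacts_E4_smul, jfacts_disc_smul]
      have h := denom_ne_zero γ τ
      have e : (denom γ τ ^ (4 : ℤ)) ^ 3 = denom γ τ ^ (12 : ℤ) := by
        rw [← zpow_natCast, ← zpow_mul]; norm_num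
      rw [mul_pow, e, neg_neg, mul_left_comm, ← mul_sub, mul_inv, mul_comm, ← mul_assoc,
        mul_inv_cancel₀ (zpow_ne_zero _ h), one_mul])
    (jfacts_mdiff_inv ((jfacts_mdiff_E4.pow 3).sub (mdifferentiable_const.mul jfacts_mdiff_disc)) h0)
    (by
      have h1 := ((Fermat.Agent.S23.prim_E4_tendsto.pow 3).sub
        (discriminant_isZeroAtImInfty.const_mul c)).inv₀ (by simp)
      exact jfacts_bdd_of_tendsto h1)
  have h1 := ModularFormClass.levelOne_neg_weight_eq_zero (by norm_num) G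
  rw [hG] at h1
  have h2 := congrFun h1 I
  simp only [Pi.zero_apply, inv_eq_zero] at h2
  exact h0 I h2

theorem jfun_eq_zero_iff (τ : ℍ) : jfun τ = 0 ↔ E₄ τ = 0 := by
  simp [jfun, discriminant_ne_zero τ]

theorem jfun_eq_1728_iff (τ : ℍ) : jfun τ = 1728 ↔ E₆ τ = 0 := by
  rw [jfun, div_eq_iff (discriminant_ne_zero τ), discriminant_eq_E₄_cube_sub_E₆_sq]
  constructor
  · intro h
    have : E₆ τ ^ 2 = 0 := by linear_combination h
    exact pow_eq_zero_iff (two_ne_zero) |>.mp this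
  · intro h
    rw [h]; ring

end Fermat.Agent.S24
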