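/-
S24: the function field is the fraction field of `ℚ̄[j(q^d) : d ∣ N]`; ring homs out of it.
-/
import Fermat.Agent.S24.Defs
import Fermat.Prelude.Def_ModularCurve_JqCoeff
import Fermat.Prelude.Thm_ModularCurve_coeffMap_qExpand
import Fermat.Prelude.Thm_ModularCurve_coeff_jqModC_pow_of_lt
import Fermat.Prelude.Thm_ModularCurve_coeff_jqModC_pow_self

set_option autoImplicit false

open IntermediateField

namespace Fermat.Agent.S24

variable (N : ℕ) [NeZero N]

theorem FF_eq_adjoin :
    ModularCurve.modularFunctionFieldBar N = IntermediateField.adjoin Kb (Set.range (gen N)) := by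
  apply le_antisymm
  · change IntermediateField.adjoin Kb _ ≤ _
    rw [IntermediateField.adjoin_le_iff]
    rintro _ ⟨x, hx, rfl⟩
    change x ∈ IntermediateField.adjoin ℚ (ModularCurve.divisorExpansions N) at hx
    induction hx using IntermediateField.adjoin_induction with
    | mem x hx =>
      obtain ⟨d, hd0, hd, rfl⟩ := hx
      exact IntermediateField.subset_adjoin Kb _ ⟨⟨d, hd⟩, rfl⟩
    | algebraMap c =>
      have h : ModularCurve.coeffEmb Kb (algebraMap ℚ (LaurentSeries ℚ) c) =
          algebraMap Kb (LaurentSeries Kb) (algebraMap ℚ Kb c) := by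
        rw [ModularCurve.algebraMap_laurentSeries_eq_single,
          ModularCurve.algebraMap_laurentSeries_eq_single, ModularCurve.coeffEmb,
          ModularCurve.coeffMap_single]
      change ModularCurve.coeffEmb Kb (algebraMap ℚ (LaurentSeries ℚ) c) ∈ _
      rw [h]
      exact IntermediateField.algebraMap_mem _ _
    | add x y _ _ hx hy =>
      change ModularCurve.coeffEmb Kb (x + y) ∈ _
      rw [map_add]
      exact add_mem hx hy
    | inv x _ hx =>
      change ModularCurve.coeffEmb Kb x⁻¹ ∈ _
      rw [map_inv₀]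
      exact inv_mem hx
    | mul x y _ _ hx hy =>
      change ModularCurve.coeffEmb Kb (x * y) ∈ _
      rw [map_mul]
      exact mul_mem hx hy
  · rw [IntermediateField.adjoin_le_iff]
    rintro _ ⟨d, rfl⟩
    exact gen_mem N d

lemma lift_coe_evF (P : MvPolynomial (Dv N) Kb) :
    ((evF N P : FF N) : LaurentSeries Kb) = MvPolynomial.aeval (gen N) P := by
  have h : (IntermediateField.val (ModularCurve.modularFunctionFieldBar N)).comp (evF N) =
      MvPolynomial.aeval (gen N) := by
    apply MvPolynomial.algHom_ext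
    intro d
    simp [evF, genF]
  exact congrArg (fun φ : MvPolynomial (Dv N) Kb →ₐ[Kb] LaurentSeries Kb => φ P) h

theorem exists_frac (f : FF N) :
    ∃ P R : MvPolynomial (Dv N) Kb, evF N R ≠ 0 ∧ f = evF N P / evF N R := by
  have hf : (f : LaurentSeries Kb) ∈ IntermediateField.adjoin Kb (Set.range (gen N)) := by
    rw [← FF_eq_adjoin]
    exact f.2
  rw [IntermediateField.mem_adjoin_range_iff] at hf
  obtain ⟨P, R, h⟩ := hf
  by_cases hR : evF N R = 0
  · refine ⟨0, 1, by simp, ?_⟩
    apply Subtype.ext
    have hR' : MvPolynomial.aeval (gen N) R = 0 := by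
      rw [← lift_coe_evF, hR]
      rfl
    rw [h, hR']
    simp
  · refine ⟨P, R, hR, ?_⟩
    apply Subtype.ext
    rw [h, ← lift_coe_evF, ← lift_coe_evF]
    rfl

theorem ringHom_ext_evF {L : Type*} [Field L] (Θ Θ' : FF N →+* L)
    (h : ∀ P, Θ (evF N P) = Θ' (evF N P)) : Θ = Θ' := by
  ext f
  obtain ⟨P, R, -, rfl⟩ := exists_frac N f
  rw [map_div₀, map_div₀, h, h]

theorem lift_abstract {A F L : Type*} [CommRing A] [Field F] [Field L] (φ : A →+* F) (Ψ : A →+* L)
    (hfr : ∀ f : F, ∃ P R : A, φ R ≠ 0 ∧ f = φ P / φ R)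
    (h : ∀ P, φ P = 0 ↔ Ψ P = 0) : ∃ Θ : F →+* L, ∀ P, Θ (φ P) = Ψ P := by
  classical
  choose num den hden hfrac using hfr
  have hΨden : ∀ f, Ψ (den f) ≠ 0 := fun f h0 => hden f ((h _).mpr h0)
  -- the key well-definedness statement
  have key : ∀ (f : F) (P R : A), φ R ≠ 0 → f = φ P / φ R →
      Ψ (num f) / Ψ (den f) = Ψ P / Ψ R := by
    intro f P R hR hf
    have hΨR : Ψ R ≠ 0 := fun h0 => hR ((h _).mpr h0)
    have h1 : φ (num f) / φ (den f) = φ P / φ R := (hfrac f).symm.trans hf
    rw [div_eq_div_iff (hden f) hR] at h1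
    have h2 : φ (num f * R - P * den f) = 0 := by
      rw [map_sub, map_mul, map_mul, h1, sub_self]
    have h3 := (h _).mp h2
    rw [map_sub, map_mul, map_mul, sub_eq_zero] at h3
    rw [div_eq_div_iff (hΨden f) hΨR, h3]
  refine ⟨{ toFun := fun f => Ψ (num f) / Ψ (den f)
            map_one' := ?_
            map_mul' := ?_
            map_zero' := ?_
            map_add' := ?_ }, ?_⟩
  · rw [key 1 1 1 (by simp) (by simp)]
    simp
  · intro f g
    rw [key (f * g) (num f * num g) (den f * den g)
      (by rw [map_mul]; exact mul_ne_zero (hden f) (hden g))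
      (by rw [map_mul, map_mul, ← div_mul_div_comm, ← hfrac f, ← hfrac g]), map_mul, map_mul,
      div_mul_div_comm]
  · rw [key 0 0 1 (by simp) (by simp)]
    simp
  · intro f g
    rw [key (f + g) (num f * den g + den f * num g) (den f * den g)
      (by rw [map_mul]; exact mul_ne_zero (hden f) (hden g))
      (by
        rw [map_add, map_mul, map_mul, map_mul, ← div_add_div _ _ (hden f) (hden g), ← hfrac f,
          ← hfrac g]), map_add, map_mul, map_mul, map_mul, div_add_div _ _ (hΨden f) (hΨden g)]
  · intro P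
    change Ψ (num (φ P)) / Ψ (den (φ P)) = Ψ P
    rw [key (φ P) P 1 (by simp) (by simp)]
    simp

theorem exists_lift {L : Type*} [Field L] (Ψ : MvPolynomial (Dv N) Kb →+* L)
    (h : ∀ P, evF N P = 0 ↔ Ψ P = 0) : ∃ Θ : FF N →+* L, ∀ P, Θ (evF N P) = Ψ P :=
  lift_abstract (evF N : MvPolynomial (Dv N) Kb →+* FF N) Ψ (exists_frac N) h

/-- the formal generator over `ℚ̄` in terms of the prelude's `jqModC`. -/
theorem gen_eq (d : Dv N) : gen N d = ModularCurve.qExpand Kb d.1 (ModularCurve.jqModC Kb) := by
  rw [gen, ModularCurve.coeffEmb, ModularCurve.coeffMap_qExpand]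
  congr 1
  exact ModularCurve.map_jqModC (K := ℚ) (algebraMap ℚ Kb)

theorem lift_coeff_smul (K : Type*) [Field K] (c : K) (x : LaurentSeries K) (n : ℤ) :
    (@HSMul.hSMul K (LaurentSeries K) (LaurentSeries K) (@instHSMul _ _ Algebra.toSMul) c x).coeff n
      = c * x.coeff n := by
  rw [Algebra.smul_def, ModularCurve.algebraMap_laurentSeries_eq_single]
  simp

theorem lift_transc (K : Type*) [Field K] : Transcendental K (ModularCurve.jqModC K) := by
  intro halg
  obtain ⟨p, hp0, hp⟩ := halg
  apply hp0
  rw [← Polynomial.leadingCoeff_eq_zero]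
  have h := congrArg (fun x : LaurentSeries K => x.coeff (-(p.natDegree : ℤ))) hp
  simp only [HahnSeries.coeff_zero] at h
  rw [Polynomial.aeval_eq_sum_range, HahnSeries.coeff_sum] at h
  rw [Finset.sum_eq_single p.natDegree] at h
  · rw [lift_coeff_smul, ModularCurve.coeff_jqModC_pow_self] at h
    simpa using h
  · intro b hb hbn
    rw [lift_coeff_smul, ModularCurve.coeff_jqModC_pow_of_lt]
    · simp
    · have : b < p.natDegree := by
        have := Finset.mem_range.mp hb
        omega
      omega
  · intro hn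
    exact absurd (Finset.mem_range.mpr (Nat.lt_succ_self _)) hn

theorem transcendental_jF : Transcendental Kb (jF N) := by
  have h1 : algebraMap (FF N) (LaurentSeries Kb) (jF N) = ModularCurve.jqModC Kb := by
    change gen N ⟨1, one_dvd N⟩ = _
    rw [gen_eq]
    exact ModularCurve.qExpand_one_apply _
  have h2 := lift_transc Kb
  rw [← h1] at h2
  exact (transcendental_algebraMap_iff (algebraMap (FF N) (LaurentSeries Kb)).injective).mp h2

end Fermat.Agent.S24
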