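/-
S24: the Laurent expansion at `i∞` of `τ ↦ j(dτ)` is the formal generator.
-/
import Fermat.Agent.S24.JFacts
import Fermat.Agent.S24.FormalBridge
import Fermat.Agent.S24.Lift
import Fermat.Prelude.Thm_ModularCurve_coeffMap_qExpand

set_option autoImplicit false

open UpperHalfPlane ModularForm EisensteinSeries Function CongruenceSubgroup
open scoped Manifold MatrixGroups

namespace Fermat.Agent.S24

variable (N : ℕ) [NeZero N]

theorem jd_mem_Mer' (d : Dv N) : (fun τ => jfun (dmul d τ)) ∈ Mer N := by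
  simpa using jd_mem_Mer N d 1

lemma bridge_mem_Bd (d : Dv N) (f : ℍ → ℂ)
    (hper : Periodic (f ∘ ofComplex) ((1 : ℝ) : ℂ)) (hol : MDiff f) (hbdd : IsBoundedAtImInfty f) :
    (fun τ => f (dmul d τ)) ∈ Bd N := by
  refine ⟨?_, formalBridge_mdiff N d f hol,
    isBoundedAtImInfty_of_hasSum_qExpansion (cuspChart_N_pos N)
      (formalBridge_hasSum_dmul N d f hper hol hbdd)⟩
  simpa using formalBridge_periodic N d f hper

lemma bridge_per_E₄ : Periodic (⇑E₄ ∘ ofComplex) ((1 : ℝ) : ℂ) :=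
  SlashInvariantFormClass.periodic_comp_ofComplex E₄ one_mem_strictPeriods_SL

lemma bridge_per_disc : Periodic (ModularForm.discriminant ∘ ofComplex) ((1 : ℝ) : ℂ) :=
  SlashInvariantFormClass.periodic_comp_ofComplex CuspForm.discriminant one_mem_strictPeriods_SL

lemma bridge_bdd_E₄ : IsBoundedAtImInfty (⇑E₄) :=
  Fermat.Agent.S23.prim_E4_tendsto.isBigO_one ℝ

lemma bridge_E₄_mem (d : Dv N) : (fun τ => E₄ (dmul d τ)) ∈ Bd N :=
  bridge_mem_Bd N d _ bridge_per_E₄ E₄.holo' bridge_bdd_E₄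

lemma bridge_disc_mem (d : Dv N) : (fun τ => ModularForm.discriminant (dmul d τ)) ∈ Bd N :=
  bridge_mem_Bd N d _ bridge_per_disc CuspForm.discriminant.holo'
    ModularForm.discriminant_isZeroAtImInfty.isBoundedAtImInfty

/-- the formal identity `j Δ = E₄³` -/
lemma bridge_formal :
    ModularCurve.jqModC ℂ * HahnSeries.ofPowerSeries ℤ ℂ
        (PowerSeries.X * ModularCurve.dedekindEtaUnit.map (Int.castRingHom ℂ)) =
      HahnSeries.ofPowerSeries ℤ ℂ (ModularCurve.eisenstein4.map (Int.castRingHom ℂ)) ^ 3 := by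
  have h1 : (HahnSeries.single (-1 : ℤ) (1 : ℂ)) * HahnSeries.ofPowerSeries ℤ ℂ PowerSeries.X = 1 := by
    rw [HahnSeries.ofPowerSeries_X, HahnSeries.single_mul_single]
    simp
  have h2 : ModularCurve.jNum.map (Int.castRingHom ℂ) *
      ModularCurve.dedekindEtaUnit.map (Int.castRingHom ℂ) =
      ModularCurve.eisenstein4.map (Int.castRingHom ℂ) ^ 3 := by
    rw [← map_mul, ← map_pow, ModularCurve.jNum, mul_assoc,
      mul_comm ModularCurve.dedekindEtaUnitInv, ModularCurve.dedekindEtaUnit_mul_inv, mul_one]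
  rw [ModularCurve.jqModC, ← map_pow, ← h2, map_mul, map_mul]
  calc _ = (HahnSeries.single (-1 : ℤ) (1 : ℂ) * HahnSeries.ofPowerSeries ℤ ℂ PowerSeries.X) *
        (HahnSeries.ofPowerSeries ℤ ℂ (ModularCurve.jNum.map (Int.castRingHom ℂ)) *
        HahnSeries.ofPowerSeries ℤ ℂ (ModularCurve.dedekindEtaUnit.map (Int.castRingHom ℂ))) := by
        ring
    _ = _ := by rw [h1, one_mul]

lemma bridge_target (d : Dv N) :
    ModularCurve.qExpand ℂ N (ModularCurve.coeffMap iota (gen N d)) =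
      ModularCurve.qExpand ℂ (N * d.1) (ModularCurve.jqModC ℂ) := by
  rw [gen_eq, ModularCurve.coeffMap_qExpand, ModularCurve.qExpand_qExpand]
  congr 1
  exact ModularCurve.map_jqModC iota

theorem cuspExp_jd (d : Dv N) :
    cuspExp N ⟨fun τ => jfun (dmul d τ), jd_mem_Mer' N d⟩ =
      ModularCurve.qExpand ℂ N (ModularCurve.coeffMap iota (gen N d)) := by
  rw [bridge_target]
  set J : Mer N := ⟨fun τ => jfun (dmul d τ), jd_mem_Mer' N d⟩ with hJ
  set D : Mer N := ⟨fun τ => ModularForm.discriminant (dmul d τ),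
    Bd_le_Mer N (bridge_disc_mem N d)⟩ with hD
  set E : Mer N := ⟨fun τ => E₄ (dmul d τ), Bd_le_Mer N (bridge_E₄_mem N d)⟩ with hE
  have key : J * D = E ^ 3 := by
    apply Subtype.ext
    funext τ
    change jfun (dmul d τ) * discriminant (dmul d τ) = E₄ (dmul d τ) ^ 3
    rw [jfun, div_mul_cancel₀ _ (discriminant_ne_zero _)]
  have hDexp : cuspExp N D = ModularCurve.qExpand ℂ (N * d.1) (HahnSeries.ofPowerSeries ℤ ℂ
      (PowerSeries.X * ModularCurve.dedekindEtaUnit.map (Int.castRingHom ℂ))) := by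
    rw [hD, cuspExp_of_mem_Bd N _ (bridge_disc_mem N d),
      qExpansion_dmul N d _ bridge_per_disc CuspForm.discriminant.holo'
        ModularForm.discriminant_isZeroAtImInfty.isBoundedAtImInfty, qExpansion_discriminant]
  have hEexp : cuspExp N E = ModularCurve.qExpand ℂ (N * d.1) (HahnSeries.ofPowerSeries ℤ ℂ
      (ModularCurve.eisenstein4.map (Int.castRingHom ℂ))) := by
    rw [hE, cuspExp_of_mem_Bd N _ (bridge_E₄_mem N d),
      qExpansion_dmul N d _ bridge_per_E₄ E₄.holo' bridge_bdd_E₄, qExpansion_E₄]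
  have hD0 : cuspExp N D ≠ 0 := by
    intro h
    have h1 := (map_eq_zero_iff _ (cuspExp_injective N)).1 h
    have h2 := congrFun (congrArg Subtype.val h1) UpperHalfPlane.I
    exact discriminant_ne_zero _ h2
  have h1 := congrArg (cuspExp N) key
  rw [map_mul, map_pow, hEexp, ← map_pow, ← bridge_formal, map_mul, ← hDexp] at h1
  exact mul_right_cancel₀ hD0 h1

end Fermat.Agent.S24
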