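/-
S24: orbit counting for the permutations of `SL₂(ℤ)/Γ₀(N)` induced by `S`, `ST`, `T`.
-/
import Fermat.Agent.S24.Defs
import Fermat.Agent.S20.CombCusps
import Fermat.Agent.S20.CombFixed

set_option autoImplicit false

open CongruenceSubgroup
open scoped MatrixGroups

namespace Fermat.Agent.S24

theorem card_orbits_of_pow_eq_one {Q : Type*} [Fintype Q] (π : Equiv.Perm Q) (p : ℕ) (hp : p.Prime)
    (h : π ^ p = 1) :
    p * Nat.card (MulAction.orbitRel.Quotient (Subgroup.zpowers π) Q)
      = Fintype.card Q + (p - 1) * Nat.card {q // π q = q} := by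
  classical
  have : Fintype (Subgroup.zpowers π) := Fintype.ofFinite _
  have B := MulAction.sum_card_fixedBy_eq_card_orbits_mul_card_group (Subgroup.zpowers π) Q
  have key : ∀ a : Subgroup.zpowers π, a ≠ 1 →
      Fintype.card (MulAction.fixedBy Q a) = Nat.card {q // π q = q} := by
    rintro ⟨a, k, rfl⟩ ha
    have hk : ¬ (p : ℤ) ∣ k := by
      rintro ⟨m, rfl⟩
      apply ha
      ext1
      simp [zpow_mul, h]
    have hcop : IsCoprime (p : ℤ) k :=
      ((Nat.prime_iff_prime_int.mp hp).coprime_iff_not_dvd).mpr hk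
    obtain ⟨u, v, huv⟩ := hcop
    have hπ : π = (π ^ k) ^ v := by
      have : π ^ (u * p + v * k) = π := by rw [huv, zpow_one]
      rw [zpow_add, mul_comm u, zpow_mul, zpow_natCast, h, one_zpow, one_mul, mul_comm v, zpow_mul]
        at this
      exact this.symm
    rw [← Nat.card_eq_fintype_card]
    apply Nat.card_congr
    refine Equiv.subtypeEquivRight fun q => ?_
    rw [MulAction.mem_fixedBy]
    change (π ^ k) q = q ↔ π q = q
    constructor
    · intro hq
      rw [hπ]
      exact Equiv.Perm.zpow_apply_eq_self_of_apply_eq_self hq v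
    · intro hq
      exact Equiv.Perm.zpow_apply_eq_self_of_apply_eq_self hq k
  have hone : Fintype.card (MulAction.fixedBy Q (1 : Subgroup.zpowers π)) = Fintype.card Q := by
    rw [← Nat.card_eq_fintype_card, ← Nat.card_eq_fintype_card]
    exact Nat.card_congr (Equiv.subtypeUnivEquiv fun q => by simp)
  rw [Fintype.sum_eq_add_sum_compl (1 : Subgroup.zpowers π), hone,
    Finset.sum_congr rfl (fun a ha => key a (by simpa using ha)), Finset.sum_const, smul_eq_mul,
    Finset.card_compl, Finset.card_singleton, ← Nat.card_eq_fintype_card (α := Subgroup.zpowers π),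
    Nat.card_zpowers,
    ← Nat.card_eq_fintype_card (α := Quotient (MulAction.orbitRel (Subgroup.zpowers π) Q))] at B
  change _ = Nat.card (MulAction.orbitRel.Quotient (Subgroup.zpowers π) Q) * _ at B
  rcases (Nat.dvd_prime hp).mp (orderOf_dvd_of_pow_eq_one h) with h1 | h1
  · rw [h1] at B
    have hπ1 : π = 1 := orderOf_eq_one_iff.mp h1
    have : Nat.card {q // π q = q} = Fintype.card Q := by
      rw [← Nat.card_eq_fintype_card]
      exact Nat.card_congr (Equiv.subtypeUnivEquiv fun q => by simp [hπ1])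
    rw [this]
    simp only [Nat.sub_self, zero_mul, add_zero, mul_one] at B
    rw [← B]
    obtain ⟨r, rfl⟩ : ∃ r, p = r + 1 := ⟨p - 1, (Nat.sub_add_cancel hp.one_le).symm⟩
    simp
    ring
  · rw [h1] at B
    rw [B, mul_comm]

/-- the orbits of the cyclic group generated by the permutation `toPerm σ` are those of `σ`. -/
theorem card_orbits_toPerm {G X : Type*} [Group G] [MulAction G X] (σ : G) :
    Nat.card (MulAction.orbitRel.Quotient (Subgroup.zpowers (MulAction.toPerm σ : Equiv.Perm X)) X)
      = Nat.card (MulAction.orbitRel.Quotient (Subgroup.zpowers σ) X) := by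
  have hpow : ∀ (k : ℤ) (x : X), ((MulAction.toPerm σ : Equiv.Perm X) ^ k) x = σ ^ k • x := by
    intro k x
    have : (MulAction.toPerm σ : Equiv.Perm X) ^ k = MulAction.toPerm (σ ^ k) :=
      (map_zpow (MulAction.toPermHom G X) σ k).symm
    rw [this]
    rfl
  refine Nat.card_congr (Quotient.congr (Equiv.refl X) fun a b => ?_)
  change a ∈ MulAction.orbit _ b ↔ a ∈ MulAction.orbit _ b
  constructor
  · rintro ⟨⟨_, k, rfl⟩, hk⟩
    refine ⟨⟨σ ^ k, k, rfl⟩, ?_⟩
    rw [← hk]
    exact (hpow k b).symm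
  · rintro ⟨⟨_, k, rfl⟩, hk⟩
    refine ⟨⟨(MulAction.toPerm σ : Equiv.Perm X) ^ k, k, rfl⟩, ?_⟩
    rw [← hk]
    exact hpow k b

variable (N : ℕ) [NeZero N]

omit [NeZero N] in
theorem neg_one_smul_Q (q : Q N) : (-1 : SL(2, ℤ)) • q = q := by
  induction q using QuotientGroup.induction_on with
  | H g =>
    rw [Fermat.Agent.S20.combFixed_smul_mk_eq_iff]
    simp [mul_comm]

theorem toPerm_S_sq : (MulAction.toPerm ModularGroup.S : Equiv.Perm (Q N)) ^ 2 = 1 := by
  have h : (ModularGroup.S) ^ 2 = (-1 : SL(2, ℤ)) := by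
    ext i j
    fin_cases i <;> fin_cases j <;> simp [ModularGroup.S, pow_two, Matrix.mul_apply, Fin.sum_univ_two]
  have : (MulAction.toPerm ModularGroup.S : Equiv.Perm (Q N)) ^ 2
      = MulAction.toPerm (ModularGroup.S ^ 2) :=
    (map_pow (MulAction.toPermHom SL(2, ℤ) (Q N)) ModularGroup.S 2).symm
  rw [this, h]
  ext q
  exact neg_one_smul_Q N q

theorem toPerm_ST_cube :
    (MulAction.toPerm (ModularGroup.S * ModularGroup.T) : Equiv.Perm (Q N)) ^ 3 = 1 := by
  have h : (ModularGroup.S * ModularGroup.T) ^ 3 = (-1 : SL(2, ℤ)) := by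
    ext i j
    fin_cases i <;> fin_cases j <;>
      simp [ModularGroup.S, ModularGroup.T, pow_succ, Matrix.mul_apply, Fin.sum_univ_two]
  have : (MulAction.toPerm (ModularGroup.S * ModularGroup.T) : Equiv.Perm (Q N)) ^ 3
      = MulAction.toPerm ((ModularGroup.S * ModularGroup.T) ^ 3) :=
    (map_pow (MulAction.toPermHom SL(2, ℤ) (Q N)) (ModularGroup.S * ModularGroup.T) 3).symm
  rw [this, h]
  ext q
  exact neg_one_smul_Q N q

instance finite_Q : Finite (Q N) := Subgroup.finite_quotient_of_finiteIndex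

noncomputable instance fintype_Q : Fintype (Q N) := Fintype.ofFinite _

theorem card_Q : Fintype.card (Q N) = ModularCurve.dedekindPsi N := by
  rw [← Nat.card_eq_fintype_card]
  exact Fermat.Agent.S20.card_quot N

theorem two_mul_card_orbits_S :
    2 * Nat.card (MulAction.orbitRel.Quotient
      (Subgroup.zpowers (MulAction.toPerm ModularGroup.S : Equiv.Perm (Q N))) (Q N))
      = ModularCurve.dedekindPsi N + ModularCurve.nuTwo N := by
  rw [card_orbits_of_pow_eq_one _ 2 Nat.prime_two (toPerm_S_sq N), card_Q,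
    ← Fermat.Agent.S20.card_fixed_S N]
  simp

theorem three_mul_card_orbits_ST :
    3 * Nat.card (MulAction.orbitRel.Quotient
      (Subgroup.zpowers (MulAction.toPerm (ModularGroup.S * ModularGroup.T) : Equiv.Perm (Q N)))
        (Q N))
      = ModularCurve.dedekindPsi N + 2 * ModularCurve.nuThree N := by
  rw [card_orbits_of_pow_eq_one _ 3 Nat.prime_three (toPerm_ST_cube N), card_Q,
    ← Fermat.Agent.S20.card_fixed_ST N]
  simp

theorem card_orbits_toPerm_T :
    Nat.card (MulAction.orbitRel.Quotient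
      (Subgroup.zpowers (MulAction.toPerm ModularGroup.T : Equiv.Perm (Q N))) (Q N))
      = ModularCurve.cuspCount N := by
  rw [card_orbits_toPerm]
  exact Fermat.Agent.S20.card_orbits_T N

end Fermat.Agent.S24
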