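/-
S24: abstract charts (rings of functions on `ℍ` with an injective expansion map to `ℂ((s))`) and the
induced embeddings of the function field of `X₀(N)`.
-/
import Fermat.Agent.S24.Bridge
import Fermat.Agent.S24.Orbits

set_option autoImplicit false
set_option maxHeartbeats 400000

open UpperHalfPlane ModularForm EisensteinSeries Function CongruenceSubgroup IntermediateField
open scoped Manifold MatrixGroups

namespace Fermat.Agent.S24

variable (N : ℕ) [NeZero N]

/-- a ring of functions on `ℍ` containing the constants and all `j(d g τ)`, with an injective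
expansion map. -/
structure Chart where
  R : Subring (ℍ → ℂ)
  E : R →+* LaurentSeries ℂ
  const_mem : ∀ c : ℂ, (fun _ : ℍ => c) ∈ R
  E_const : ∀ c : ℂ, E ⟨fun _ => c, const_mem c⟩ = HahnSeries.C c
  E_inj : Function.Injective E
  jd_mem : ∀ (d : Dv N) (g : SL(2, ℤ)), (fun τ => jfun (dmul d (g • τ))) ∈ R

namespace Chart

variable {N}
variable (X : Chart N)

/-- constants -/
def constHom : ℂ →+* X.R where
  toFun c := ⟨fun _ => c, X.const_mem c⟩
  map_one' := rfl
  map_mul' _ _ := rfl
  map_zero' := rfl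
  map_add' _ _ := rfl

/-- `P ↦ (τ ↦ P(j(d g⁻¹ τ)))` -/
noncomputable def valHom (g : SL(2, ℤ)) : MvPolynomial (Dv N) Kb →+* X.R :=
  MvPolynomial.eval₂Hom (X.constHom.comp iota)
    (fun d => ⟨fun τ => jfun (dmul d (g⁻¹ • τ)), X.jd_mem d g⁻¹⟩)

theorem valHom_apply (g : SL(2, ℤ)) (P : MvPolynomial (Dv N) Kb) (τ : ℍ) :
    (X.valHom g P).1 τ = val N P (g⁻¹ • τ) := by
  induction P using MvPolynomial.induction_on with
  | C a => simp [valHom, val, constHom]
  | add p q hp hq =>
    rw [map_add]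
    change (X.valHom g p).1 τ + (X.valHom g q).1 τ = _
    rw [hp, hq]
    simp [val]
  | mul_X p d hp =>
    rw [map_mul]
    change (X.valHom g p).1 τ * (X.valHom g (MvPolynomial.X d)).1 τ = _
    rw [hp]
    simp [val, valHom]

end Chart

/-- `Γ₀(N)`-invariance -/
theorem val_smul_of_mem_Gamma0 (P : MvPolynomial (Dv N) Kb) (γ : SL(2, ℤ)) (hγ : γ ∈ Gamma0 N)
    (τ : ℍ) : val N P (γ • τ) = val N P τ := by
  unfold val
  congr 1
  funext d
  exact jfun_dmul_smul_of_mem_Gamma0 N d γ hγ τ

/-- the chart at `i∞` -/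
noncomputable def cuspChart : Chart N where
  R := Mer N
  E := cuspExp N
  const_mem c := Bd_le_Mer N (const_mem_Bd N c)
  E_const c := cuspExp_const N c
  E_inj := cuspExp_injective N
  jd_mem d g := jd_mem_Mer N d g

theorem coeffMap_injective {R S : Type*} [CommRing R] [CommRing S] (f : R →+* S)
    (hf : Function.Injective f) : Function.Injective (ModularCurve.coeffMap f) := by
  intro x y h
  ext k
  apply hf
  have := congrArg (fun u => HahnSeries.coeff u k) h
  simpa using this

/-- the formal embedding `F → ℂ((s))`, `q = s^N` -/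
noncomputable def formalEmb : FF N →+* LaurentSeries ℂ :=
  ((ModularCurve.qExpand ℂ N).comp (ModularCurve.coeffMap iota)).comp
    (ModularCurve.modularFunctionFieldBar N).val.toRingHom

theorem formalEmb_apply (f : FF N) :
    formalEmb N f = ModularCurve.qExpand ℂ N (ModularCurve.coeffMap iota f.1) := rfl

theorem cuspExp_valHom_one (P : MvPolynomial (Dv N) Kb) :
    (cuspChart N).E ((cuspChart N).valHom 1 P) = formalEmb N (evF N P) := by
  have h : (cuspChart N).E.comp ((cuspChart N).valHom 1)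
      = (formalEmb N).comp (evF N).toRingHom := by
    apply MvPolynomial.ringHom_ext
    · intro a
      have h1 : (cuspChart N).valHom 1 (MvPolynomial.C a) = (cuspChart N).constHom (iota a) := by
        simp [Chart.valHom]
      have h2 : evF N (MvPolynomial.C a) = algebraMap Kb (FF N) a := by
        simp [evF]
      simp only [RingHom.comp_apply, AlgHom.toRingHom_eq_coe, RingHom.coe_coe]
      rw [h1, h2, formalEmb_apply]
      have h3 : ((algebraMap Kb (FF N) a : FF N) : LaurentSeries Kb)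
          = algebraMap Kb (LaurentSeries Kb) a := rfl
      rw [h3, ModularCurve.algebraMap_laurentSeries_eq_single, ModularCurve.coeffMap_single,
        ModularCurve.qExpand_single, mul_zero]
      exact cuspExp_const N (iota a)
    · intro d
      have h1 : (cuspChart N).valHom 1 (MvPolynomial.X d)
          = ⟨fun τ => jfun (dmul d τ), jd_mem_Mer' N d⟩ := by
        apply Subtype.ext
        funext τ
        rw [Chart.valHom_apply]
        simp [val]
      have h2 : evF N (MvPolynomial.X d) = genF N d := by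
        simp [evF]
      simp only [RingHom.comp_apply, AlgHom.toRingHom_eq_coe, RingHom.coe_coe]
      rw [h1, h2, formalEmb_apply]
      exact cuspExp_jd N d
  exact congrArg (fun φ => φ P) h

/-- the key identification: a polynomial relation holds formally iff it holds analytically. -/
theorem evF_eq_zero_iff (P : MvPolynomial (Dv N) Kb) : evF N P = 0 ↔ ∀ τ, val N P τ = 0 := by
  have h1 : evF N P = 0 ↔ formalEmb N (evF N P) = 0 :=
    (map_eq_zero_iff _ (formalEmb N).injective).symm
  rw [h1, ← cuspExp_valHom_one, map_eq_zero_iff _ (cuspChart N).E_inj]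
  constructor
  · intro h τ
    have := (cuspChart N).valHom_apply 1 P τ
    rw [h] at this
    simpa using this.symm
  · intro h
    apply Subtype.ext
    funext τ
    rw [Chart.valHom_apply]
    exact h _

namespace Chart

variable {N}
variable (X : Chart N)

theorem E_valHom_eq_zero_iff (g : SL(2, ℤ)) (P : MvPolynomial (Dv N) Kb) :
    evF N P = 0 ↔ (X.E.comp (X.valHom g)) P = 0 := by
  rw [RingHom.comp_apply, map_eq_zero_iff _ X.E_inj, evF_eq_zero_iff]
  constructor
  · intro h
    apply Subtype.ext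
    funext τ
    rw [valHom_apply]
    exact h _
  · intro h τ
    have := X.valHom_apply g P (g • τ)
    rw [h] at this
    simpa using this.symm

/-- the embedding `f ↦ expansion of f ∘ g⁻¹` -/
noncomputable def Θ (g : SL(2, ℤ)) : FF N →+* LaurentSeries ℂ :=
  (exists_lift N (X.E.comp (X.valHom g)) (X.E_valHom_eq_zero_iff g)).choose

theorem Θ_evF (g : SL(2, ℤ)) (P : MvPolynomial (Dv N) Kb) :
    X.Θ g (evF N P) = X.E (X.valHom g P) :=
  (exists_lift N (X.E.comp (X.valHom g)) (X.E_valHom_eq_zero_iff g)).choose_spec P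

theorem Θ_algebraMap (g : SL(2, ℤ)) (a : Kb) :
    X.Θ g (algebraMap Kb (FF N) a) = HahnSeries.C (iota a) := by
  have h2 : evF N (MvPolynomial.C a) = algebraMap Kb (FF N) a := by
    simp [evF]
  rw [← h2, Θ_evF]
  have h1 : X.valHom g (MvPolynomial.C a) = X.constHom (iota a) := by
    simp [Chart.valHom]
  rw [h1]
  exact X.E_const _

theorem Θ_genF (g : SL(2, ℤ)) (d : Dv N) :
    X.Θ g (genF N d) = X.E ⟨fun τ => jfun (dmul d (g⁻¹ • τ)), X.jd_mem d g⁻¹⟩ := by
  have h2 : evF N (MvPolynomial.X d) = genF N d := by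
    simp [evF]
  rw [← h2, Θ_evF]
  congr 1
  simp [valHom]

theorem jfun_mem : jfun ∈ X.R := by
  have := X.jd_mem ⟨1, one_dvd N⟩ 1
  convert this using 2 with τ
  congr 1
  ext
  simp [dmul]

theorem Θ_jF (g : SL(2, ℤ)) : X.Θ g (jF N) = X.E ⟨jfun, X.jfun_mem⟩ := by
  unfold jF
  rw [Θ_genF]
  congr 1
  apply Subtype.ext
  funext τ
  change jfun _ = jfun τ
  rw [← jfun_smul g⁻¹ τ]
  congr 1
  ext
  simp [dmul]

theorem valHom_congr {g g' : SL(2, ℤ)} (h : (QuotientGroup.mk g : Q N) = QuotientGroup.mk g')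
    (P : MvPolynomial (Dv N) Kb) : X.valHom g P = X.valHom g' P := by
  apply Subtype.ext
  funext τ
  rw [valHom_apply, valHom_apply]
  have hγ : g⁻¹ * g' ∈ Gamma0 N := QuotientGroup.eq.mp h
  have : g⁻¹ • τ = (g⁻¹ * g') • (g'⁻¹ • τ) := by
    rw [← mul_smul, mul_assoc, mul_inv_cancel, mul_one]
  rw [this, val_smul_of_mem_Gamma0 N P _ hγ]

theorem Θ_congr {g g' : SL(2, ℤ)} (h : (QuotientGroup.mk g : Q N) = QuotientGroup.mk g') :
    X.Θ g = X.Θ g' := by
  apply ringHom_ext_evF N
  intro P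
  rw [Θ_evF, Θ_evF, valHom_congr X h]

theorem Θ_inj {g g' : SL(2, ℤ)} (h : X.Θ g = X.Θ g') :
    (QuotientGroup.mk g : Q N) = QuotientGroup.mk g' := by
  apply mk_eq_of_jfun_eq N
  intro τ
  have h1 := congrArg (fun φ => φ (genF N ⟨N, dvd_rfl⟩)) h
  simp only [Θ_genF] at h1
  have h2 := X.E_inj h1
  exact congrArg (fun f => f.1 τ) h2

theorem valHom_mul (σ g : SL(2, ℤ)) (P : MvPolynomial (Dv N) Kb) :
    (X.valHom (σ * g) P).1 = fun τ => (X.valHom g P).1 (σ⁻¹ • τ) := by
  funext τ
  rw [valHom_apply, valHom_apply, mul_inv_rev, mul_smul]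

/-- equivariance -/
theorem Θ_mul (σ g : SL(2, ℤ)) (A : LaurentSeries ℂ →+* LaurentSeries ℂ)
    (hσ : ∀ (f : ℍ → ℂ) (hf : f ∈ X.R) (hf' : (fun τ => f (σ⁻¹ • τ)) ∈ X.R),
      X.E ⟨_, hf'⟩ = A (X.E ⟨f, hf⟩)) :
    X.Θ (σ * g) = A.comp (X.Θ g) := by
  apply ringHom_ext_evF N
  intro P
  rw [RingHom.comp_apply, Θ_evF, Θ_evF]
  have h2 : (fun τ => (X.valHom g P).1 (σ⁻¹ • τ)) ∈ X.R :=
    X.valHom_mul σ g P ▸ (X.valHom (σ * g) P).2
  have h3 : X.valHom (σ * g) P = ⟨_, h2⟩ := Subtype.ext (X.valHom_mul σ g P)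
  rw [h3]
  exact hσ (X.valHom g P).1 (X.valHom g P).2 h2

/-- the embeddings indexed by cosets -/
noncomputable def ΘQ (q : Q N) : FF N →+* LaurentSeries ℂ := X.Θ (Quotient.out q)

theorem ΘQ_mk (g : SL(2, ℤ)) : X.ΘQ (QuotientGroup.mk g) = X.Θ g := by
  apply Θ_congr
  exact Quotient.out_eq _

theorem ΘQ_injective : Function.Injective X.ΘQ := by
  intro q q' h
  have := X.Θ_inj h
  rwa [show (QuotientGroup.mk (Quotient.out q) : Q N) = q from Quotient.out_eq _,
    show (QuotientGroup.mk (Quotient.out q') : Q N) = q' from Quotient.out_eq _] at this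

theorem nonempty_localUnif (σ : SL(2, ℤ)) (ζ : ℂ) (e : ℕ) (he : 0 < e) (hζ : IsPrimitiveRoot ζ e)
    (hσ : ∀ (f : ℍ → ℂ) (hf : f ∈ X.R) (hf' : (fun τ => f (σ⁻¹ • τ)) ∈ X.R),
      X.E ⟨_, hf'⟩ = rot ζ (hζ.ne_zero he.ne') (X.E ⟨f, hf⟩))
    (y : FF N) (u : LaurentSeries ℂ) (hy : ∀ g, X.Θ g y = u) (hu : u.order = e) :
    Nonempty (LocalUnif Kb (FF N) (Q N) y e (MulAction.toPerm σ)) :=
  ⟨{ Θ := X.ΘQ
     ι := iota
     const := fun q a => X.Θ_algebraMap _ a
     agree := fun q q' => by rw [ΘQ, ΘQ, hy, hy]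
     inj := X.ΘQ_injective
     order_y := fun q => by rw [ΘQ, hy, hu]
     e_pos := he
     ζ := ζ
     prim := hζ
     R := rot ζ (hζ.ne_zero he.ne')
     R_coeff := fun u k => rot_coeff ζ _ u k
     equiv := fun q => by
      induction q using QuotientGroup.induction_on with
      | H g =>
        rw [MulAction.toPerm_apply, MulAction.Quotient.smul_mk, smul_eq_mul, ΘQ_mk, ΘQ_mk]
        exact X.Θ_mul σ g _ hσ }⟩

end Chart
end Fermat.Agent.S24
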