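/-
S24: local uniformisation data above `j = ∞`, from the chart at `i∞`.
Recipe: `Chart.nonempty_localUnif (cuspChart N) T (zetaN N)⁻¹ N ..`; `hσ` from `cuspExp_translate`
with `k = -1`; `hy`: `Θ g (jF N)⁻¹ = ((cuspChart N).E ⟨jfun, _⟩)⁻¹` by `Chart.Θ_jF`;
`hu`: `(cuspChart N).E ⟨jfun, _⟩ = formalEmb N (jF N)` (`cuspExp_valHom_one` or `cuspExp_jd`) has order
`-N` since `jq` has order `-1` (`ModularCurve.coeff_jq_neg_one`, `coeff_jq_of_lt`,
`qExpand_coeff_mul`, `qExpand_coeff_of_not_dvd`).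
-/
import Fermat.Agent.S24.Chart

set_option autoImplicit false

open UpperHalfPlane ModularForm EisensteinSeries Function CongruenceSubgroup IntermediateField
open scoped Manifold MatrixGroups

namespace Fermat.Agent.S24

variable (N : ℕ) [NeZero N]

theorem unifCusp_coeff_mul (m : ℤ) :
    (formalEmb N (jF N)).coeff ((N : ℤ) * m) =
      iota (algebraMap ℚ Kb (ModularCurve.jq.coeff m)) := by
  rw [formalEmb_apply, ModularCurve.qExpand_coeff_mul, ModularCurve.coeffMap_coeff]
  change iota ((gen N ⟨1, one_dvd N⟩).coeff m) = _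
  rw [gen, ModularCurve.coeffEmb_coeff]
  congr 2
  exact congrArg (fun u => HahnSeries.coeff u m) (ModularCurve.qExpand_one_apply ModularCurve.jq)

theorem order_formalEmb_jF : (formalEmb N (jF N)).order = -(N : ℤ) := by
  have hN : (0 : ℤ) < N := by exact_mod_cast Nat.pos_of_ne_zero (NeZero.ne N)
  have h1 : (formalEmb N (jF N)).coeff (-(N : ℤ)) ≠ 0 := by
    have := unifCusp_coeff_mul N (-1)
    rw [mul_neg_one] at this
    rw [this, ModularCurve.coeff_jq_neg_one]
    simp
  have h2 : ∀ k : ℤ, k < -(N : ℤ) → (formalEmb N (jF N)).coeff k = 0 := by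
    intro k hk
    by_cases hd : (N : ℤ) ∣ k
    · obtain ⟨m, rfl⟩ := hd
      have hm : m < -1 := by
        by_contra h
        push Not at h
        nlinarith
      rw [unifCusp_coeff_mul, ModularCurve.coeff_jq_of_lt hm]
      simp
    · rw [formalEmb_apply]
      exact ModularCurve.qExpand_coeff_of_not_dvd N _ hd
  refine le_antisymm (HahnSeries.order_le_of_coeff_ne_zero h1) ?_
  by_contra h
  push Not at h
  have h3 := h2 _ h
  rw [HahnSeries.coeff_order_eq_zero] at h3
  rw [h3] at h1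
  simp at h1

theorem unifCusp_rot_congr {ζ ζ' : ℂ} (h : ζ = ζ') (hζ : ζ ≠ 0) (hζ' : ζ' ≠ 0) :
    rot ζ hζ = rot ζ' hζ' := by
  subst h
  rfl

theorem unifCusp_E_jfun :
    (cuspChart N).E ⟨jfun, (cuspChart N).jfun_mem⟩ = formalEmb N (jF N) := by
  have h1 : evF N (MvPolynomial.X ⟨1, one_dvd N⟩) = jF N := by
    simp [evF, jF]
  rw [← (cuspChart N).Θ_jF 1, ← h1, Chart.Θ_evF, cuspExp_valHom_one]

theorem exists_localUnif_infty :
    Nonempty (LocalUnif Kb (FF N) (Q N) (jF N)⁻¹ N (MulAction.toPerm ModularGroup.T)) := by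
  have hN : 0 < N := Nat.pos_of_ne_zero (NeZero.ne N)
  have hprim : IsPrimitiveRoot (zetaN N)⁻¹ N := (isPrimitiveRoot_zetaN N).inv
  refine Chart.nonempty_localUnif (cuspChart N) ModularGroup.T (zetaN N)⁻¹ N hN hprim ?_
    (jF N)⁻¹ (formalEmb N (jF N))⁻¹ ?_ ?_
  · intro f hf hf'
    have h := cuspExp_translate N f hf (-1)
    rw [unifCusp_rot_congr (zpow_neg_one (zetaN N)) _ (hprim.ne_zero hN.ne')] at h
    refine Eq.trans ?_ h
    change cuspExp N _ = cuspExp N _
    exact congrArg (cuspExp N) (Subtype.ext (funext fun τ =>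
      congrArg (fun γ : SL(2, ℤ) => f (γ • τ)) (zpow_neg_one ModularGroup.T).symm))
  · intro g
    rw [map_inv₀, Chart.Θ_jF, unifCusp_E_jfun]
  · have h0 : formalEmb N (jF N) ≠ 0 := by
      intro h
      have := order_formalEmb_jF N
      rw [h, HahnSeries.order_zero] at this
      have hN' : (0 : ℤ) < N := by exact_mod_cast hN
      omega
    have h1 := HahnSeries.order_mul h0 (inv_ne_zero h0)
    rw [mul_inv_cancel₀ h0, HahnSeries.order_one, order_formalEmb_jF] at h1
    omega

end Fermat.Agent.S24
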