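/-
S24: `[F : ℚ̄(j)] = #(SL₂(ℤ)/Γ₀(N))`.
Recipe: apply `finrank_le_of_trace` (D1) with `K = Kb`, `C = ℂ`, `L = LaurentSeries ℂ`, `x = jF N`,
`h = genF N ⟨N, _⟩`, `A = (evF N).range`, `Θ = (cuspChart N).ΘQ`, `X = (cuspChart N).E ⟨jfun, _⟩`,
`q₀ = mk 1`:
* `hfrac` : `exists_frac`;  `hdist` : as in `Chart.Θ_inj`;
* `htrace` : `∑ q, ΘQ q (evF P) = E (∑ q, valHom (out q) P)`; the function
  `τ ↦ ∑ q, val N P ((out q)⁻¹ • τ)` is `SL₂(ℤ)`-invariant (reindex the sum by `q ↦ g⁻¹ • q`,
  `Chart.valHom_congr`), holomorphic (`discChart`-type membership: `jd_mem_Hol`, or the chart `Hol`),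
  lies in `Mer N`, so `exists_polynomial_of_invariant` (J5) applies; then `E (R(jfun)) = aeval X R`;
* `hLD` : `ΘQ (mk 1) = formalEmb N` (`ringHom_ext_evF`, `cuspExp_valHom_one`), injectivity of
  `qExpand`, and `exists_relation_of_coeffMap` (D3);
then `card_le_finrank` (D2).
-/
import Fermat.Agent.S24.Chart
import Fermat.Agent.S24.DegreeBound

set_option autoImplicit false

open UpperHalfPlane ModularForm EisensteinSeries Function CongruenceSubgroup IntermediateField
open scoped Manifold MatrixGroups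

namespace Fermat.Agent.S24

variable (N : ℕ) [NeZero N]

namespace UnifDeg

theorem val_smul_mem_Hol (P : MvPolynomial (Dv N) Kb) (g : SL(2, ℤ)) :
    (fun τ => val N P (g • τ)) ∈ Hol := by
  induction P using MvPolynomial.induction_on with
  | C a =>
    have : (fun τ : ℍ => val N (MvPolynomial.C a) (g • τ)) = fun _ => iota a := by
      funext τ; simp [val]
    rw [this]
    exact const_mem_Hol _
  | add p q hp hq =>
    have : (fun τ : ℍ => val N (p + q) (g • τ))
        = (fun τ => val N p (g • τ)) + (fun τ => val N q (g • τ)) := by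
      funext τ; simp [val]
    rw [this]
    exact Hol.add_mem hp hq
  | mul_X p d hp =>
    have : (fun τ : ℍ => val N (p * MvPolynomial.X d) (g • τ))
        = (fun τ => val N p (g • τ)) * (fun τ => jfun (dmul d (g • τ))) := by
      funext τ; simp [val]
    rw [this]
    exact Hol.mul_mem hp (jd_mem_Hol N d g)

/-- the trace function -/
noncomputable def trFun (P : MvPolynomial (Dv N) Kb) (τ : ℍ) : ℂ :=
  ∑ q : Q N, val N P ((Quotient.out q : SL(2, ℤ))⁻¹ • τ)

theorem trFun_eq (P : MvPolynomial (Dv N) Kb) :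
    (∑ q : Q N, (cuspChart N).valHom (Quotient.out q) P).1 = trFun N P := by
  funext τ
  have : ∀ s : Finset (Q N), (∑ q ∈ s, (cuspChart N).valHom (Quotient.out q) P).1 τ
      = ∑ q ∈ s, val N P ((Quotient.out q : SL(2, ℤ))⁻¹ • τ) := by
    intro s
    classical
    induction s using Finset.induction_on with
    | empty => simp
    | insert a s ha ih =>
      rw [Finset.sum_insert ha, Finset.sum_insert ha, ← ih, ← Chart.valHom_apply]
      rfl
  exact this Finset.univ

theorem mdiff_trFun (P : MvPolynomial (Dv N) Kb) : MDiff (trFun N P) := by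
  have : trFun N P = ∑ q : Q N, fun τ => val N P ((Quotient.out q : SL(2, ℤ))⁻¹ • τ) := by
    funext τ
    simp [trFun, Finset.sum_apply]
  rw [this, ← mem_Hol]
  exact sum_mem fun q _ => val_smul_mem_Hol N P _

theorem val_inv_smul_eq (P : MvPolynomial (Dv N) Kb) (g : SL(2, ℤ)) (τ : ℍ) :
    val N P (g⁻¹ • τ)
      = val N P ((Quotient.out (QuotientGroup.mk g : Q N) : SL(2, ℤ))⁻¹ • τ) := by
  rw [← (cuspChart N).valHom_apply, ← (cuspChart N).valHom_apply]
  have h : (QuotientGroup.mk g : Q N)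
      = QuotientGroup.mk (Quotient.out (QuotientGroup.mk g : Q N)) := (Quotient.out_eq _).symm
  rw [(cuspChart N).valHom_congr h]

theorem trFun_smul (P : MvPolynomial (Dv N) Kb) (γ : SL(2, ℤ)) (τ : ℍ) :
    trFun N P (γ • τ) = trFun N P τ := by
  unfold trFun
  refine Fintype.sum_equiv (MulAction.toPerm γ⁻¹) _ _ fun q => ?_
  have h1 : (Quotient.out q : SL(2, ℤ))⁻¹ • γ • τ = (γ⁻¹ * Quotient.out q)⁻¹ • τ := by
    rw [mul_inv_rev, inv_inv, mul_smul]
  rw [h1, val_inv_smul_eq]
  congr 4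
  rw [MulAction.toPerm_apply]
  conv_rhs => rw [← Quotient.out_eq q]
  rfl

theorem E_comp_constHom (X : Chart N) :
    X.E.comp X.constHom = algebraMap ℂ (LaurentSeries ℂ) := by
  ext1 c
  rw [ModularCurve.algebraMap_laurentSeries_eq_single]
  exact X.E_const c

theorem E_poly (X : Chart N) (R : Polynomial ℂ) (G : X.R) (hG : ∀ τ, G.1 τ = R.eval (jfun τ)) :
    X.E G = Polynomial.aeval (X.E ⟨jfun, X.jfun_mem⟩) R := by
  have h1 : G = Polynomial.eval₂ X.constHom ⟨jfun, X.jfun_mem⟩ R := by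
    apply Subtype.ext
    funext τ
    rw [hG]
    let evτ : X.R →+* ℂ := (Pi.evalRingHom (fun _ : ℍ => ℂ) τ).comp X.R.subtype
    have h2 := Polynomial.hom_eval₂ R X.constHom evτ ⟨jfun, X.jfun_mem⟩
    have h3 : evτ.comp X.constHom = RingHom.id ℂ := by
      ext1 c; rfl
    rw [h3] at h2
    change _ = evτ _
    rw [h2]
    simp [evτ, Polynomial.eval₂_id]
  rw [h1, Polynomial.hom_eval₂, E_comp_constHom, Polynomial.aeval_def]

theorem ΘQ_one : (cuspChart N).ΘQ (QuotientGroup.mk 1) = formalEmb N := by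
  rw [Chart.ΘQ_mk]
  apply ringHom_ext_evF N
  intro P
  rw [Chart.Θ_evF, cuspExp_valHom_one]

theorem E_jfun_eq : (cuspChart N).E ⟨jfun, (cuspChart N).jfun_mem⟩
    = ModularCurve.qExpand ℂ N (ModularCurve.coeffMap iota (jF N).1) := by
  rw [← (cuspChart N).Θ_jF 1, ← Chart.ΘQ_mk, ΘQ_one, formalEmb_apply]

theorem hLD (r : ℕ) (f : Fin r → FF N) (c : Fin r → Polynomial ℂ) (hc : ∃ i, c i ≠ 0)
    (h : ∑ i, Polynomial.aeval ((cuspChart N).E ⟨jfun, (cuspChart N).jfun_mem⟩) (c i)
      * (cuspChart N).ΘQ (QuotientGroup.mk 1) (f i) = 0) :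
    ∃ d : Fin r → Polynomial Kb, (∃ i, d i ≠ 0) ∧
      ∑ i, Polynomial.aeval (jF N) (d i) * f i = 0 := by
  rw [ΘQ_one, E_jfun_eq] at h
  have h1 : ∀ i, Polynomial.aeval
      (ModularCurve.qExpand ℂ N (ModularCurve.coeffMap iota (jF N).1)) (c i)
      = ModularCurve.qExpand ℂ N
        (Polynomial.aeval (ModularCurve.coeffMap iota (jF N).1) (c i)) := by
    intro i
    let φ : LaurentSeries ℂ →ₐ[ℂ] LaurentSeries ℂ :=
      { ModularCurve.qExpand ℂ N with
        commutes' := fun c => by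
          change ModularCurve.qExpand ℂ N (algebraMap ℂ (LaurentSeries ℂ) c)
            = algebraMap ℂ (LaurentSeries ℂ) c
          rw [ModularCurve.algebraMap_laurentSeries_eq_single, ModularCurve.qExpand_single,
            mul_zero] }
    exact Polynomial.aeval_algHom_apply φ _ _
  simp only [h1, formalEmb_apply, ← map_mul, ← map_sum] at h
  have h2 := (map_eq_zero_iff _ (ModularCurve.qExpand_injective (R := ℂ) N)).1 h
  obtain ⟨d, hd0, hd⟩ := exists_relation_of_coeffMap iota (jF N).1 r (fun i => (f i).1) c hc h2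
  refine ⟨d, hd0, ?_⟩
  apply Subtype.ext
  rw [IntermediateField.coe_zero, ← hd]
  simp only [IntermediateField.coe_sum, IntermediateField.coe_mul]
  refine Finset.sum_congr rfl fun i _ => ?_
  congr 1
  exact (Polynomial.aeval_algHom_apply (ModularCurve.modularFunctionFieldBar N).val (jF N)
    (d i)).symm

theorem main : FiniteDimensional Kb⟮jF N⟯ (FF N) ∧
    Module.finrank Kb⟮jF N⟯ (FF N) ≤ Fintype.card (Q N) := by
  refine finrank_le_of_trace (K := Kb) (F := FF N) (C := ℂ) (L := LaurentSeries ℂ) (Q := Q N)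
    (jF N) (genF N ⟨N, dvd_rfl⟩) (evF N).range ⟨MvPolynomial.X ⟨N, dvd_rfl⟩, by simp [evF]⟩ ?_
    (cuspChart N).ΘQ ((cuspChart N).E ⟨jfun, (cuspChart N).jfun_mem⟩) ?_ ?_
    (QuotientGroup.mk 1) (hLD N) (transcendental_jF N)
  · intro f
    obtain ⟨P, R, hR, hf⟩ := exists_frac N f
    exact ⟨evF N P, ⟨P, rfl⟩, evF N R, ⟨R, rfl⟩, hR, hf⟩
  · intro q q' h
    have h0 : (QuotientGroup.mk (Quotient.out q) : Q N) = QuotientGroup.mk (Quotient.out q') := by
      apply mk_eq_of_jfun_eq N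
      intro τ
      simp only [Chart.ΘQ, Chart.Θ_genF] at h
      have h2 := (cuspChart N).E_inj h
      exact congrArg (fun f => f.1 τ) h2
    rwa [show (QuotientGroup.mk (Quotient.out q) : Q N) = q from Quotient.out_eq _,
      show (QuotientGroup.mk (Quotient.out q') : Q N) = q' from Quotient.out_eq _] at h0
  · rintro _ ⟨P, rfl⟩
    have hmem := (∑ q : Q N, (cuspChart N).valHom (Quotient.out q) P).2
    obtain ⟨m, hm⟩ := (mem_Mer (N := N)).1 hmem
    obtain ⟨R, hR⟩ := exists_polynomial_of_invariant (trFun N P) (mdiff_trFun N P)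
      (trFun_smul N P) ⟨m, by
        have := ((mem_Bd (N := N)).1 hm).2.2
        rwa [trFun_eq] at this⟩
    refine ⟨R, ?_⟩
    rw [← E_poly N (cuspChart N) R (∑ q : Q N, (cuspChart N).valHom (Quotient.out q) P)
      (fun τ => by rw [trFun_eq]; exact hR τ), map_sum]
    refine Finset.sum_congr rfl fun q _ => ?_
    exact (cuspChart N).Θ_evF _ P

end UnifDeg

theorem finiteDimensional_FF : FiniteDimensional Kb⟮jF N⟯ (FF N) := (UnifDeg.main N).1

theorem finrank_FF : Module.finrank Kb⟮jF N⟯ (FF N) = Fintype.card (Q N) := by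
  have := finiteDimensional_FF N
  refine le_antisymm (UnifDeg.main N).2 ?_
  refine card_le_finrank (K := Kb) (jF N) (cuspChart N).ΘQ (cuspChart N).ΘQ_injective ?_ ?_
  · intro q q'
    rw [Chart.ΘQ, Chart.ΘQ, Chart.Θ_jF, Chart.Θ_jF]
  · intro q q' a
    rw [Chart.ΘQ, Chart.ΘQ, Chart.Θ_algebraMap, Chart.Θ_algebraMap]

end Fermat.Agent.S24
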