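/-
S24: the order of vanishing of `j - j(b)` at `b` (in the Cayley coordinate): `1`, `2` at `i`,
`3` at `ρ`.  Uses `Fermat.Agent.S20.Serre` (`deriv_E₄_ne_zero`, `deriv_E₆_ne_zero`,
`deriv_generic_ne_zero`) and `coeff_zero_tayAt`, `coeff_one_tayAt_eq_zero_iff`:
`j - 1728 = E₆²/Δ`, `j = E₄³/Δ`, `j - j(b) = (Δ(b)E₄³ - E₄(b)³Δ)/(Δ(b)Δ)`; `tayAt b` is a ring hom and
`tayAt b Δ` is a unit.
-/
import Fermat.Agent.S24.JFacts
import Fermat.Agent.S20.Serre
import Fermat.Agent.S20.L1

set_option autoImplicit false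

open UpperHalfPlane ModularForm EisensteinSeries Function CongruenceSubgroup
open scoped Manifold MatrixGroups

namespace Fermat.Agent.S24

/-- `j` as an element of `Hol` -/
noncomputable def jHol : Hol := ⟨jfun, mdiff_jfun⟩

/-- `E₄` as an element of `Hol` -/
noncomputable def jOrdE4 : Hol := ⟨⇑E₄, E₄.holo'⟩

/-- `E₆` as an element of `Hol` -/
noncomputable def jOrdE6 : Hol := ⟨⇑E₆, E₆.holo'⟩

/-- `Δ` as an element of `Hol` -/
noncomputable def jOrdDelta : Hol := ⟨ModularForm.discriminant, CuspForm.discriminant.holo'⟩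

/-- constants as elements of `Hol` -/
noncomputable def jOrdC (c : ℂ) : Hol := ⟨fun _ => c, const_mem_Hol c⟩

lemma jOrd_order_eq_one (b : ℍ) (G : Hol) (h0 : G.1 b = 0) (h1 : deriv (G.1 ∘ ofComplex) b ≠ 0) :
    (tayAt b G).order = 1 := by
  have : (tayAt b G).order = ((1 : ℕ) : ℕ∞) := by
    rw [PowerSeries.order_eq_nat]
    refine ⟨fun h => h1 ((coeff_one_tayAt_eq_zero_iff b G).mp h), fun i hi => ?_⟩
    obtain rfl : i = 0 := by omega
    rw [coeff_zero_tayAt, h0]
  simpa using this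

lemma jOrd_order_eq_zero (b : ℍ) (G : Hol) (h0 : G.1 b ≠ 0) : (tayAt b G).order = 0 := by
  have : (tayAt b G).order = ((0 : ℕ) : ℕ∞) := by
    rw [PowerSeries.order_eq_nat]
    refine ⟨?_, fun i hi => absurd hi (Nat.not_lt_zero i)⟩
    rw [coeff_zero_tayAt]
    exact h0
  simpa using this

lemma jOrd_order_Delta (b : ℍ) : (tayAt b jOrdDelta).order = 0 :=
  jOrd_order_eq_zero b jOrdDelta (discriminant_ne_zero b)

lemma jOrd_j_mul_Delta : jHol * jOrdDelta = jOrdE4 ^ 3 := by
  apply Subtype.ext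
  funext τ
  change jfun τ * discriminant τ = E₄ τ ^ 3
  rw [jfun, div_mul_cancel₀ _ (discriminant_ne_zero τ)]

theorem order_tayAt_generic (b : ℍ) (h4 : E₄ b ≠ 0) (h6 : E₆ b ≠ 0) :
    (tayAt b jHol - PowerSeries.C (jfun b)).order = 1 := by
  set G : Hol := jOrdC (discriminant b) * jOrdE4 ^ 3 - jOrdC (E₄ b ^ 3) * jOrdDelta with hG
  have hGfun : G.1 = fun w : ℍ => discriminant b * E₄ w ^ 3 - E₄ b ^ 3 * discriminant w := rfl
  have hG1 : (tayAt b G).order = 1 := by
    apply jOrd_order_eq_one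
    · rw [hGfun]; ring
    · rw [hGfun]
      exact Fermat.Agent.S20.deriv_generic_ne_zero b b h4 h6 (by ring)
  have key : (jHol - jOrdC (jfun b)) * (jOrdC (discriminant b) * jOrdDelta) = G := by
    apply Subtype.ext
    funext τ
    change (jfun τ - jfun b) * (discriminant b * discriminant τ) =
      discriminant b * E₄ τ ^ 3 - E₄ b ^ 3 * discriminant τ
    rw [jfun, jfun]
    have h1 := discriminant_ne_zero τ
    have h2 := discriminant_ne_zero b
    field_simp
  have h2 := congrArg (fun x => (tayAt b x).order) key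
  simp only [map_mul, map_sub, PowerSeries.order_mul] at h2
  rw [hG1, jOrd_order_Delta, jOrd_order_eq_zero b (jOrdC (discriminant b)) (discriminant_ne_zero b)]
    at h2
  have h3 : tayAt b (jOrdC (jfun b)) = PowerSeries.C (jfun b) := tayAt_const b _
  rw [h3] at h2
  simpa using h2

theorem E₆_I : E₆ I = 0 := Fermat.Agent.S20.E₆_I

theorem E₄_rho : E₄ rho = 0 := Fermat.Agent.S20.E₄_rho

theorem order_tayAt_I : (tayAt I jHol - PowerSeries.C 1728).order = 2 := by
  have hG1 : (tayAt I jOrdE6).order = 1 :=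
    jOrd_order_eq_one I jOrdE6 E₆_I (Fermat.Agent.S20.deriv_E₆_ne_zero I E₆_I)
  have key : (jHol - jOrdC 1728) * jOrdDelta = jOrdE6 ^ 2 := by
    apply Subtype.ext
    funext τ
    change (jfun τ - 1728) * discriminant τ = E₆ τ ^ 2
    rw [jfun, sub_mul, div_mul_cancel₀ _ (discriminant_ne_zero τ),
      discriminant_eq_E₄_cube_sub_E₆_sq]
    ring
  have h2 := congrArg (fun x => (tayAt I x).order) key
  simp only [map_mul, map_sub, map_pow, PowerSeries.order_mul, PowerSeries.order_pow] at h2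
  rw [hG1, jOrd_order_Delta] at h2
  have h3 : tayAt I (jOrdC 1728) = PowerSeries.C 1728 := tayAt_const I _
  rw [h3] at h2
  simpa using h2

theorem order_tayAt_rho : (tayAt rho jHol).order = 3 := by
  have hG1 : (tayAt rho jOrdE4).order = 1 :=
    jOrd_order_eq_one rho jOrdE4 E₄_rho (Fermat.Agent.S20.deriv_E₄_ne_zero rho E₄_rho)
  have h2 := congrArg (fun x => (tayAt rho x).order) jOrd_j_mul_Delta
  simp only [map_mul, map_pow, PowerSeries.order_mul, PowerSeries.order_pow] at h2
  rw [hG1, jOrd_order_Delta] at h2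
  simpa using h2

end Fermat.Agent.S24
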