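/-
S24: local uniformisation data above `j = c`, `c ∈ ℚ̄` (generic, `1728`, `0`), from the chart
"Taylor expansion at `b`" (`j(b) = ι c`).
Recipe: `Chart.nonempty_localUnif (discChart N b) σ ζ⁻¹ e ..` with
`(b, σ, e) = (b, 1, 1)`, `(I, S, 2)`, `(rho, S * T, 3)`;
`hσ` from `tayAt_comp` (with `σ⁻¹`, multiplier `ζ⁻¹`) and `rot_ofPowerSeries`;
`hy` from `Chart.Θ_jF`, `Chart.Θ_algebraMap`; `hu` from `JOrd`; `b` from `jfun_surjective`,
`jfun_eq_zero_iff`, `jfun_eq_1728_iff`.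
-/
import Fermat.Agent.S24.Chart
import Fermat.Agent.S24.JOrd

set_option autoImplicit false

open UpperHalfPlane ModularForm EisensteinSeries Function CongruenceSubgroup IntermediateField
open scoped Manifold MatrixGroups

namespace Fermat.Agent.S24

variable (N : ℕ) [NeZero N]

/-- the chart at `b ∈ ℍ` -/
noncomputable def discChart (b : ℍ) : Chart N where
  R := Hol
  E := (HahnSeries.ofPowerSeries ℤ ℂ).comp (tayAt b)
  const_mem c := const_mem_Hol c
  E_const c := by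
    rw [RingHom.comp_apply, tayAt_const, HahnSeries.ofPowerSeries_C]
  E_inj := HahnSeries.ofPowerSeries_injective.comp (tayAt_injective b)
  jd_mem d g := jd_mem_Hol N d g

omit [NeZero N] in
theorem unifDisc_order_ofPowerSeries (p : PowerSeries ℂ) (e : ℕ) (hp : p.order = e) :
    (HahnSeries.ofPowerSeries ℤ ℂ p).order = (e : ℤ) := by
  obtain ⟨hp1, hp2⟩ := PowerSeries.order_eq_nat.mp hp
  have hcoe : ∀ k : ℤ, (HahnSeries.ofPowerSeries ℤ ℂ p).coeff k =
      if k < 0 then 0 else PowerSeries.coeff k.natAbs p := fun k => PowerSeries.coeff_coe p k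
  have h1 : (HahnSeries.ofPowerSeries ℤ ℂ p).coeff (e : ℤ) ≠ 0 := by
    rw [hcoe, if_neg (by omega), Int.natAbs_natCast]
    exact hp1
  have h2 : HahnSeries.ofPowerSeries ℤ ℂ p ≠ 0 := by
    intro h0
    rw [h0] at h1
    exact h1 rfl
  apply le_antisymm (HahnSeries.order_le_of_coeff_ne_zero h1)
  by_contra hlt
  push Not at hlt
  apply HahnSeries.coeff_order_eq_zero.not.mpr h2
  rw [hcoe]
  split_ifs with h
  · rfl
  · exact hp2 _ (by omega)

/-- the general construction. -/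
theorem unifDisc_main (b : ℍ) (σ : SL(2, ℤ)) (ζ : ℂ) (e : ℕ) (he : 0 < e)
    (hζ : IsPrimitiveRoot ζ e) (hσ : ∀ τ : ℍ, cay b (σ • τ) = ζ * cay b τ) (c : Kb)
    (hord : (tayAt b jHol - PowerSeries.C (iota c)).order = e) :
    Nonempty (LocalUnif Kb (FF N) (Q N) (jF N - algebraMap Kb (FF N) c) e
      (MulAction.toPerm σ)) := by
  have hζ0 : ζ ≠ 0 := hζ.ne_zero he.ne'
  have hσ' : ∀ τ : ℍ, cay b (σ⁻¹ • τ) = ζ⁻¹ * cay b τ := by
    intro τ
    have := hσ (σ⁻¹ • τ)
    rw [smul_inv_smul] at this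
    rw [this, inv_mul_cancel_left₀ hζ0]
  refine Chart.nonempty_localUnif (discChart N b) σ ζ⁻¹ e he hζ.inv ?_ _
    (HahnSeries.ofPowerSeries ℤ ℂ (tayAt b jHol - PowerSeries.C (iota c))) ?_
    (unifDisc_order_ofPowerSeries _ e hord)
  · intro f hf hf'
    change HahnSeries.ofPowerSeries ℤ ℂ (tayAt b ⟨_, hf'⟩) =
      rot ζ⁻¹ _ (HahnSeries.ofPowerSeries ℤ ℂ (tayAt b ⟨f, hf⟩))
    rw [rot_ofPowerSeries]
    congr 1
    exact tayAt_comp b (fun τ => σ⁻¹ • τ) ζ⁻¹ hσ' ⟨f, hf⟩ hf'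
  · intro g
    rw [map_sub, Chart.Θ_jF, Chart.Θ_algebraMap, map_sub, HahnSeries.ofPowerSeries_C]
    rfl

theorem exists_localUnif_generic (c : Kb) (h0 : c ≠ 0) (h1 : c ≠ 1728) :
    Nonempty (LocalUnif Kb (FF N) (Q N) (jF N - algebraMap Kb (FF N) c) 1 1) := by
  obtain ⟨b, hb⟩ := jfun_surjective (iota c)
  have h4 : E₄ b ≠ 0 := by
    rw [Ne, ← jfun_eq_zero_iff, hb, map_eq_zero]
    exact h0
  have h6 : E₆ b ≠ 0 := by
    rw [Ne, ← jfun_eq_1728_iff, hb]
    intro h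
    apply h1
    apply iota.injective
    rw [h]
    exact (map_ofNat iota 1728).symm
  have h := unifDisc_main N b 1 1 1 one_pos IsPrimitiveRoot.one (by intro τ; simp) c
    (by rw [← hb]; exact_mod_cast order_tayAt_generic b h4 h6)
  have hperm : (MulAction.toPerm (1 : SL(2, ℤ)) : Equiv.Perm (Q N)) = 1 := by
    ext q; simp
  rwa [hperm] at h

theorem exists_localUnif_1728 :
    Nonempty (LocalUnif Kb (FF N) (Q N) (jF N - algebraMap Kb (FF N) 1728) 2
      (MulAction.toPerm ModularGroup.S)) := by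
  have hprim : IsPrimitiveRoot (-1 : ℂ) 2 := by
    exact IsPrimitiveRoot.neg_one 0 (by norm_num)
  refine unifDisc_main N I ModularGroup.S (-1) 2 two_pos hprim cay_I_S 1728 ?_
  have : iota (1728 : Kb) = 1728 := map_ofNat iota 1728
  rw [this]
  exact_mod_cast order_tayAt_I

theorem exists_localUnif_zero :
    Nonempty (LocalUnif Kb (FF N) (Q N) (jF N - algebraMap Kb (FF N) 0) 3
      (MulAction.toPerm (ModularGroup.S * ModularGroup.T))) := by
  obtain ⟨ζ, hζ, hσ⟩ := exists_cay_rho_ST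
  refine unifDisc_main N rho (ModularGroup.S * ModularGroup.T) ζ 3 (by norm_num) hζ hσ 0 ?_
  rw [map_zero, map_zero, sub_zero]
  exact_mod_cast order_tayAt_rho

end Fermat.Agent.S24
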