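import Mathlib

set_option autoImplicit false
set_option linter.style.haveILetI false
set_option linter.unusedSectionVars false

open Polynomial

namespace Fermat.Agent.S24

section abstractDVR

variable {K O : Type*} [Field K] [CommRing O] [IsDomain O] [Algebra K O]

/-- (b) divisibility of `q(π)` by `π^m` forces divisibility of `q` by `X^m`. -/
theorem diffInt_X_pow_dvd (π : O) (hπ : ¬ IsUnit π) (hπ0 : π ≠ 0) (m : ℕ) :
    ∀ q : K[X], π ^ m ∣ aeval π q → X ^ m ∣ q := by
  induction m with
  | zero => intro q _; simp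
  | succ m ih =>
    intro q hq
    have h0 : q.coeff 0 = 0 := by
      by_contra hc
      have h1 : π ∣ aeval π q := Dvd.dvd.trans (dvd_pow_self π (Nat.succ_ne_zero m)) hq
      have h2 : π ∣ aeval π q - algebraMap K O (q.coeff 0) := by
        have := Polynomial.sub_dvd_eval_sub π 0 (q.map (algebraMap K O))
        simpa [Polynomial.aeval_def, Polynomial.coeff_zero_eq_eval_zero,
          Polynomial.eval_map, Polynomial.eval₂_at_zero] using this
      have h3 : π ∣ algebraMap K O (q.coeff 0) := by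
        have := dvd_sub h1 h2
        simpa using this
      have h4 : IsUnit (algebraMap K O (q.coeff 0)) := (IsUnit.mk0 _ hc).map _
      exact hπ (isUnit_of_dvd_unit h3 h4)
    obtain ⟨r, rfl⟩ := Polynomial.X_dvd_iff.mpr h0
    have h5 : π ^ m ∣ aeval π r := by
      rw [map_mul, aeval_X, pow_succ'] at hq
      exact (mul_dvd_mul_iff_left hπ0).mp hq
    rw [pow_succ']
    exact mul_dvd_mul_left _ (ih r h5)

theorem diffInt_aeval_injective (π : O) (hπ : ¬ IsUnit π) (hπ0 : π ≠ 0) (q : K[X])
    (hq : aeval π q = 0) : q = 0 := by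
  have h := diffInt_X_pow_dvd π hπ hπ0 (q.natDegree + 1) q (by rw [hq]; exact dvd_zero _)
  by_contra hne
  have := Polynomial.natDegree_le_of_dvd h hne
  simp at this

/-- (a) approximation by polynomials in `π`. -/
theorem diffInt_approx (π : O) (hres : ∀ f : O, ∃ c : K, π ∣ f - algebraMap K O c) (f : O)
    (n : ℕ) : ∃ q : K[X], π ^ n ∣ f - aeval π q := by
  induction n with
  | zero => exact ⟨0, by simp⟩
  | succ n ih =>
    obtain ⟨q, g, hg⟩ := ih
    obtain ⟨c, h, hh⟩ := hres g
    refine ⟨q + C c * X ^ n, h, ?_⟩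
    simp only [map_add, map_mul, aeval_C, map_pow, aeval_X]
    have : g = algebraMap K O c + π * h := by rw [← hh]; ring
    rw [pow_succ, mul_assoc, ← sub_sub, hg, this]
    ring

/-- chain rule, existence form. -/
theorem diffInt_chain {F : Type*} [Field F] [Algebra K F] (t : F) (δ : Derivation K F F)
    (hδ : δ t = 1) (P : K[X][X]) :
    ∃ Q : K[X][X], (∀ q : K[X], derivative (P.eval q) = Q.eval q + (derivative P).eval q * derivative q)
      ∧ (∀ g : F, δ (P.eval₂ (aeval t).toRingHom g) = Q.eval₂ (aeval t).toRingHom g +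
          (derivative P).eval₂ (aeval t).toRingHom g * δ g) := by
  induction P using Polynomial.induction_on' with
  | add P1 P2 h1 h2 =>
    obtain ⟨Q1, h1a, h1b⟩ := h1
    obtain ⟨Q2, h2a, h2b⟩ := h2
    refine ⟨Q1 + Q2, ?_, ?_⟩
    · intro q
      simp only [eval_add, derivative_add, h1a, h2a]
      ring
    · intro g
      simp only [eval₂_add, h1b, h2b, map_add]
      ring
  | monomial n a =>
    refine ⟨monomial n (derivative a), ?_, ?_⟩
    · intro q
      simp only [eval_monomial, derivative_mul, derivative_monomial, derivative_pow]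
      simp only [map_natCast]
      ring
    · intro g
      simp only [eval₂_monomial, derivative_monomial, Derivation.leibniz, Derivation.leibniz_pow,
        AlgHom.toRingHom_eq_coe, RingHom.coe_coe, smul_eq_mul, Derivation.map_aeval, hδ, map_mul,
        map_natCast, nsmul_eq_mul]
      ring

/-- a polynomial relation of minimal degree is separable at `f`. -/
theorem diffInt_exists_sep [CharZero K] (π : O) (hπ : ¬ IsUnit π) (hπ0 : π ≠ 0) (f : O)
    (hf : ∃ P : K[X][X], P ≠ 0 ∧ P.eval₂ (aeval π).toRingHom f = 0) :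
    ∃ P : K[X][X], P.eval₂ (aeval π).toRingHom f = 0 ∧
      (derivative P).eval₂ (aeval π).toRingHom f ≠ 0 := by
  classical
  have hex : ∃ n : ℕ, ∃ P : K[X][X], P ≠ 0 ∧ P.eval₂ (aeval π).toRingHom f = 0 ∧ P.natDegree = n := by
    obtain ⟨P, h1, h2⟩ := hf
    exact ⟨_, P, h1, h2, rfl⟩
  obtain ⟨P, hP0, hPf, hPn⟩ := Nat.find_spec hex
  refine ⟨P, hPf, ?_⟩
  intro hd
  have hder : derivative P ≠ 0 := by
    intro h0
    have h1 := Polynomial.derivative_eq_zero.mp h0
    rw [Polynomial.natDegree_eq_zero] at h1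
    obtain ⟨a, rfl⟩ := h1
    rw [eval₂_C] at hPf
    have := diffInt_aeval_injective π hπ hπ0 a hPf
    exact hP0 (by rw [this, map_zero])
  have hlt : (derivative P).natDegree < Nat.find hex := by
    rw [← hPn]
    apply Polynomial.natDegree_derivative_lt
    intro h0
    rw [Polynomial.natDegree_eq_zero] at h0
    obtain ⟨a, rfl⟩ := h0
    exact hder (by simp)
  exact Nat.find_min hex hlt ⟨_, hder, hd, rfl⟩

/-- (D2), abstract form: the derivation `d/dπ` preserves the discrete valuation ring. -/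
theorem diffInt_main [CharZero K] [IsDiscreteValuationRing O] {F : Type*} [Field F] [Algebra K F]
    [Algebra O F] [IsScalarTower K O F] [FaithfulSMul O F] (π : O) (hπ : Irreducible π)
    (hres : ∀ f : O, ∃ c : K, π ∣ f - algebraMap K O c) (δ : Derivation K F F)
    (hδ : δ (algebraMap O F π) = 1) (f : O)
    (hf : ∃ P : K[X][X], P ≠ 0 ∧ P.eval₂ (aeval π).toRingHom f = 0) :
    ∃ g : O, δ (algebraMap O F f) = algebraMap O F g := by
  obtain ⟨P, hPf, hPd⟩ := diffInt_exists_sep π hπ.not_isUnit hπ.ne_zero f hf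
  set φ : K[X] →+* O := (aeval π : K[X] →ₐ[K] O).toRingHom with hφdef
  set t : F := algebraMap O F π with ht
  have hcomp : (algebraMap O F).comp φ = (aeval t : K[X] →ₐ[K] F).toRingHom := by
    ext a
    · simp [hφdef, ← IsScalarTower.algebraMap_apply]
    · simp [hφdef, ht]
  have hev : ∀ (R : K[X][X]) (g : O), R.eval₂ (aeval t : K[X] →ₐ[K] F).toRingHom (algebraMap O F g)
      = algebraMap O F (R.eval₂ φ g) := by
    intro R g
    rw [Polynomial.hom_eval₂, hcomp]
  obtain ⟨Q, hQ1, hQ2⟩ := diffInt_chain t δ hδ P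
  obtain ⟨M, u, hu⟩ := IsDiscreteValuationRing.eq_unit_mul_pow_irreducible hPd hπ
  obtain ⟨q, s, hs⟩ := diffInt_approx π hres f (M + 1)
  have hs2 : φ q - f = - (π ^ (M + 1) * s) := by
    rw [← hs]
    change (aeval π) q - f = _
    ring
  -- step 3
  have h3 : π ^ (2 * M + 1) ∣ φ (P.eval q) := by
    rw [← Polynomial.eval₂_at_apply, ← Polynomial.eval_map]
    obtain ⟨k, hk⟩ := Polynomial.binomExpansion (P.map φ) f (φ q - f)
    rw [add_sub_cancel, Polynomial.eval_map φ f, hPf, Polynomial.derivative_map, Polynomial.eval_map φ f,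
      hu] at hk
    rw [hk, hs2]
    refine ⟨- u * s + k * π * s ^ 2, ?_⟩
    ring
  have h4 : π ^ M ∣ φ (derivative (P.eval q)) := by
    have h41 := diffInt_X_pow_dvd π hπ.not_isUnit hπ.ne_zero _ _ h3
    have h42 := Polynomial.pow_sub_one_dvd_derivative_of_pow_dvd h41
    have h43 : (X : K[X]) ^ M ∣ derivative (P.eval q) :=
      (pow_dvd_pow _ (by omega)).trans h42
    have := map_dvd φ h43
    simpa [hφdef] using this
  have hdvd : π ^ M ∣ φ q - f := by
    refine ⟨- (π * s), ?_⟩
    rw [hs2]; ring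
  have h5 : π ^ M ∣ (derivative P).eval₂ φ (φ q) := by
    have h51 := Polynomial.sub_dvd_eval_sub (φ q) f ((derivative P).map φ)
    rw [Polynomial.eval_map, Polynomial.eval_map] at h51
    have h52 : π ^ M ∣ (derivative P).eval₂ φ f := ⟨u, by rw [hu]; ring⟩
    have := dvd_add (hdvd.trans h51) h52
    simpa using this
  have h6 : π ^ M ∣ Q.eval₂ φ (φ q) := by
    have h61 := congrArg φ (hQ1 q)
    rw [map_add, map_mul, ← Polynomial.eval₂_at_apply, ← Polynomial.eval₂_at_apply] at h61
    have : Q.eval₂ φ (φ q) = φ (derivative (P.eval q)) -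
        (derivative P).eval₂ φ (φ q) * φ (derivative q) := by rw [h61]; ring
    rw [this]
    exact dvd_sub h4 (Dvd.dvd.mul_right h5 _)
  have h7 : π ^ M ∣ Q.eval₂ φ f := by
    have h71 := Polynomial.sub_dvd_eval_sub (φ q) f (Q.map φ)
    rw [Polynomial.eval_map, Polynomial.eval_map] at h71
    have := dvd_sub h6 (hdvd.trans h71)
    simpa using this
  obtain ⟨s', hs'⟩ := h7
  have h8 := hQ2 (algebraMap O F f)
  rw [hev, hev, hev, hPf, map_zero, map_zero] at h8
  refine ⟨- ((u⁻¹ : Oˣ) : O) * s', ?_⟩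
  have hw : algebraMap O F ((derivative P).eval₂ φ f) ≠ 0 := by
    rw [Ne, FaithfulSMul.algebraMap_eq_zero_iff]
    exact hPd
  apply mul_left_cancel₀ hw
  rw [← map_mul, hu]
  have h9 : (u : O) * π ^ M * (- ((u⁻¹ : Oˣ) : O) * s') = - (π ^ M * s') := by
    have : (u : O) * ((u⁻¹ : Oˣ) : O) = 1 := Units.mul_inv u
    linear_combination (- π ^ M * s') * this
  rw [h9, ← hs', ← hu, map_neg]
  linear_combination - h8

/-- the residue field of `O` is `K` (for elements algebraic over `K(π)`), `K` algebraically closed. -/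
theorem diffInt_residue [IsAlgClosed K] [IsDiscreteValuationRing O] (π : O) (hπ : Irreducible π)
    (f : O) (hf : ∃ P : K[X][X], P ≠ 0 ∧ P.eval₂ (aeval π).toRingHom f = 0) :
    ∃ c : K, π ∣ f - algebraMap K O c := by
  obtain ⟨P, hP0, hPf⟩ := hf
  have hirr : Irreducible (C (X : K[X])) := by
    have : Prime (C (X : K[X])) := (Polynomial.prime_C_iff).mpr Polynomial.prime_X
    exact this.irreducible
  obtain ⟨m, P1, hndvd, rfl⟩ := WfDvdMonoid.max_power_factor hP0 hirr
  rw [eval₂_mul, eval₂_pow, eval₂_C] at hPf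
  have hX : (aeval π : K[X] →ₐ[K] O).toRingHom X = π := by simp
  rw [hX] at hPf
  have hP1f : P1.eval₂ (aeval π : K[X] →ₐ[K] O).toRingHom f = 0 := by
    rcases mul_eq_zero.mp hPf with h | h
    · exact absurd h (pow_ne_zero _ hπ.ne_zero)
    · exact h
  -- reduce modulo `π`
  let k := IsLocalRing.ResidueField O
  let ρ : O →+* k := IsLocalRing.residue O
  have hρπ : ρ π = 0 := by
    rw [IsLocalRing.residue_eq_zero_iff]
    exact hπ.not_isUnit
  have hcomp : ρ.comp (aeval π : K[X] →ₐ[K] O).toRingHom =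
      (algebraMap K k).comp (Polynomial.evalRingHom (0 : K)) := by
    ext a
    · simp only [RingHom.comp_apply, AlgHom.toRingHom_eq_coe, RingHom.coe_coe, aeval_C,
        coe_evalRingHom, eval_C]
      rfl
    · simp [hρπ]
  set Pbar : K[X] := P1.map (Polynomial.evalRingHom (0 : K)) with hPbar
  have hPbar0 : Pbar ≠ 0 := by
    intro h0
    apply hndvd
    rw [Polynomial.C_dvd_iff_dvd_coeff]
    intro i
    have := congrArg (fun p => p.coeff i) h0
    simp only [hPbar, coeff_map, coe_evalRingHom, coeff_zero] at this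
    rw [Polynomial.X_dvd_iff, Polynomial.coeff_zero_eq_eval_zero]
    exact this
  have hroot : aeval (ρ f) Pbar = 0 := by
    have h1 := congrArg ρ hP1f
    rw [Polynomial.hom_eval₂, hcomp, map_zero] at h1
    rw [hPbar, Polynomial.aeval_def, Polynomial.eval₂_map]
    exact h1
  have halg : IsAlgebraic K (ρ f) := ⟨Pbar, hPbar0, hroot⟩
  have hint : IsIntegral K (ρ f) := halg.isIntegral
  have hdeg := IsAlgClosed.degree_eq_one_of_irreducible K (minpoly.irreducible hint)
  obtain ⟨c, hc⟩ := minpoly.mem_range_of_degree_eq_one K (ρ f) hdeg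
  refine ⟨c, ?_⟩
  have h2 : ρ (f - algebraMap K O c) = 0 := by
    rw [map_sub, ← hc, sub_eq_zero]
    rfl
  rw [IsLocalRing.residue_eq_zero_iff, hπ.maximalIdeal_eq, Ideal.mem_span_singleton] at h2
  exact h2

end abstractDVR

end Fermat.Agent.S24
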