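/-
S24, general differential part (D1)-(D3) for the places of a function field of one variable over an
algebraically closed field of characteristic zero.
-/
import Fermat.Prelude.Def_AlgebraicCurve_CanonicalDivisor
import Fermat.Agent.S24.DiffOne
import Fermat.Agent.S24.DiffInt

set_option autoImplicit false
set_option linter.style.haveILetI false
set_option linter.unusedSectionVars false

open KaehlerDifferential Polynomial IntermediateField AlgebraicCurve

namespace Fermat.Agent.S24

variable {K F : Type*} [Field K] [Field F] [Algebra K F] (v : Place K F)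

theorem diffPlace_exists_uniformizer :
    ∃ π : v.toValuationSubring, Irreducible π ∧ v.dCoord = D K F (π : F) :=
  ⟨_, (IsDiscreteValuationRing.exists_irreducible v.toValuationSubring).choose_spec, rfl⟩

theorem diffPlace_transcendental {π : v.toValuationSubring} (hπ : Irreducible π) :
    Transcendental K (π : F) := by
  rw [transcendental_iff]
  intro q hq
  apply diffInt_aeval_injective π hπ.not_isUnit hπ.ne_zero q
  apply Subtype.ext
  have := Polynomial.aeval_algebraMap_apply F π q
  rw [show algebraMap v.toValuationSubring F π = (π : F) from rfl, hq] at this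
  exact this.symm

theorem diffPlace_relation {π : v.toValuationSubring} (hπ : Irreducible π)
    [Algebra.IsAlgebraic K⟮(π : F)⟯ F] (f : v.toValuationSubring) :
    ∃ P : K[X][X], P ≠ 0 ∧ P.eval₂ (aeval π : K[X] →ₐ[K] v.toValuationSubring).toRingHom f = 0 := by
  obtain ⟨P, hP0, hP⟩ := diff_exists_relation K (π : F) (diffPlace_transcendental v hπ) (f : F)
  refine ⟨P, hP0, ?_⟩
  apply Subtype.ext
  have hcomp : (algebraMap v.toValuationSubring F).comp
      (aeval π : K[X] →ₐ[K] v.toValuationSubring).toRingHom =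
      (aeval (π : F) : K[X] →ₐ[K] F).toRingHom := by
    ext a
    · simp [← IsScalarTower.algebraMap_apply]
    · simp
  have := Polynomial.hom_eval₂ P (aeval π : K[X] →ₐ[K] v.toValuationSubring).toRingHom
    (algebraMap v.toValuationSubring F) f
  rw [hcomp] at this
  exact this.trans hP

theorem diffPlace_mem_iff (f : F) : f ∈ v.toValuationSubring ↔ 0 ≤ v.ord f := by
  obtain ⟨π, hπ⟩ := IsDiscreteValuationRing.exists_irreducible v.toValuationSubring
  rcases eq_or_ne f 0 with rfl | hf0
  · simp [v.toValuationSubring.zero_mem]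
  constructor
  · intro hf
    have hne : (⟨f, hf⟩ : v.toValuationSubring) ≠ 0 := by
      intro h
      exact hf0 (congrArg Subtype.val h)
    obtain ⟨n, u, hu⟩ := IsDiscreteValuationRing.eq_unit_mul_pow_irreducible hne hπ
    have h1 : f = ((u : v.toValuationSubring) : F) * ((π : F) ^ (n : ℤ)) := by
      have := congrArg Subtype.val hu
      simpa using this
    rw [h1, v.ord_unit_smul_zpow u hπ]
    exact Int.natCast_nonneg n
  · intro hf
    obtain ⟨u, hu⟩ := v.exists_unit_mul_zpow hf0 hπ
    obtain ⟨n, hn⟩ := Int.eq_ofNat_of_zero_le hf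
    rw [hu, hn, zpow_natCast]
    exact v.toValuationSubring.mul_mem _ _ (u : v.toValuationSubring).2
      (v.toValuationSubring.pow_mem π.2 n)

section main

variable [IsAlgClosed K] [CharZero K] (x : F) [Algebra.IsAlgebraic K⟮x⟯ F]

include v x

theorem diffPlace_span_eq_top {π : v.toValuationSubring} (hπ : Irreducible π) :
    Submodule.span F {D K F (π : F)} = ⊤ := by
  haveI := diff_exchange K x (π : F) (diffPlace_transcendental v hπ)
  exact diff_span_eq_top K (π : F)

theorem diffPlace_D_ne_zero {π : v.toValuationSubring} (hπ : Irreducible π) :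
    D K F (π : F) ≠ 0 := by
  haveI := diff_exchange K x (π : F) (diffPlace_transcendental v hπ)
  exact diff_D_ne_zero K (π : F) (diffPlace_transcendental v hπ)

/-- (D1) -/
theorem diffPlace_dCoordGenerates : v.DCoordGenerates := by
  obtain ⟨π, hπ, hd⟩ := diffPlace_exists_uniformizer v
  exact ⟨by rw [hd]; exact diffPlace_span_eq_top v x hπ⟩

/-- (D1) -/
theorem diffPlace_nontrivial : Nontrivial Ω[F⁄K] := by
  obtain ⟨π, hπ, -⟩ := diffPlace_exists_uniformizer v
  exact ⟨⟨_, 0, diffPlace_D_ne_zero v x hπ⟩⟩

theorem diffPlace_residue {π : v.toValuationSubring} (hπ : Irreducible π)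
    (f : v.toValuationSubring) : ∃ c : K, π ∣ f - algebraMap K v.toValuationSubring c := by
  haveI := diff_exchange K x (π : F) (diffPlace_transcendental v hπ)
  exact diffInt_residue π hπ f (diffPlace_relation v hπ f)

/-- (D2) integrality. -/
theorem diffPlace_D_eq_of_mem {π : v.toValuationSubring} (hπ : Irreducible π)
    (f : v.toValuationSubring) :
    ∃ g : v.toValuationSubring, D K F (f : F) = (g : F) • D K F (π : F) := by
  haveI := diff_exchange K x (π : F) (diffPlace_transcendental v hπ)
  have ht := diffPlace_transcendental v hπ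
  obtain ⟨g, hg⟩ := diffInt_main (F := F) π hπ (diffPlace_residue v x hπ) (diffDer K (π : F) ht)
    (diffDer_self K (π : F) ht) f (diffPlace_relation v hπ f)
  refine ⟨g, ?_⟩
  rw [diff_D_eq K (π : F) ht (f : F)]
  congr 1

/-- (D3), explicit form. -/
theorem diffPlace_D_eq_of_ord_ne_zero {π : v.toValuationSubring} (hπ : Irreducible π) (f : F)
    (hf : v.ord f ≠ 0) :
    ∃ u : v.toValuationSubringˣ, D K F f =
      (((u : v.toValuationSubring) : F) * (π : F) ^ (v.ord f - 1)) • D K F (π : F) := by
  have hf0 : f ≠ 0 := by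
    rintro rfl
    exact hf v.ord_zero
  obtain ⟨u, hu⟩ := v.exists_unit_mul_zpow hf0 hπ
  obtain ⟨g, hg⟩ := diffPlace_D_eq_of_mem v x hπ (u : v.toValuationSubring)
  set m := v.ord f with hm
  have hπ0 : (π : F) ≠ 0 := by
    simpa [ne_eq, ZeroMemClass.coe_eq_zero] using hπ.ne_zero
  -- the unit `m u + π g`
  have hmK : IsUnit (algebraMap K v.toValuationSubring (m : K)) :=
    (IsUnit.mk0 (m : K) (by exact_mod_cast hf)).map _
  have hunit : IsUnit (algebraMap K v.toValuationSubring (m : K) * u + π * g) := by
    by_contra hcon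
    have h1 : algebraMap K v.toValuationSubring (m : K) * u + π * g ∈
        IsLocalRing.maximalIdeal v.toValuationSubring := hcon
    have h2 : π * g ∈ IsLocalRing.maximalIdeal v.toValuationSubring :=
      Ideal.mul_mem_right _ _ hπ.not_isUnit
    have h3 := Ideal.sub_mem _ h1 h2
    rw [add_sub_cancel_right] at h3
    exact h3 (hmK.mul u.isUnit)
  obtain ⟨w, hw⟩ := hunit
  refine ⟨w, ?_⟩
  rw [hw]
  conv_lhs => rw [hu]
  rw [Derivation.leibniz, Derivation.leibniz_zpow, hg, ← Int.cast_smul_eq_zsmul F m]
  simp only [smul_smul, ← add_smul]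
  congr 1
  have hz : (π : F) ^ m = (π : F) ^ (m - 1) * π := by
    rw [← zpow_add_one₀ hπ0]; simp
  rw [hz]
  push_cast
  have : ((algebraMap K v.toValuationSubring (m : K) : v.toValuationSubring) : F) = (m : F) := by
    rw [v.coe_algebraMap]; simp
  rw [this]
  ring

/-- (D3) `ord_v (df) = ord_v f - 1` if `ord_v f ≠ 0`. -/
theorem diffPlace_ordDifferential_D (f : F) (hf : v.ord f ≠ 0) :
    v.ordDifferential (D K F f) = v.ord f - 1 := by
  haveI := diffPlace_dCoordGenerates v x
  haveI := diffPlace_nontrivial v x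
  obtain ⟨π, hπ, hd⟩ := diffPlace_exists_uniformizer v
  obtain ⟨u, hu⟩ := diffPlace_D_eq_of_ord_ne_zero v x hπ f hf
  rw [← hd] at hu
  rw [Place.ordDifferential, v.differentialCoeff_unique hu, v.ord_unit_smul_zpow u hπ]

/-- (D3) `ord_v (df) = e - 1` if `e = ord_v (f - c) ≠ 0`. -/
theorem diffPlace_ordDifferential_D_sub (f : F) (c : K) (hf : v.ord (f - algebraMap K F c) ≠ 0) :
    v.ordDifferential (D K F f) = v.ord (f - algebraMap K F c) - 1 := by
  rw [← diffPlace_ordDifferential_D v x _ hf, map_sub, Derivation.map_algebraMap, sub_zero]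

/-- (D2) `0 ≤ ord_v (df)` if `0 ≤ ord_v f`. -/
theorem diffPlace_ordDifferential_D_nonneg (f : F) (hf : 0 ≤ v.ord f) :
    0 ≤ v.ordDifferential (D K F f) := by
  haveI := diffPlace_dCoordGenerates v x
  haveI := diffPlace_nontrivial v x
  obtain ⟨π, hπ, hd⟩ := diffPlace_exists_uniformizer v
  obtain ⟨g, hg⟩ := diffPlace_D_eq_of_mem v x hπ ⟨f, (diffPlace_mem_iff v f).mpr hf⟩
  rw [← hd] at hg
  rw [Place.ordDifferential, v.differentialCoeff_unique hg, ← diffPlace_mem_iff]
  exact g.2

theorem diffPlace_differentialCoeff_ne_zero {ω : Ω[F⁄K]} (hω : ω ≠ 0) :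
    v.differentialCoeff ω ≠ 0 := by
  haveI := diffPlace_dCoordGenerates v x
  intro h
  apply hω
  rw [← v.differentialCoeff_smul_dCoord ω, h, zero_smul]

theorem diffPlace_ordDifferential_smul {g : F} (hg : g ≠ 0) {ω : Ω[F⁄K]} (hω : ω ≠ 0) :
    v.ordDifferential (g • ω) = v.ord g + v.ordDifferential ω := by
  haveI := diffPlace_dCoordGenerates v x
  haveI := diffPlace_nontrivial v x
  exact v.ordDifferential_smul hg (diffPlace_differentialCoeff_ne_zero v x hω)

/-- every element of `O_v` is congruent to a constant. -/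
theorem diffPlace_exists_const (f : F) (hf : 0 ≤ v.ord f) :
    ∃ c : K, f = algebraMap K F c ∨ 0 < v.ord (f - algebraMap K F c) := by
  obtain ⟨π, hπ⟩ := IsDiscreteValuationRing.exists_irreducible v.toValuationSubring
  obtain ⟨c, h, hh⟩ := diffPlace_residue v x hπ ⟨f, (diffPlace_mem_iff v f).mpr hf⟩
  refine ⟨c, ?_⟩
  by_cases h0 : f = algebraMap K F c
  · exact Or.inl h0
  right
  have h1 : f - algebraMap K F c = (π : F) * (h : F) := congrArg Subtype.val hh
  have hne : f - algebraMap K F c ≠ 0 := sub_ne_zero.mpr h0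
  rw [h1] at hne ⊢
  rw [v.ord_mul (left_ne_zero_of_mul hne) (right_ne_zero_of_mul hne), v.ord_coe_irreducible hπ]
  have := (diffPlace_mem_iff v (h : F)).mp h.2
  omega

end main

end Fermat.Agent.S24
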