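/-
S24, general function fields, part 1: places of `F/K` versus maximal ideals of a Dedekind domain
with fraction field `F`; basic lemmas on `Place.ord`.
-/
import Mathlib
import Fermat.Prelude.Def_AlgebraicCurve_DivisorClassGroup
import Fermat.Prelude.Def_AlgebraicCurve_Repartitions

set_option autoImplicit false

namespace Fermat.Agent.S24

open AlgebraicCurve IsDedekindDomain WithZero

variable {K F : Type*} [Field K] [Field F] [Algebra K F]

lemma ff_lt_one_iff_le_exp {a : ℤᵐ⁰} : a < 1 ↔ a ≤ exp (-1 : ℤ) := by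
  rcases eq_or_ne a 0 with rfl | ha
  · simp
  · obtain ⟨n, rfl⟩ : ∃ n : ℤ, a = exp n := ⟨log a, (exp_log ha).symm⟩
    rw [← exp_zero, exp_lt_exp, exp_le_exp]
    omega

/-- A normalised `ℤᵐ⁰`-valued valuation with the same valuation ring as the place `v` is
`exp (- v.ord)`. -/
lemma valuation_eq_exp_neg_ord (v : Place K F) (w : Valuation F ℤᵐ⁰)
    (hw : w.valuationSubring = v.toValuationSubring) (hπ : ∃ π, w π = exp (-1 : ℤ))
    {f : F} (hf : f ≠ 0) : w f = exp (-(v.ord f)) := by
  obtain ⟨ϖ, hϖ⟩ := IsDiscreteValuationRing.exists_irreducible v.toValuationSubring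
  have hmem : ∀ g : F, g ∈ v.toValuationSubring ↔ w g ≤ 1 := by
    intro g
    rw [← hw]
    exact Valuation.mem_valuationSubring_iff _ _
  have hunit : ∀ u : v.toValuationSubringˣ, w ((u : v.toValuationSubring) : F) = 1 := by
    intro u
    have h1 : w ((u : v.toValuationSubring) : F) ≤ 1 := (hmem _).mp (u : v.toValuationSubring).2
    have h2 : w (((u⁻¹ : v.toValuationSubringˣ) : v.toValuationSubring) : F) ≤ 1 :=
      (hmem _).mp ((u⁻¹ : v.toValuationSubringˣ) : v.toValuationSubring).2
    have h3 : w ((u : v.toValuationSubring) : F) *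
        w (((u⁻¹ : v.toValuationSubringˣ) : v.toValuationSubring) : F) = 1 := by
      rw [← map_mul, ← MulMemClass.coe_mul, Units.mul_inv]
      simp
    exact le_antisymm h1 (by
      by_contra hlt
      rw [not_le] at hlt
      have : w ((u : v.toValuationSubring) : F) *
        w (((u⁻¹ : v.toValuationSubringˣ) : v.toValuationSubring) : F) < 1 :=
        mul_lt_one_of_lt_of_le hlt h2
      exact absurd h3 this.ne)
  have hϖ0 : (ϖ : F) ≠ 0 := by
    simpa [ne_eq, ZeroMemClass.coe_eq_zero] using hϖ.ne_zero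
  -- `w ϖ < 1`
  have hϖlt : w (ϖ : F) < 1 := by
    have h1 : w (ϖ : F) ≤ 1 := (hmem _).mp ϖ.2
    refine lt_of_le_of_ne h1 fun h => hϖ.not_isUnit ?_
    have h2 : (ϖ : F)⁻¹ ∈ v.toValuationSubring := by
      rw [hmem, map_inv₀, h, inv_one]
    exact ⟨⟨ϖ, ⟨(ϖ : F)⁻¹, h2⟩, by ext; simp [hϖ0], by ext; simp [hϖ0]⟩, rfl⟩
  have hgen : ∀ g : F, g ≠ 0 → w g = w (ϖ : F) ^ (v.ord g) := by
    intro g hg
    obtain ⟨u, hu⟩ := v.exists_unit_mul_zpow hg hϖ
    conv_lhs => rw [hu]
    rw [map_mul, hunit, one_mul, map_zpow₀]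
  have hϖ1 : w (ϖ : F) = exp (-1 : ℤ) := by
    obtain ⟨π, hπ⟩ := hπ
    have hπ0 : π ≠ 0 := by
      intro h
      rw [h, map_zero] at hπ
      exact absurd hπ.symm (by simp)
    have h1 := hgen π hπ0
    rw [hπ] at h1
    have hw0 : w (ϖ : F) ≠ 0 := (Valuation.ne_zero_iff _).mpr hϖ0
    obtain ⟨n, hn⟩ : ∃ n : ℤ, w (ϖ : F) = exp n := ⟨log _, (exp_log hw0).symm⟩
    rw [hn, ← exp_zsmul, exp_inj] at h1
    rw [hn, ← exp_zero, exp_lt_exp] at hϖlt
    rw [hn, exp_inj]
    -- `-1 = ord π * n`, `n < 0`
    have h2 : v.ord π * n = -1 := by simpa using h1.symm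
    have h3 : n ∣ 1 := ⟨-(v.ord π), by linarith⟩
    rcases Int.isUnit_iff.mp (isUnit_of_dvd_one h3) with h | h <;> omega
  rw [hgen f hf, hϖ1, ← exp_zsmul]
  simp

section Dedekind

variable (K) (B : Type*) [CommRing B] [IsDedekindDomain B] [Algebra K B] [Algebra B F]
  [IsScalarTower K B F] [IsFractionRing B F]

/-- The place of `F` attached to a maximal ideal of a Dedekind domain `B ⊆ F` with fraction
field `F`. -/
noncomputable def placeOfPrime (P : HeightOneSpectrum B) : Place K F where
  toValuationSubring := (P.valuation F).valuationSubring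
  algebraMap_mem' a := by
    rw [IsScalarTower.algebraMap_apply K B F]
    exact P.valuation_le_one _
  ne_top' := by
    simp only [ne_eq, Valuation.valuationSubring_eq_top_iff, not_not]
    infer_instance
  isPrincipalIdealRing' := by
    rw [← HeightOneSpectrum.valuationSubringAtPrime_eq_valuationSubring]
    have : IsDiscreteValuationRing (HeightOneSpectrum.valuationSubringAtPrime F P) :=
      IsLocalization.AtPrime.isDiscreteValuationRing_of_dedekind_domain B P.ne_bot _
    infer_instance

variable {B}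

lemma valuation_eq_exp_neg_ord_placeOfPrime (P : HeightOneSpectrum B) {f : F} (hf : f ≠ 0) :
    P.valuation F f = exp (-((placeOfPrime K B P).ord f)) :=
  valuation_eq_exp_neg_ord (placeOfPrime K B P) (P.valuation F) rfl
    (P.valuation_exists_uniformizer F) hf

lemma placeOfPrime_injective :
    Function.Injective (placeOfPrime K B : HeightOneSpectrum B → Place K F) := by
  intro P Q h
  apply HeightOneSpectrum.eq_of_valuation_isEquiv_valuation (K := F)
  rw [Valuation.isEquiv_iff_valuationSubring]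
  exact congrArg Place.toValuationSubring h

variable {K}

lemma exists_prime_of_place (v : Place K F)
    (hB : ∀ b : B, algebraMap B F b ∈ v.toValuationSubring) :
    ∃ P : HeightOneSpectrum B, placeOfPrime K B P = v := by
  let φ : B →+* v.toValuationSubring :=
    (algebraMap B F).codRestrict v.toValuationSubring.toSubring hB
  have hφ : ∀ b, (φ b : F) = algebraMap B F b := fun b => rfl
  let P0 : Ideal B := (IsLocalRing.maximalIdeal v.toValuationSubring).comap φ
  have hP0 : P0.IsPrime := Ideal.comap_isPrime _ _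
  have hne : P0 ≠ ⊥ := by
    intro hbot
    apply v.ne_top'
    refine SetLike.ext fun f => ⟨fun _ => ValuationSubring.mem_top f, fun _ => ?_⟩
    obtain ⟨a, s, hs, rfl⟩ := IsFractionRing.div_surjective (A := B) f
    have hs0 : s ≠ 0 := nonZeroDivisors.ne_zero hs
    have hsu : IsUnit (φ s) := by
      by_contra hnu
      have : s ∈ P0 := (IsLocalRing.mem_maximalIdeal _).mpr hnu
      rw [hbot, Ideal.mem_bot] at this
      exact hs0 this
    obtain ⟨u, hu⟩ := hsu
    have : algebraMap B F a / algebraMap B F s =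
        ((φ a * ((u⁻¹ : v.toValuationSubringˣ) : v.toValuationSubring) :
          v.toValuationSubring) : F) := by
      have h1 : ((u : v.toValuationSubring) : F) = algebraMap B F s := by rw [hu, hφ]
      have h2 : ((u : v.toValuationSubring) : F) *
          (((u⁻¹ : v.toValuationSubringˣ) : v.toValuationSubring) : F) = 1 := by
        rw [← MulMemClass.coe_mul, Units.mul_inv]; rfl
      have h3 : algebraMap B F s ≠ 0 := by
        simpa using hs0
      rw [MulMemClass.coe_mul, hφ, div_eq_iff h3, mul_assoc, mul_comm _ (algebraMap B F s), ← h1,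
        h2, mul_one]
    rw [this]
    exact SetLike.coe_mem _
  let P : HeightOneSpectrum B := ⟨P0, hP0, hne⟩
  refine ⟨P, Place.ext ?_⟩
  change (P.valuation F).valuationSubring = v.toValuationSubring
  rw [← HeightOneSpectrum.valuationSubringAtPrime_eq_valuationSubring]
  refine ValuationSubring.eq_of_le_of_ne_top _ ?_ v.ne_top'
  intro f hf
  rw [HeightOneSpectrum.valuationSubringAtPrime_eq_valuationSubring] at hf
  obtain ⟨n, d, hnd⟩ := P.exists_primeCompl_mul_eq_of_integer f hf
  have hdu : IsUnit (φ d) := by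
    by_contra hnu
    exact d.2 ((IsLocalRing.mem_maximalIdeal _).mpr hnu)
  obtain ⟨u, hu⟩ := hdu
  have h1 : ((u : v.toValuationSubring) : F) = algebraMap B F d := by rw [hu, hφ]
  have h2 : ((u : v.toValuationSubring) : F) *
      (((u⁻¹ : v.toValuationSubringˣ) : v.toValuationSubring) : F) = 1 := by
    rw [← MulMemClass.coe_mul, Units.mul_inv]; rfl
  have : f = ((φ n * ((u⁻¹ : v.toValuationSubringˣ) : v.toValuationSubring) :
      v.toValuationSubring) : F) := by
    rw [MulMemClass.coe_mul, hφ, ← hnd, ← h1, mul_assoc, h2, mul_one]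
  rw [this]
  exact SetLike.coe_mem _

end Dedekind

section Basic

variable (v : Place K F)

lemma ff_mem_iff {f : F} : f ∈ v.toValuationSubring ↔ f = 0 ∨ 0 ≤ v.ord f := by
  constructor
  · intro h
    exact v.adicValuation_le_one_iff.mp (v.adicValuation_le_one_of_mem h)
  · rintro (rfl | h)
    · exact zero_mem _
    · rcases eq_or_ne f 0 with rfl | hf
      · exact zero_mem _
      obtain ⟨ϖ, hϖ⟩ := IsDiscreteValuationRing.exists_irreducible v.toValuationSubring
      obtain ⟨u, hu⟩ := v.exists_unit_mul_zpow hf hϖ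
      rw [hu]
      obtain ⟨n, hn⟩ := Int.eq_ofNat_of_zero_le h
      rw [hn, zpow_natCast]
      exact mul_mem (SetLike.coe_mem _) (pow_mem (SetLike.coe_mem _) n)

lemma ff_mem_of_ord_nonneg {f : F} (h : 0 ≤ v.ord f) : f ∈ v.toValuationSubring :=
  (ff_mem_iff v).mpr (Or.inr h)

lemma ff_ord_nonneg_of_mem {f : F} (h : f ∈ v.toValuationSubring) : 0 ≤ v.ord f := by
  rcases (ff_mem_iff v).mp h with rfl | h
  · simp
  · exact h

lemma ff_ord_algebraMap (a : K) : v.ord (algebraMap K F a) = 0 := by
  rcases eq_or_ne a 0 with rfl | ha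
  · simp
  have h1 := ff_ord_nonneg_of_mem v (v.algebraMap_mem' a)
  have h2 := ff_ord_nonneg_of_mem v (v.algebraMap_mem' a⁻¹)
  rw [map_inv₀, v.ord_inv] at h2
  omega

lemma ff_ord_neg (f : F) : v.ord (-f) = v.ord f := by
  simp [Place.ord]

/-- ultrametric inequality -/
lemma ff_le_ord_add {f g : F} {n : ℤ} (hfg : f + g ≠ 0) (hf : f = 0 ∨ n ≤ v.ord f)
    (hg : g = 0 ∨ n ≤ v.ord g) : n ≤ v.ord (f + g) := by
  have h1 : v.adicValuation f ≤ exp (-n) := v.adicValuation_le_exp_iff.mpr (by simpa using hf)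
  have h2 : v.adicValuation g ≤ exp (-n) := v.adicValuation_le_exp_iff.mpr (by simpa using hg)
  have h3 : v.adicValuation (f + g) ≤ exp (-n) := Valuation.map_add_le _ h1 h2
  rcases v.adicValuation_le_exp_iff.mp h3 with h | h
  · exact absurd h hfg
  · simpa using h

/-- if `ord f < ord g` then `ord (f + g) = ord f`. -/
lemma ff_ord_add_eq {f g : F} (hf : f ≠ 0) (hg : g = 0 ∨ v.ord f < v.ord g) :
    v.ord (f + g) = v.ord f := by
  rcases eq_or_ne g 0 with rfl | hg0
  · simp
  have hg' : v.ord f < v.ord g := hg.resolve_left hg0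
  have h1 : v.adicValuation g < v.adicValuation f := by
    rw [v.adicValuation_eq_exp_neg_ord hf, v.adicValuation_eq_exp_neg_ord hg0, exp_lt_exp]
    omega
  have h2 : v.adicValuation (f + g) = v.adicValuation f := Valuation.map_add_eq_of_lt_left _ h1
  simp only [Place.ord, h2]

lemma ff_mem_maximalIdeal_iff (a : v.toValuationSubring) :
    a ∈ IsLocalRing.maximalIdeal v.toValuationSubring ↔ a = 0 ∨ 0 < v.ord (a : F) := by
  rcases eq_or_ne a 0 with rfl | ha
  · simp
  have ha' : (a : F) ≠ 0 := by simpa using ha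
  rw [or_iff_right ha, IsLocalRing.mem_maximalIdeal, mem_nonunits_iff,
    ← v.adicValuation_coe_eq_one_iff, v.adicValuation_eq_exp_neg_ord ha', ← exp_zero, exp_inj]
  have := ff_ord_nonneg_of_mem v a.2
  omega

end Basic

end Fermat.Agent.S24
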