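/-
S24: counting orbits of a permutation of prime order; orbits of `zpowers g` versus `zpowers (toPerm g)`.
-/
import Mathlib

set_option autoImplicit false

namespace Fermat.Agent.S24

namespace OrbitCount

/-- the orbits of `zpowers (toPerm g)` are those of `zpowers g`. -/
theorem card_orbits_toPerm {G X : Type*} [Group G] [MulAction G X] (g : G) :
    Nat.card (MulAction.orbitRel.Quotient (Subgroup.zpowers (MulAction.toPerm g : Equiv.Perm X)) X)
      = Nat.card (MulAction.orbitRel.Quotient (Subgroup.zpowers g) X) := by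
  have key : ∀ (k : ℤ) (x : X), ((MulAction.toPerm g : Equiv.Perm X) ^ k) x = (g ^ k) • x := by
    intro k x
    have : (MulAction.toPerm g : Equiv.Perm X) ^ k = MulAction.toPerm (g ^ k) :=
      (map_zpow (MulAction.toPermHom G X) g k).symm
    rw [this]
    rfl
  refine Nat.card_congr (Quotient.congr (Equiv.refl X) ?_)
  intro a b
  change (MulAction.orbitRel _ X) a b ↔ (MulAction.orbitRel _ X) a b
  rw [MulAction.orbitRel_apply, MulAction.orbitRel_apply]
  constructor
  · rintro ⟨⟨σ, hσ⟩, h⟩
    obtain ⟨k, rfl⟩ := Subgroup.mem_zpowers_iff.1 hσ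
    refine ⟨⟨g ^ k, Subgroup.zpow_mem_zpowers g k⟩, ?_⟩
    rw [← h]
    exact (key k b).symm
  · rintro ⟨⟨σ, hσ⟩, h⟩
    obtain ⟨k, rfl⟩ := Subgroup.mem_zpowers_iff.1 hσ
    refine ⟨⟨_, Subgroup.zpow_mem_zpowers (MulAction.toPerm g : Equiv.Perm X) k⟩, ?_⟩
    rw [← h]
    exact key k b

/-- number of orbits of a permutation `π` with `π ^ p = 1`, `p` prime. -/
theorem card_orbits_of_pow_prime {X : Type*} [Fintype X] (π : Equiv.Perm X) (p : ℕ)
    (hp : p.Prime) (hπ : π ^ p = 1) :
    p * Nat.card (MulAction.orbitRel.Quotient (Subgroup.zpowers π) X)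
      = Fintype.card X + (p - 1) * Nat.card {x : X // π x = x} := by
  classical
  let _ : Fintype (MulAction.orbitRel.Quotient (Subgroup.zpowers π) X) := Fintype.ofFinite _
  let c : X → ℕ := fun x => if π x = x then p else 1
  have h1 : ∑ x, c x = Fintype.card X + (p - 1) * Nat.card {x : X // π x = x} := by
    have e : ∀ x, c x = 1 + (if π x = x then (p - 1) else 0) := by
      intro x
      simp only [c]
      split_ifs
      · have := hp.one_lt; omega
      · rfl
    simp only [e, Finset.sum_add_distrib, Finset.sum_const, Finset.card_univ, smul_eq_mul, mul_one]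
    rw [← Finset.sum_filter, Finset.sum_const, smul_eq_mul, Nat.card_eq_fintype_card,
      Fintype.card_subtype, mul_comm]
  have h2 : ∑ x, c x = ∑ ω : MulAction.orbitRel.Quotient (Subgroup.zpowers π) X,
      ∑ x : ω.orbit, c x := by
    rw [← Fintype.sum_sigma' (fun (ω : MulAction.orbitRel.Quotient (Subgroup.zpowers π) X)
      (x : ω.orbit) => c (x : X))]
    exact Fintype.sum_equiv (MulAction.selfEquivSigmaOrbits' (Subgroup.zpowers π) X) _ _
      (fun x => rfl)
  have h3 : ∀ ω : MulAction.orbitRel.Quotient (Subgroup.zpowers π) X,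
      ∑ x : ω.orbit, c x = p := by
    intro ω
    induction ω using Quotient.inductionOn' with
    | h x₀ =>
      change ∑ x : MulAction.orbit (Subgroup.zpowers π) x₀, c x = p
      have hcard := MulAction.minimalPeriod_eq_card (a := π) (b := x₀)
      have hdvd : Function.minimalPeriod (π • ·) x₀ ∣ p :=
        (MulAction.pow_smul_eq_iff_minimalPeriod_dvd (a := π) (b := x₀) (n := p)).1 (by
          rw [hπ, one_smul])
      rcases (Nat.dvd_prime hp).1 hdvd with hw | hw
      · have hfix : π x₀ = x₀ := Function.minimalPeriod_eq_one_iff_isFixedPt.1 hw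
        rw [hw] at hcard
        obtain ⟨z, hz⟩ := Fintype.card_eq_one_iff.1 hcard.symm
        rw [Fintype.sum_eq_single z (fun y hy => absurd (hz y) hy)]
        have : z = ⟨x₀, MulAction.mem_orbit_self x₀⟩ := (hz _).symm
        rw [this]
        simp only [c]
        rw [if_pos hfix]
      · have hne : ∀ x : MulAction.orbit (Subgroup.zpowers π) x₀, c x = 1 := by
          rintro ⟨x, ⟨σ, hσ⟩, rfl⟩
          obtain ⟨k, rfl⟩ := Subgroup.mem_zpowers_iff.1 hσ
          simp only [c]
          rw [if_neg]
          intro hfix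
          have h4 : π ((π ^ k) x₀) = (π ^ k) x₀ := hfix
          have h5 : (π ^ k) (π x₀) = (π ^ k) x₀ := by
            rw [← Equiv.Perm.mul_apply, ← zpow_add_one, add_comm, zpow_one_add,
              Equiv.Perm.mul_apply]
            exact h4
          have h6 : π x₀ = x₀ := (π ^ k).injective h5
          have h7 : Function.minimalPeriod (π • ·) x₀ = 1 :=
            Function.minimalPeriod_eq_one_iff_isFixedPt.2 h6
          rw [hw] at h7
          exact hp.one_lt.ne' h7
        rw [Finset.sum_congr rfl (fun x _ => hne x), Finset.sum_const, Finset.card_univ, ← hcard,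
          hw]
        simp
  rw [← h1, h2, Finset.sum_congr rfl (fun ω _ => h3 ω), Finset.sum_const, Finset.card_univ,
    Nat.card_eq_fintype_card, smul_eq_mul, mul_comm]

end OrbitCount

end Fermat.Agent.S24
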