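/-
S24: the genus from local uniformisation data (abstract form of the final step).
-/
import Fermat.Agent.S24.Canon
import Fermat.Agent.S24.LocalCount
import Fermat.Agent.S24.OrbitCount
import Fermat.Agent.S20

set_option autoImplicit false

open AlgebraicCurve IntermediateField KaehlerDifferential

namespace Fermat.Agent.S24

namespace FinalAbs

section Abstract

variable {K F : Type*} [Field K] [Field F] [Algebra K F] [IsAlgClosed K] [CharZero K]
variable {Q : Type*} [Fintype Q]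

/-- a zero of `y` is parametrised, given local uniformisation data for `y`. -/
theorem hasParam_of_unif {y : F} {e : ℕ} {π : Equiv.Perm Q} (U : LocalUnif K F Q y e π)
    (hy : Transcendental K y) [FiniteDimensional K⟮y⟯ F]
    (hn : Module.finrank K⟮y⟯ F = Fintype.card Q) (v : Place K F) (hv : 0 < v.ord y) :
    HasParam v := by
  obtain ⟨q, m, hm, h⟩ := U.exists_param hy hn v hv
  exact ⟨U.Θ q, m, hm, fun a => ⟨U.ι a, U.const q a⟩, h⟩

theorem ord_eq_one_of_unif {y : F} {π : Equiv.Perm Q} (U : LocalUnif K F Q y 1 π)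
    (hy : Transcendental K y) [FiniteDimensional K⟮y⟯ F]
    (hn : Module.finrank K⟮y⟯ F = Fintype.card Q) (v : Place K F) (hv : 0 < v.ord y) :
    v.ord y = 1 := by
  obtain ⟨q, m, hm, h⟩ := U.exists_param hy hn v hv
  have h1 := h y (ne_zero_of_ord_ne_zero v hv.ne')
  rw [U.order_y] at h1
  have h2 : (m : ℤ) * v.ord y = 1 := by rw [← h1]; simp
  exact Int.eq_one_of_mul_eq_one_left hv.le h2

theorem degree_of_unif (x : F) (hx : Transcendental K x) [FiniteDimensional K⟮x⟯ F]
    [HasCanonicalDivisor (K := K) (F := F)]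
    (hn : Module.finrank K⟮x⟯ F = Fintype.card Q) (S : Finset K) (o : K → ℕ) (oinf : ℕ)
    (hU : ∀ c : K, ∃ (e : ℕ) (π : Equiv.Perm Q),
      Nonempty (LocalUnif K F Q (x - algebraMap K F c) e π) ∧ (c ∉ S → e = 1) ∧
      (c ∈ S → Nat.card (MulAction.orbitRel.Quotient (Subgroup.zpowers π) Q) = o c))
    (hUinf : ∃ (e : ℕ) (π : Equiv.Perm Q), Nonempty (LocalUnif K F Q x⁻¹ e π) ∧
      Nat.card (MulAction.orbitRel.Quotient (Subgroup.zpowers π) Q) = oinf) :
    (∃ ω : Ω[F⁄K], ω ≠ 0) ∧ ∀ {ω : Ω[F⁄K]} (hω : ω ≠ 0),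
      Divisor.degree (canonicalDivisorOf hω) =
        ∑ c ∈ S, ((Fintype.card Q : ℤ) - (o c : ℤ)) - (Fintype.card Q : ℤ) - (oinf : ℤ) := by
  -- transport of the finiteness data
  have hsub : ∀ c : K, K⟮x - algebraMap K F c⟯ = K⟮x⟯ := Canon.adjoin_sub x
  have hinv : K⟮x⁻¹⟯ = K⟮x⟯ := Canon.adjoin_inv x
  have hfin : ∀ c : K, FiniteDimensional K⟮x - algebraMap K F c⟯ F := by
    intro c; rw [hsub c]; infer_instance
  have hfin' : FiniteDimensional K⟮x⁻¹⟯ F := by rw [hinv]; infer_instance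
  have hnc : ∀ c : K, Module.finrank K⟮x - algebraMap K F c⟯ F = Fintype.card Q := by
    intro c; rw [hsub c]; exact hn
  have hn' : Module.finrank K⟮x⁻¹⟯ F = Fintype.card Q := by rw [hinv]; exact hn
  have hparam : ∀ v : Place K F, HasParam v := by
    intro v
    rcases lt_or_ge (v.ord x) 0 with hv | hv
    · obtain ⟨e, π, ⟨U⟩, _⟩ := hUinf
      exact hasParam_of_unif U (Canon.transcendental_inv hx) hn' v (by rw [v.ord_inv]; omega)
    · obtain ⟨c, hc⟩ := exists_center x hx v hv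
      obtain ⟨e, π, ⟨U⟩, _⟩ := hU c
      exact hasParam_of_unif U (Canon.transcendental_sub hx c) (hnc c) v hc
  have hS : ∀ c : K, c ∉ S → ∀ v : Place K F, 0 < v.ord (x - algebraMap K F c) →
      v.ord (x - algebraMap K F c) = 1 := by
    intro c hc v hv
    obtain ⟨e, π, ⟨U⟩, he, _⟩ := hU c
    obtain rfl := he hc
    exact ord_eq_one_of_unif U (Canon.transcendental_sub hx c) (hnc c) v hv
  refine ⟨exists_differential_ne_zero x hx hparam, fun {ω} hω => ?_⟩
  rw [degree_canonicalDivisorOf x hx hparam S hS hω, hn]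
  have h1 : ∀ c ∈ S, Nat.card {v : Place K F // 0 < v.ord (x - algebraMap K F c)} = o c := by
    intro c hc
    obtain ⟨e, π, ⟨U⟩, _, ho⟩ := hU c
    rw [U.card_places (Canon.transcendental_sub hx c) (hnc c), ho hc]
  have h2 : Nat.card {v : Place K F // v.ord x < 0} = oinf := by
    obtain ⟨e, π, ⟨U⟩, ho⟩ := hUinf
    rw [← ho, ← U.card_places (Canon.transcendental_inv hx) hn']
    refine Nat.card_congr (Equiv.subtypeEquivRight fun v => ?_)
    rw [v.ord_inv]; omega
  rw [h2, Finset.sum_congr rfl (fun c hc => by rw [h1 c hc])]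

end Abstract

open scoped MatrixGroups
open CongruenceSubgroup

theorem neg_one_smul' (N : ℕ) (q : Q N) : (-1 : SL(2, ℤ)) • q = q := by
  induction q using QuotientGroup.induction_on with
  | H g =>
    rw [Fermat.Agent.S20.combFixed_smul_mk_eq_iff]
    have h1 : ((-1 : SL(2, ℤ)) * g) 0 0 = - g 0 0 := by simp
    have h2 : ((-1 : SL(2, ℤ)) * g) 1 0 = - g 1 0 := by simp
    rw [h1, h2]
    exact ⟨0, by ring⟩

theorem S_sq : (ModularGroup.S) ^ 2 = (-1 : SL(2, ℤ)) := by
  ext i j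
  fin_cases i <;> fin_cases j <;>
    simp [ModularGroup.S, pow_succ, Matrix.mul_apply, Fin.sum_univ_two]

theorem ST_cube : (ModularGroup.S * ModularGroup.T) ^ 3 = (-1 : SL(2, ℤ)) := by
  ext i j
  fin_cases i <;> fin_cases j <;>
    simp [ModularGroup.S, ModularGroup.T, pow_succ, Matrix.mul_apply, Fin.sum_univ_two]

theorem toPerm_pow_eq_one (N : ℕ) (g : SL(2, ℤ)) (k : ℕ) (h : g ^ k = -1) :
    (MulAction.toPerm g : Equiv.Perm (Q N)) ^ k = 1 := by
  have : (MulAction.toPerm g : Equiv.Perm (Q N)) ^ k = MulAction.toPerm (g ^ k) :=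
    (map_pow (MulAction.toPermHom SL(2, ℤ) (Q N)) g k).symm
  rw [this, h]
  ext q
  exact neg_one_smul' N q

/-- the arithmetic of the genus formula -/
theorem arith (n o2 o3 oinf f2 f3 g : ℕ) (h2 : 2 * o2 = n + (2 - 1) * f2)
    (h3 : 3 * o3 = n + (3 - 1) * f3)
    (hg : (g : ℚ) = 1 + (n : ℚ) / 12 - (f2 : ℚ) / 4 - (f3 : ℚ) / 3 - (oinf : ℚ) / 2) :
    ((((n : ℤ) - (o3 : ℤ)) + ((n : ℤ) - (o2 : ℤ)) - (n : ℤ) - (oinf : ℤ) + 2).toNat / 2 : ℕ) = g := by
  have hg' : (12 * g + 3 * f2 + 4 * f3 + 6 * oinf : ℚ) = 12 + n := by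
    rw [hg]; ring
  have hg'' : 12 * g + 3 * f2 + 4 * f3 + 6 * oinf = 12 + n := by exact_mod_cast hg'
  have : ((n : ℤ) - (o3 : ℤ)) + ((n : ℤ) - (o2 : ℤ)) - (n : ℤ) - (oinf : ℤ) + 2 = 2 * (g : ℤ) := by
    omega
  rw [this]
  omega

end FinalAbs

open scoped MatrixGroups in
/-- the genus of the function field of `X₀(N)`, from the local uniformisation data. -/
theorem genus_eq_of_unif (N : ℕ) [NeZero N] [HasCanonicalDivisor (K := Kb) (F := FF N)]
    (htr : Transcendental Kb (jF N)) (hfin : FiniteDimensional Kb⟮jF N⟯ (FF N))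
    (hn : Module.finrank Kb⟮jF N⟯ (FF N) = Nat.card (Q N))
    (hgen : ∀ c : Kb, c ≠ 0 → c ≠ 1728 → ∃ π : Equiv.Perm (Q N),
      Nonempty (LocalUnif Kb (FF N) (Q N) (jF N - algebraMap Kb (FF N) c) 1 π))
    (h1728 : ∃ (e : ℕ) (π : Equiv.Perm (Q N)),
      Subgroup.zpowers π = Subgroup.zpowers (MulAction.toPerm ModularGroup.S) ∧
      Nonempty (LocalUnif Kb (FF N) (Q N) (jF N - algebraMap Kb (FF N) 1728) e π))
    (h0 : ∃ (e : ℕ) (π : Equiv.Perm (Q N)),
      Subgroup.zpowers π = Subgroup.zpowers (MulAction.toPerm (ModularGroup.S * ModularGroup.T)) ∧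
      Nonempty (LocalUnif Kb (FF N) (Q N) (jF N - algebraMap Kb (FF N) 0) e π))
    (hoo : ∃ (e : ℕ) (π : Equiv.Perm (Q N)),
      Subgroup.zpowers π = Subgroup.zpowers (MulAction.toPerm ModularGroup.T) ∧
      Nonempty (LocalUnif Kb (FF N) (Q N) (jF N)⁻¹ e π)) :
    (genus Kb (FF N) : ℚ) = ModularCurve.genusFormula N := by
  classical
  let _ : Fintype (Q N) := Fintype.ofFinite _
  rw [Nat.card_eq_fintype_card] at hn
  set o2 := Nat.card (MulAction.orbitRel.Quotient
    (Subgroup.zpowers (MulAction.toPerm ModularGroup.S : Equiv.Perm (Q N))) (Q N)) with ho2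
  set o3 := Nat.card (MulAction.orbitRel.Quotient (Subgroup.zpowers
    (MulAction.toPerm (ModularGroup.S * ModularGroup.T) : Equiv.Perm (Q N))) (Q N)) with ho3
  set oinf := Nat.card (MulAction.orbitRel.Quotient
    (Subgroup.zpowers (MulAction.toPerm ModularGroup.T : Equiv.Perm (Q N))) (Q N)) with hoinf
  have hne : (0 : Kb) ≠ 1728 := by norm_num
  obtain ⟨hex, hdeg⟩ := FinalAbs.degree_of_unif (Q := Q N) (jF N) htr hn ({0, 1728} : Finset Kb)
    (fun c => if c = 0 then o3 else o2) oinf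
    (by
      intro c
      by_cases hc0 : c = 0
      · subst hc0
        obtain ⟨e, π, hπ, hU⟩ := h0
        refine ⟨e, π, hU, fun h => absurd (by simp) h, fun _ => ?_⟩
        rw [hπ, if_pos rfl]
      by_cases hc1 : c = 1728
      · subst hc1
        obtain ⟨e, π, hπ, hU⟩ := h1728
        refine ⟨e, π, hU, fun h => absurd (by simp) h, fun _ => ?_⟩
        rw [hπ, if_neg hc0]
      · obtain ⟨π, hU⟩ := hgen c hc0 hc1
        exact ⟨1, π, hU, fun _ => rfl, fun h => absurd h (by simp [hc0, hc1])⟩)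
    (by
      obtain ⟨e, π, hπ, hU⟩ := hoo
      exact ⟨e, π, hU, by rw [hπ]⟩)
  have hgenus : genus Kb (FF N)
      = (Divisor.degree (canonicalDivisorOf hex.choose_spec) + 2).toNat / 2 := by
    unfold genus
    rw [dif_pos hex]
  rw [hgenus, hdeg, Finset.sum_pair hne, if_pos rfl, if_neg hne.symm]
  have hcard : Fintype.card (Q N) = ModularCurve.dedekindPsi N := by
    rw [← Nat.card_eq_fintype_card]; exact Fermat.Agent.S20.card_quot N
  have e2 := OrbitCount.card_orbits_of_pow_prime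
    (MulAction.toPerm ModularGroup.S : Equiv.Perm (Q N)) 2 Nat.prime_two
    (FinalAbs.toPerm_pow_eq_one N _ 2 FinalAbs.S_sq)
  have e3 := OrbitCount.card_orbits_of_pow_prime
    (MulAction.toPerm (ModularGroup.S * ModularGroup.T) : Equiv.Perm (Q N)) 3 Nat.prime_three
    (FinalAbs.toPerm_pow_eq_one N _ 3 FinalAbs.ST_cube)
  have f2 : Nat.card {q : Q N // (MulAction.toPerm ModularGroup.S : Equiv.Perm (Q N)) q = q}
      = ModularCurve.nuTwo N := Fermat.Agent.S20.card_fixed_S N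
  have f3 : Nat.card {q : Q N //
      (MulAction.toPerm (ModularGroup.S * ModularGroup.T) : Equiv.Perm (Q N)) q = q}
      = ModularCurve.nuThree N := Fermat.Agent.S20.card_fixed_ST N
  have finf : oinf = ModularCurve.cuspCount N := by
    rw [hoinf, OrbitCount.card_orbits_toPerm]
    exact Fermat.Agent.S20.card_orbits_T N
  rw [f2] at e2
  rw [f3] at e3
  have hS20 := Fermat.Agent.S20.result N
  rw [← hS20]
  congr 1
  apply FinalAbs.arith _ o2 o3 oinf _ _ _ e2 e3
  rw [hS20, ModularCurve.genusFormula, hcard, finf]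

end Fermat.Agent.S24
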