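/-
S24, JFacts (J4): the translates of `j(Nτ)` under coset representatives of `Γ₀(N)` are distinct.
Proof: `diag(N,1) γ = γ' (g B; 0 D)` (Hermite form, `S23.prim_decomp`), so
`j(N γ τ) = j((g τ + B)/D)`; `j(z) q(z) → 1` at `i∞`; compare growth: `g/D = N`, so `D = 1`.
-/
import Fermat.Agent.S24.Defs
import Fermat.Agent.S23.Prim

set_option autoImplicit false

open UpperHalfPlane ModularForm EisensteinSeries Function CongruenceSubgroup Filter Topology
open Matrix.SpecialLinearGroup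
open scoped Manifold MatrixGroups

namespace Fermat.Agent.S24

theorem j4_form_smul {k : ℤ} {F : Type*} [FunLike F ℍ ℂ] [SlashInvariantFormClass F 𝒮ℒ k]
    (f : F) (g : SL(2, ℤ)) (τ : ℍ) : f (g • τ) = (denom g τ) ^ k * f τ := by
  have hm : mapGL ℝ g ∈ 𝒮ℒ := ⟨g, rfl⟩
  exact SlashInvariantForm.slash_action_eqn'' f hm τ

theorem j4_alg (x a b : ℂ) (hx : x ≠ 0) (hb : b ≠ 0) :
    (x ^ (4 : ℤ) * a) ^ 3 / (x ^ (12 : ℤ) * b) = a ^ 3 / b := by
  rw [zpow_ofNat, zpow_ofNat]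
  field_simp

theorem j4_jfun_smul (g : SL(2, ℤ)) (τ : ℍ) : jfun (g • τ) = jfun τ := by
  have h4 := j4_form_smul E₄ g τ
  have h12 := j4_form_smul CuspForm.discriminant g τ
  rw [CuspForm.coe_discriminant] at h12
  rw [jfun, jfun, h4, h12]
  exact j4_alg _ _ _ (denom_ne_zero _ _) (ModularForm.discriminant_ne_zero τ)

/-- `j(z) q(z) → 1` -/
theorem j4_tendsto : Tendsto (fun τ : ℍ => jfun τ * Periodic.qParam 1 τ) atImInfty (𝓝 1) := by
  have h1 := ModularForm.tendsto_atImInfty_tprod_one_sub_eta_q_pow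
  have h2 := Fermat.Agent.S23.prim_E4_tendsto
  have h3 := (h2.pow 3).div h1 one_ne_zero
  simp only [one_pow, div_one] at h3
  refine h3.congr fun τ => ?_
  have hq : Periodic.qParam 1 (τ : ℂ) ≠ 0 := Complex.exp_ne_zero _
  have hΔ := ModularForm.discriminant_ne_zero τ
  rw [jfun, ModularForm.discriminant_eq_q_prod] at *
  have hp := right_ne_zero_of_mul hΔ
  simp only [Pi.div_apply]
  field_simp

theorem j4_coe_smul (a b d : ℝ) (ha : 0 < a) (hd : 0 < d) (τ : ℍ) :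
    ((upperTriangularGL a b d (mul_pos ha hd).ne' • τ : ℍ) : ℂ) = (a * τ + b) / d := by
  have hdet : 0 < ((upperTriangularGL a b d (mul_pos ha hd).ne').det : ℝ) := by
    rw [Matrix.GeneralLinearGroup.val_det_apply, val_upperTriangularGL, Matrix.det_fin_two_of]
    simpa using mul_pos ha hd
  rw [UpperHalfPlane.coe_smul_of_det_pos hdet]
  simp [UpperHalfPlane.num, UpperHalfPlane.denom]

variable (N : ℕ) [NeZero N]

theorem j4_dmul_eq (τ : ℍ) : dmul (⟨N, dvd_rfl⟩ : Dv N) τ = Fermat.Agent.S23.primα N • τ := by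
  ext
  rw [Fermat.Agent.S23.primα_smul_coe]
  rfl

theorem j4_key (γ : SL(2, ℤ))
    (h : ∀ τ : ℍ, jfun (dmul (⟨N, dvd_rfl⟩ : Dv N) (γ • τ)) = jfun (dmul (⟨N, dvd_rfl⟩ : Dv N) τ)) :
    γ ∈ Gamma0 N := by
  obtain ⟨γ', g, B, D, hg, hD, hgD, hD1, e00, e01, e10, e11⟩ := Fermat.Agent.S23.prim_decomp N γ
  have hgR : (0 : ℝ) < g := by exact_mod_cast hg
  have hDR : (0 : ℝ) < D := by exact_mod_cast hD
  have hNR : (0 : ℝ) < N := by exact_mod_cast Nat.pos_of_ne_zero (NeZero.ne N)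
  have hmat := Fermat.Agent.S23.prim_mat_eq (N : ℤ) g B D (Fermat.Agent.S23.primN_ne N)
    (mul_pos hgR hDR).ne' γ γ' e00 e01 e10 e11
  set U := upperTriangularGL (g : ℝ) B D (mul_pos hgR hDR).ne' with hU
  have e : ∀ τ : ℍ, Fermat.Agent.S23.primα N • (γ • τ) = γ' • (U • τ) := by
    intro τ
    change Fermat.Agent.S23.primα N • (mapGL ℝ γ • τ) = mapGL ℝ γ' • (U • τ)
    rw [← mul_smul, ← mul_smul, ← hmat]
    rfl
  have hj : ∀ τ : ℍ, jfun (U • τ) = jfun (Fermat.Agent.S23.primα N • τ) := by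
    intro τ
    rw [← j4_jfun_smul γ' (U • τ), ← e, ← j4_dmul_eq, ← j4_dmul_eq, h]
  suffices hD' : D = 1 by
    rw [Gamma0_mem]
    exact (ZMod.intCast_zmod_eq_zero_iff_dvd _ _).mpr (hD1 hD')
  by_contra hne
  have hD2 : (2 : ℤ) ≤ D := by omega
  have hD2R : (2 : ℝ) ≤ D := by exact_mod_cast hD2
  have hgDR : (g : ℝ) * D = N := by exact_mod_cast hgD
  -- the exponent
  have hc : (0 : ℝ) < N - g / D := by
    have : (g : ℝ) / D < N := by
      rw [div_lt_iff₀ hDR, ← hgDR]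
      nlinarith
    linarith
  have hU10 : U 1 0 = 0 := by simp [hU]
  have hα10 : (Fermat.Agent.S23.primα N) 1 0 = 0 := by simp [Fermat.Agent.S23.primα]
  have tA := j4_tendsto.comp (tendsto_smul_atImInfty hU10)
  have tB := j4_tendsto.comp (tendsto_smul_atImInfty hα10)
  have tR : Tendsto (fun τ : ℍ => Periodic.qParam (1 / (N - g / D : ℝ)) τ *
      Complex.exp (-(2 * Real.pi * Complex.I * (B / D)))) atImInfty (𝓝 (0 * _)) :=
    (qParam_tendsto_atImInfty (one_div_pos.2 hc)).mul_const _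
  have tAR := tA.mul tR
  rw [zero_mul, mul_zero] at tAR
  have heq : ∀ τ : ℍ, ((fun τ : ℍ => jfun τ * Periodic.qParam 1 τ) ∘ fun τ : ℍ => U • τ) τ *
      (Periodic.qParam (1 / (N - g / D : ℝ)) τ *
      Complex.exp (-(2 * Real.pi * Complex.I * (B / D)))) =
      ((fun τ : ℍ => jfun τ * Periodic.qParam 1 τ) ∘
        fun τ : ℍ => Fermat.Agent.S23.primα N • τ) τ := by
    intro τ
    simp only [comp_apply]
    rw [hj, mul_assoc]
    congr 1
    rw [hU, j4_coe_smul _ _ _ hgR hDR, Fermat.Agent.S23.primα_smul_coe]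
    simp only [Periodic.qParam, ← Complex.exp_add]
    congr 1
    have hDC : (D : ℂ) ≠ 0 := by exact_mod_cast hD.ne'
    push_cast
    field_simp
    ring
  have := tendsto_nhds_unique (tAR.congr heq) tB
  exact zero_ne_one this

/-- (J4) the translates of `j(Nτ)` are pairwise distinct -/
theorem j4_mk_eq_of_jfun_eq (g g' : SL(2, ℤ))
    (h : ∀ τ : ℍ, jfun (dmul (⟨N, dvd_rfl⟩ : Dv N) (g⁻¹ • τ))
      = jfun (dmul (⟨N, dvd_rfl⟩ : Dv N) (g'⁻¹ • τ))) :
    (QuotientGroup.mk g : Q N) = QuotientGroup.mk g' := by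
  rw [QuotientGroup.eq]
  apply j4_key
  intro τ
  have := h (g' • τ)
  rw [inv_smul_smul, ← mul_smul] at this
  exact this

end Fermat.Agent.S24
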