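/-
S24: the rotation `s ↦ ζ s` on Laurent series.
-/
import Fermat.Agent.S24.Defs

set_option autoImplicit false

namespace Fermat.Agent.S24

/-- underlying function of `rot` -/
noncomputable def rotFun (ζ : ℂ) (u : LaurentSeries ℂ) : LaurentSeries ℂ where
  coeff k := ζ ^ k * u.coeff k
  isPWO_support' := u.isPWO_support.mono (by
    intro k hk
    simp only [Function.mem_support, ne_eq, mul_eq_zero, not_or] at hk
    exact hk.2)

theorem rotFun_coeff (ζ : ℂ) (u : LaurentSeries ℂ) (k : ℤ) :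
    (rotFun ζ u).coeff k = ζ ^ k * u.coeff k := rfl

/-- `∑ a_k s^k ↦ ∑ a_k ζ^k s^k` -/
noncomputable def rot (ζ : ℂ) (hζ : ζ ≠ 0) : LaurentSeries ℂ →+* LaurentSeries ℂ where
  toFun := rotFun ζ
  map_one' := by
    ext k
    rw [rotFun_coeff, HahnSeries.coeff_one]
    split_ifs with h
    · subst h; simp
    · simp
  map_zero' := by
    ext k
    simp [rotFun_coeff]
  map_add' u v := by
    ext k
    simp [rotFun_coeff, mul_add]
  map_mul' u v := by
    ext k
    rw [rotFun_coeff, HahnSeries.coeff_mul, HahnSeries.coeff_mul, Finset.mul_sum]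
    refine Finset.sum_congr ?_ ?_
    · ext ij
      simp only [Finset.mem_antidiagonal, HahnSeries.mem_support, rotFun_coeff, ne_eq,
        mul_eq_zero, zpow_ne_zero _ hζ, false_or]
    · intro ij hij
      rw [Finset.mem_antidiagonal] at hij
      rw [rotFun_coeff, rotFun_coeff, ← hij.2.2, zpow_add₀ hζ]
      ring

theorem rot_coeff (ζ : ℂ) (hζ : ζ ≠ 0) (u : LaurentSeries ℂ) (k : ℤ) :
    (rot ζ hζ u).coeff k = ζ ^ k * u.coeff k := rfl

theorem rot_ofPowerSeries (ζ : ℂ) (hζ : ζ ≠ 0) (p : PowerSeries ℂ) :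
    rot ζ hζ (HahnSeries.ofPowerSeries ℤ ℂ p) =
      HahnSeries.ofPowerSeries ℤ ℂ (PowerSeries.rescale ζ p) := by
  ext k
  rw [rot_coeff]
  change ζ ^ k * (p : LaurentSeries ℂ).coeff k = ((PowerSeries.rescale ζ p : PowerSeries ℂ) : LaurentSeries ℂ).coeff k
  rw [PowerSeries.coeff_coe, PowerSeries.coeff_coe]
  split_ifs with h
  · simp
  · rw [PowerSeries.coeff_rescale]
    congr 1
    conv_lhs => rw [← Int.natAbs_of_nonneg (not_lt.mp h)]
    rw [zpow_natCast]

end Fermat.Agent.S24
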